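import Mathlib.LinearAlgebra.Matrix.Charpoly.Coeff
import Mathlib.LinearAlgebra.Matrix.ToLinearEquiv
import Mathlib.LinearAlgebra.Matrix.GeneralLinearGroup.Defs
import Mathlib.FieldTheory.IsAlgClosed.Basic

/-!
# Two dimensional representations reducible on a subgroup with abelian quotient

Over an algebraically closed field of characteristic other than two, a representation without
stable line that gets one on such a subgroup has a self-twist.
-/

set_option autoImplicit false

noncomputable section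

open Matrix

namespace FA.WeightTwoOrdinary

variable {G : Type} [Group G] {L : Type} [Field L]

/-- An eigenvector over an algebraically closed field. -/
theorem exists_eigenvector_two [IsAlgClosed L] (M : Matrix (Fin 2) (Fin 2) L) :
    ∃ (c : L) (v : Fin 2 → L), v ≠ 0 ∧ M *ᵥ v = c • v := by
  obtain ⟨c, hc⟩ := IsAlgClosed.exists_root M.charpoly (by
    rw [Matrix.charpoly_degree_eq_dim, Fintype.card_fin]
    norm_num)
  rw [Polynomial.IsRoot.def, Matrix.eval_charpoly] at hc
  obtain ⟨v, hv, h⟩ := Matrix.exists_mulVec_eq_zero_iff.2 hc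
  refine ⟨c, v, hv, ?_⟩
  rw [Matrix.sub_mulVec, sub_eq_zero] at h
  rw [← h, Matrix.scalar_apply]
  ext i
  rw [Matrix.mulVec_diagonal, Pi.smul_apply, smul_eq_mul]

/-- Two independent eigenvectors make a scalar if their eigenvalues agree. -/
theorem eq_scalar_of_two {M : Matrix (Fin 2) (Fin 2) L} {v w : Fin 2 → L} (hv : v ≠ 0)
    (hw : ∀ c : L, w ≠ c • v) {a : L} (h1 : M *ᵥ v = a • v) (h2 : M *ᵥ w = a • w) :
    M = a • 1 := by
  have hz : ∀ u : Fin 2 → L, (M - a • 1) *ᵥ u = 0 := by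
    have hli : LinearIndependent L ![v, w] := by
      rw [LinearIndependent.pair_iff' hv]
      exact fun c e => hw c e.symm
    have hspan := hli.span_eq_top_of_card_eq_finrank (by simp)
    intro u
    have hu : u ∈ Submodule.span L (Set.range ![v, w]) := hspan ▸ Submodule.mem_top
    induction hu using Submodule.span_induction with
    | mem x hx =>
      obtain ⟨i, rfl⟩ := hx
      fin_cases i <;> simp [Matrix.sub_mulVec, Matrix.smul_mulVec, h1, h2]
    | zero => exact mulVec_zero _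
    | add x y _ _ hx hy => rw [mulVec_add, hx, hy, add_zero]
    | smul c x _ hx => rw [mulVec_smul, hx, smul_zero]
  rw [← sub_eq_zero]
  exact Matrix.ext fun i j => by simpa using congrFun (hz (Pi.single j 1)) i

/-- A commuting image has a stable line. -/
theorem exists_line_of_comm [IsAlgClosed L] (ρ : G →* GL (Fin 2) L)
    (h : ∀ g k, (ρ g).val * (ρ k).val = (ρ k).val * (ρ g).val) :
    ∃ v : Fin 2 → L, v ≠ 0 ∧ ∀ g, ∃ c : L, (ρ g).val *ᵥ v = c • v := by
  classical
  by_cases hall : ∀ g, ∃ c : L, (ρ g).val = c • 1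
  · exact ⟨![1, 0], fun e => one_ne_zero (congrFun e 0), fun g => (hall g).imp fun c hc => by
      rw [hc, smul_mulVec, one_mulVec]⟩
  push Not at hall
  obtain ⟨g, hg⟩ := hall
  obtain ⟨a, v, hv, hav⟩ := exists_eigenvector_two (ρ g).val
  refine ⟨v, hv, fun k => ?_⟩
  by_contra hk
  push Not at hk
  refine hg a (eq_scalar_of_two hv hk hav ?_)
  rw [mulVec_mulVec, h, ← mulVec_mulVec, hav, mulVec_smul]

/-- **The self-twist.** -/
theorem exists_selfTwist [IsAlgClosed L] (h2 : (2 : L) ≠ 0) (ρ : G →* GL (Fin 2) L)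
    (hirr : ∀ v : Fin 2 → L, v ≠ 0 → ∃ g, ∀ c : L, (ρ g).val *ᵥ v ≠ c • v) (H : Subgroup G)
    [hH : H.Normal] (hab : ∀ g k : G, g * k * g⁻¹ * k⁻¹ ∈ H) {v : Fin 2 → L} (hv : v ≠ 0)
    (hst : ∀ h ∈ H, ∃ c : L, (ρ h).val *ᵥ v = c • v) :
    ∃ χ : G →* Lˣ, χ ≠ 1 ∧ ∀ g, (χ g : L) * (ρ g).val.trace = (ρ g).val.trace := by
  classical
  by_cases hsc : ∀ h ∈ H, ∃ c : L, (ρ h).val = c • 1
  · -- the image is abelian modulo the scalars
    have hz : ∀ g k, ∃ z : L, (ρ g).val * (ρ k).val = z • ((ρ k).val * (ρ g).val) := fun g k => by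
      obtain ⟨z, hz⟩ := hsc _ (hab g k)
      refine ⟨z, ?_⟩
      rw [← Units.val_mul, ← map_mul, ← Units.val_mul, ← map_mul,
        show g * k = g * k * g⁻¹ * k⁻¹ * (k * g) by group, map_mul, Units.val_mul, hz,
        smul_mul_assoc, one_mul]
    choose z hz using hz
    have huniq : ∀ {g k : G} {c : L}, (ρ g).val * (ρ k).val = c • ((ρ k).val * (ρ g).val) →
        z g k = c := fun {g k c} e => by
      have h0 : ((ρ k).val * (ρ g).val) ≠ 0 := fun e0 => by
        rw [← Units.val_mul] at e0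
        exact (ρ k * ρ g).ne_zero e0
      exact smul_left_injective L h0 ((hz g k).symm.trans e)
    obtain ⟨g, k, hgk⟩ : ∃ g k, z g k ≠ 1 := by
      by_contra hone
      push Not at hone
      obtain ⟨w, hw, hws⟩ := exists_line_of_comm ρ fun g k => by rw [hz, hone, one_smul]
      obtain ⟨g, hg⟩ := hirr w hw
      obtain ⟨c, hc⟩ := hws g
      exact hg c hc
    have h1 : z g 1 = 1 := huniq (by rw [map_one, Units.val_one, mul_one, one_mul, one_smul])
    have hm : ∀ a b, z g (a * b) = z g a * z g b := fun a b => huniq (by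
      rw [map_mul, Units.val_mul, ← mul_assoc, hz g a, smul_mul_assoc, mul_assoc, hz g b,
        mul_smul_comm, smul_smul, mul_assoc])
    refine ⟨MonoidHom.toHomUnits ⟨⟨z g, h1⟩, hm⟩, fun e => hgk ?_, fun a => ?_⟩
    · have := congrArg (fun f : G →* Lˣ => (f k : L)) e
      simpa using this
    · show z g a * _ = _
      have := congrArg Matrix.trace (congrArg (· * ((ρ g)⁻¹).val) (hz g a))
      simp only [smul_mul_assoc, Matrix.trace_smul, smul_eq_mul] at this
      rw [mul_assoc (ρ a).val, Units.mul_inv, mul_one, Matrix.trace_units_conj] at this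
      exact this.symm
  -- two eigenlines permuted by the group
  push Not at hsc
  obtain ⟨h₀, hh₀, hns⟩ := hsc
  obtain ⟨g₁, hg₁⟩ := hirr v hv
  obtain ⟨w, hw⟩ : ∃ w, w = (ρ g₁).val *ᵥ v := ⟨_, rfl⟩
  have hwv : ∀ c : L, w ≠ c • v := fun c => hw ▸ hg₁ c
  have hconj : ∀ (g : G) (u : Fin 2 → L), (∀ h ∈ H, ∃ c : L, (ρ h).val *ᵥ u = c • u) →
      ∀ h ∈ H, ∃ c : L, (ρ h).val *ᵥ ((ρ g).val *ᵥ u) = c • ((ρ g).val *ᵥ u) := fun g u hu h hh => by
    obtain ⟨c, hc⟩ := hu (g⁻¹ * h * g) (by simpa using hH.conj_mem h hh g⁻¹)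
    refine ⟨c, ?_⟩
    rw [mulVec_mulVec, ← Units.val_mul, ← map_mul, show h * g = g * (g⁻¹ * h * g) by group, map_mul,
      Units.val_mul, ← mulVec_mulVec, hc, mulVec_smul]
  obtain ⟨a, ha⟩ := hst h₀ hh₀
  obtain ⟨b, hb⟩ := hconj g₁ v hst h₀ hh₀
  rw [← hw] at hb
  have hab' : a ≠ b := fun e => hns a (eq_scalar_of_two hv hwv ha (e ▸ hb))
  -- the stable lines are the two
  have hlines : ∀ u : Fin 2 → L, (∀ h ∈ H, ∃ c : L, (ρ h).val *ᵥ u = c • u) →
      (∃ c : L, u = c • v) ∨ ∃ c : L, u = c • w := fun u hu => by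
    have hli : LinearIndependent L ![v, w] := by
      rw [LinearIndependent.pair_iff' hv]
      exact fun c e => hwv c e.symm
    have hspan := hli.span_eq_top_of_card_eq_finrank (by simp)
    have hu' : u ∈ Submodule.span L (Set.range ![v, w]) := hspan ▸ Submodule.mem_top
    rw [Matrix.range_cons_cons_empty, Submodule.mem_span_pair] at hu'
    obtain ⟨x, y, rfl⟩ := hu'
    obtain ⟨c, hc⟩ := hu h₀ hh₀
    rw [mulVec_add, mulVec_smul, mulVec_smul, ha, hb, smul_add, smul_smul, smul_smul, smul_smul,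
      smul_smul] at hc
    obtain ⟨e1, e2⟩ := hli.eq_of_pair hc
    by_cases hx : x = 0
    · exact Or.inr ⟨y, by rw [hx, zero_smul, zero_add]⟩
    · refine Or.inl ⟨x, ?_⟩
      have hca : c = a := mul_right_cancel₀ hx (by linear_combination -e1)
      have hy : y * (b - a) = 0 := by rw [hca] at e2; linear_combination e2
      rcases mul_eq_zero.1 hy with hy | hy
      · rw [hy, zero_smul, add_zero]
      · exact absurd (sub_eq_zero.1 hy).symm hab'
  have hne : ∀ (g : G) {u : Fin 2 → L}, u ≠ 0 → (ρ g).val *ᵥ u ≠ 0 := fun g u hu e => hu (by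
    have := congrArg (((ρ g)⁻¹).val *ᵥ ·) e
    simpa [mulVec_mulVec] using this)
  have hw0 : w ≠ 0 := hw ▸ hne g₁ hv
  have hstw : ∀ h ∈ H, ∃ c : L, (ρ h).val *ᵥ w = c • w := hw ▸ hconj g₁ v hst
  have hswap : ∀ g, (¬∃ c : L, (ρ g).val *ᵥ v = c • v) → ∃ c : L, (ρ g).val *ᵥ w = c • v := fun g hg => by
    obtain ⟨c, hc⟩ := (hlines _ (hconj g v hst)).resolve_left hg
    rcases hlines _ (hconj g w hstw) with h | ⟨d, hd⟩
    · exact h
    · exfalso
      have hc0 : c ≠ 0 := fun e => hne g hv (by rw [hc, e, zero_smul])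
      have e : (ρ g).val *ᵥ (d • v - c • w) = 0 := by
        rw [mulVec_sub, mulVec_smul, mulVec_smul, hc, hd, smul_smul, smul_smul, mul_comm, sub_self]
      have h0 : d • v - c • w = 0 := by_contra fun hu => hne g hu e
      exact hwv (c⁻¹ * d) (by rw [mul_smul, sub_eq_zero.1 h0, inv_smul_smul₀ hc0])
  have hfix : ∀ g, (∃ c : L, (ρ g).val *ᵥ v = c • v) → ∃ c : L, (ρ g).val *ᵥ w = c • w :=
    fun g hg => by
      obtain ⟨c, hc⟩ := hg
      rcases hlines _ (hconj g w hstw) with ⟨d, hd⟩ | h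
      · exfalso
        have hc0 : c ≠ 0 := fun e => hne g hv (by rw [hc, e, zero_smul])
        have e : (ρ g).val *ᵥ (d • v - c • w) = 0 := by
          rw [mulVec_sub, mulVec_smul, mulVec_smul, hc, hd, smul_smul, smul_smul, mul_comm, sub_self]
        have h0 : d • v - c • w = 0 := by_contra fun hu => hne g hu e
        exact hwv (c⁻¹ * d) (by rw [mul_smul, sub_eq_zero.1 h0, inv_smul_smul₀ hc0])
      · exact h
  obtain ⟨s, hs⟩ : ∃ s : G → L, ∀ g, s g = if ∃ c : L, (ρ g).val *ᵥ v = c • v then 1 else -1 :=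
    ⟨_, fun _ => rfl⟩
  have hs1 : s 1 = 1 := by
    rw [hs, if_pos ⟨1, by rw [map_one, Units.val_one, one_mulVec, one_smul]⟩]
  have hsm : ∀ g k, s (g * k) = s g * s k := fun g k => by
    rw [hs, hs, hs]
    simp only [map_mul, Units.val_mul, ← mulVec_mulVec]
    by_cases hk : ∃ c : L, (ρ k).val *ᵥ v = c • v
    · obtain ⟨d, hd⟩ := hk
      have hd0 : d ≠ 0 := fun e => hne k hv (by rw [hd, e, zero_smul])
      rw [if_pos (show ∃ c : L, (ρ k).val *ᵥ v = c • v from ⟨d, hd⟩), mul_one]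
      simp only [hd, mulVec_smul]
      refine if_congr ⟨?_, ?_⟩ rfl rfl
      · rintro ⟨c, hc⟩
        exact ⟨d⁻¹ * c, by rw [mul_smul, ← hc, inv_smul_smul₀ hd0]⟩
      · rintro ⟨c, hc⟩
        exact ⟨d * c, by rw [hc, smul_smul]⟩
    · rw [if_neg hk]
      obtain ⟨d, hd⟩ := (hlines _ (hconj k v hst)).resolve_left hk
      have hd0 : d ≠ 0 := fun e => hne k hv (by rw [hd, e, zero_smul])
      simp only [hd, mulVec_smul]
      by_cases hg : ∃ c : L, (ρ g).val *ᵥ v = c • v
      · rw [if_pos hg, one_mul, if_neg]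
        rintro ⟨c, hc⟩
        obtain ⟨e, he⟩ := hfix g hg
        have he0 : e ≠ 0 := fun z => hne g hw0 (by rw [he, z, zero_smul])
        rw [he, smul_smul] at hc
        exact hwv ((d * e)⁻¹ * c) (by rw [mul_smul, ← hc, inv_smul_smul₀ (mul_ne_zero hd0 he0)])
      · rw [if_neg hg, neg_mul_neg, one_mul, if_pos]
        obtain ⟨e, he⟩ := hswap g hg
        exact ⟨d * e, by rw [he, smul_smul]⟩
  refine ⟨MonoidHom.toHomUnits ⟨⟨s, hs1⟩, hsm⟩, fun e => ?_, fun g => ?_⟩
  · have := congrArg (fun f : G →* Lˣ => (f g₁ : L)) e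
    have e1 : s g₁ = 1 := by simpa using this
    rw [hs, if_neg fun ⟨c, hc⟩ => hg₁ c hc] at e1
    exact h2 (by linear_combination -e1)
  · show s g * _ = _
    rw [hs]
    split_ifs with hg
    · rw [one_mul]
    · suffices (ρ g).val.trace = 0 by rw [this, mul_zero]
      obtain ⟨c, hc⟩ := (hlines _ (hconj g v hst)).resolve_left hg
      obtain ⟨d, hd⟩ := hswap g hg
      have hc0 : c ≠ 0 := fun e => hne g hv (by rw [hc, e, zero_smul])
      have hsq : (ρ g).val * (ρ g).val = (ρ g).val.trace • (ρ g).val - (ρ g).val.det • 1 := by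
        ext i j
        fin_cases i <;> fin_cases j <;>
          simp [Matrix.mul_apply, Fin.sum_univ_two, Matrix.trace_fin_two, Matrix.det_fin_two] <;>
          ring
      have e := congrArg (· *ᵥ v) hsq
      simp only [← mulVec_mulVec, sub_mulVec, smul_mulVec, one_mulVec, hc, mulVec_smul, hd,
        smul_smul] at e
      by_contra ht
      refine hwv (((ρ g).val.trace * c)⁻¹ * (c * d + (ρ g).val.det)) ?_
      rw [mul_smul, add_smul, e, sub_add_cancel, inv_smul_smul₀ (mul_ne_zero ht hc0)]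

end FA.WeightTwoOrdinary

end
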