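import Fermat.Agent.SerreLarge.Klein
import Fermat.Agent.WeightTwoOrdinary.TwoDimTwist
import Mathlib.GroupTheory.Solvable

/-!
# Irreducible linear groups of degree two with an element of order `p` are not solvable

In a last non-scalar term of the derived series either all elements commute, and the stabiliser
of an eigenline has index at most two, or they commute up to sign; then two of four conjugates by
the element `g` of order `p` commute, so `g` commutes with two anticommuting elements and is one.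
-/

set_option autoImplicit false
set_option linter.style.haveILetI false
set_option linter.unusedSectionVars false

noncomputable section

open Matrix FA.SerreLarge

namespace FA.WeightTwoOrdinary

variable {G : Type} [Group G] {k : Type} [Field k] (r : G →* Matrix (Fin 2) (Fin 2) k)

/-- The inverse on the left. -/
theorem inv_mul_val (g : G) : r g⁻¹ * r g = 1 := by rw [← map_mul, inv_mul_cancel, map_one]

/-- The inverse on the right. -/
theorem mul_inv_val (g : G) : r g * r g⁻¹ = 1 := by rw [← map_mul, mul_inv_cancel, map_one]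

/-- The values are not zero. -/
theorem val_ne_zero (g : G) : r g ≠ 0 := fun h => by
  have := inv_mul_val r g
  rw [h, mul_zero] at this
  exact zero_ne_one this

/-- A conjugation. -/
theorem conj_val (g a : G) : r (g * a * g⁻¹) * r g = r g * r a := by
  rw [← map_mul, ← map_mul, inv_mul_cancel_right]

/-- Elements with scalar commutator commute up to a sign. -/
theorem comm_or_anti {a b : G} {z : k} (h : r (a * b * a⁻¹ * b⁻¹) = z • 1) :
    r a * r b = r b * r a ∨ r a * r b = -(r b * r a) := by
  have e : r a * r b = z • (r b * r a) := by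
    rw [← map_mul, ← map_mul, show a * b = a * b * a⁻¹ * b⁻¹ * (b * a) by group, map_mul, h,
      smul_mul_assoc, one_mul]
  have hd := congrArg Matrix.det e
  rw [Matrix.det_smul, Matrix.det_mul, Matrix.det_mul, Fintype.card_fin, mul_comm (r b).det] at hd
  have h0 : (r a).det * (r b).det ≠ 0 := mul_ne_zero
    ((Matrix.isUnit_iff_isUnit_det _).mp ((Group.isUnit a).map r)).ne_zero
    ((Matrix.isUnit_iff_isUnit_det _).mp ((Group.isUnit b).map r)).ne_zero
  have hz : z * z = 1 := mul_right_cancel₀ h0 (by rw [one_mul, ← pow_two]; exact hd.symm)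
  rcases mul_self_eq_one_iff.1 hz with rfl | rfl
  · exact Or.inl (by rw [e, one_smul])
  · exact Or.inr (by rw [e, neg_one_smul])

/-- Anticommuting with an invertible matrix forces trace zero. -/
theorem trace_eq_zero_of_anti (h2 : (2 : k) ≠ 0) {a b : G} (h : r a * r b = -(r b * r a)) :
    (r a).trace = 0 := by
  have e : r b⁻¹ * (r a * r b) = -r a := by
    rw [h, mul_neg, ← mul_assoc, inv_mul_val, one_mul]
  have ht := congrArg Matrix.trace e
  rw [Matrix.trace_mul_comm, mul_assoc, mul_inv_val, mul_one, Matrix.trace_neg] at ht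
  exact (mul_eq_zero.1 (show (2 : k) * (r a).trace = 0 by linear_combination ht)).resolve_left h2

/-- Two commuting matrices of trace zero are proportional. -/
theorem eq_smul_of_comm_trace (h2 : (2 : k) ≠ 0) {A C : Matrix (Fin 2) (Fin 2) k}
    (hA : ∀ c : k, A ≠ c • 1) (h : C * A = A * C) (hta : A.trace = 0) (htc : C.trace = 0) :
    ∃ y : k, C = y • A := by
  obtain ⟨u, v, rfl⟩ := exists_eq_add_smul (not_isScalarMat_of hA) h
  rw [Matrix.trace_add, Matrix.trace_smul, Matrix.trace_smul, hta, Matrix.trace_one,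
    Fintype.card_fin, smul_zero, add_zero, smul_eq_mul] at htc
  push_cast at htc
  exact ⟨v, by rw [(mul_eq_zero.1 htc).resolve_right h2, zero_smul, zero_add]⟩

/-- Four elements commuting up to sign: two of them commute. -/
theorem two_of_four_comm {a : Fin 4 → G}
    (hca : ∀ i j, r (a i) * r (a j) = r (a j) * r (a i) ∨
      r (a i) * r (a j) = -(r (a j) * r (a i))) :
    ∃ i j, i < j ∧ r (a i) * r (a j) = r (a j) * r (a i) := by
  by_contra hcon
  push Not at hcon
  have hanti : ∀ i j, i ≠ j → r (a i) * r (a j) = -(r (a j) * r (a i)) := fun i j hij => by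
    rcases lt_or_gt_of_ne hij with h | h
    · exact (hca i j).resolve_left (hcon i j h)
    · rw [(hca j i).resolve_left (hcon j i h), neg_neg]
  set P := r (a 0) * r (a 1)
  have hP : ∀ c : k, P ≠ c • 1 := fun c hc => by
    have h1 : r (a 1) = c • r (a 0)⁻¹ := by
      rw [← one_mul (r (a 1)), ← inv_mul_val r (a 0), mul_assoc,
        show r (a 0) * r (a 1) = c • 1 from hc, mul_smul_comm, mul_one]
    refine hcon 0 1 (by decide) ?_
    rw [h1, mul_smul_comm, smul_mul_assoc, mul_inv_val, inv_mul_val]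
  have hcP : ∀ i, i ≠ 0 → i ≠ 1 → Commute (r (a i)) P := fun i h0 h1 => by
    show r (a i) * (r (a 0) * r (a 1)) = r (a 0) * r (a 1) * r (a i)
    rw [← mul_assoc, hanti i 0 h0, neg_mul, mul_assoc, hanti i 1 h1, mul_neg, neg_neg, mul_assoc]
  exact hcon 2 3 (by decide)
    (commute_of_commute hP (hcP 2 (by decide) (by decide)) (hcP 3 (by decide) (by decide))).eq

variable {p : ℕ} [CharP k p]

/-- An element of order `p` normalising the scalars of a matrix commutes with it. -/
theorem commute_of_conj_smul (hp : p.Prime) {g : G} (hg : r g ^ p = 1)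
    {A : Matrix (Fin 2) (Fin 2) k} (hA : A ≠ 0) {d : ℕ} (hd0 : ¬ p ∣ d) {y : k}
    (h : r g ^ d * A = y • (A * r g ^ d)) : Commute (r g) A := by
  haveI := Fact.mk hp
  set R := r g ^ d
  have hpow : ∀ n : ℕ, R ^ n * A = y ^ n • (A * R ^ n) := by
    intro n
    induction n with
    | zero => rw [pow_zero, pow_zero, one_smul, one_mul, mul_one]
    | succ n ih =>
      rw [pow_succ', mul_assoc, ih, mul_smul_comm, ← mul_assoc, h, smul_mul_assoc, mul_assoc,
        smul_smul, ← pow_succ]
  have hRp : R ^ p = 1 := by rw [← pow_mul, mul_comm, pow_mul, hg, one_pow]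
  have h1 := hpow p
  rw [hRp, one_mul, mul_one] at h1
  have hy : y ^ p = 1 := smul_left_injective k hA (show y ^ p • A = (1 : k) • A by
    rw [one_smul]; exact h1.symm)
  have hy1 : y = 1 := by
    rw [← sub_eq_zero]
    refine eq_zero_of_pow_eq_zero (n := p) ?_
    rw [sub_pow_char, hy, one_pow, sub_self]
  rw [hy1, one_smul] at h
  obtain ⟨e, he⟩ : ∃ e : ℕ, (d * e : ℕ) % p = 1 := by
    have hd : (d : ZMod p) ≠ 0 := fun h0 => hd0 ((ZMod.natCast_eq_zero_iff _ p).1 h0)
    refine ⟨((d : ZMod p)⁻¹).val, ?_⟩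
    have h1 : ((d * ((d : ZMod p)⁻¹).val : ℕ) : ZMod p) = ((1 : ℕ) : ZMod p) := by
      rw [Nat.cast_mul, ZMod.natCast_zmod_val, mul_inv_cancel₀ hd, Nat.cast_one]
    have h2 := (ZMod.natCast_eq_natCast_iff' _ _ p).1 h1
    rwa [Nat.mod_eq_of_lt hp.one_lt] at h2
  have hge : r g = R ^ e := by
    rw [← pow_mul, ← Nat.mod_add_div (d * e) p, he, pow_add, pow_mul, hg, one_pow, pow_one, mul_one]
  rw [hge]
  exact Commute.pow_left h e

/-- An element of order `p` is not scalar. -/
theorem ne_scalar_of_order (hp : p.Prime) {g : G} (hg : r g ^ p = 1) (hne : r g ≠ 1) (c : k) :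
    r g ≠ c • 1 := fun h => by
  haveI := Fact.mk hp
  rw [h, smul_pow, one_pow] at hg
  have hc : c ^ p = 1 := smul_left_injective k (one_ne_zero : (1 : Matrix (Fin 2) (Fin 2) k) ≠ 0)
    (show c ^ p • (1 : Matrix (Fin 2) (Fin 2) k) = (1 : k) • 1 by rw [hg, one_smul])
  have hc1 : c = 1 := by
    rw [← sub_eq_zero]
    refine eq_zero_of_pow_eq_zero (n := p) ?_
    rw [sub_pow_char, hc, one_pow, sub_self]
  exact hne (by rw [h, hc1, one_smul])

variable [IsAlgClosed k]

/-- A commutative non-scalar normal subgroup gives a line stable on an index two subgroup. -/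
theorem exists_line_index_two {N : Subgroup G} (hN : N.Normal) {a : G} (ha : a ∈ N)
    (hns : ∀ c : k, r a ≠ c • 1) (hcomm : ∀ x ∈ N, ∀ y ∈ N, r x * r y = r y * r x) :
    ∃ (H : Subgroup G) (v : Fin 2 → k), v ≠ 0 ∧ (∀ s t : G, s * t * s⁻¹ * t⁻¹ ∈ H) ∧
      ∀ s ∈ H, ∃ c : k, r s *ᵥ v = c • v := by
  classical
  obtain ⟨e, v, hv, hev⟩ := exists_eigenvector_two (r a)
  have hmulne : ∀ (s : G) {u : Fin 2 → k}, u ≠ 0 → r s *ᵥ u ≠ 0 := fun s u hu h => hu (by
    have h' := congrArg (r s⁻¹ *ᵥ ·) h
    simpa [Matrix.mulVec_mulVec, inv_mul_val] using h')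
  -- eigenvectors of `r a` go to eigenvectors
  have himg : ∀ (s : G) {u : Fin 2 → k}, u ≠ 0 → (∃ c : k, r a *ᵥ u = c • u) →
      ∃ c : k, r a *ᵥ (r s *ᵥ u) = c • (r s *ᵥ u) := by
    rintro s u hu ⟨c, hc⟩
    set b := s⁻¹ * a * s
    have hb : b ∈ N := by simpa [b] using hN.conj_mem a ha s⁻¹
    have hab := hcomm b hb a ha
    -- `u` is an eigenvector of `r b`
    obtain ⟨d, hd⟩ : ∃ d : k, r b *ᵥ u = d • u := by
      by_contra hno
      push Not at hno
      refine hns c (eq_scalar_of_two hu hno hc ?_)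
      rw [Matrix.mulVec_mulVec, ← hab, ← Matrix.mulVec_mulVec, hc, Matrix.mulVec_smul]
    refine ⟨d, ?_⟩
    rw [Matrix.mulVec_mulVec, ← map_mul, show a * s = s * b by simp [b, mul_assoc], map_mul,
      ← Matrix.mulVec_mulVec, hd, Matrix.mulVec_smul]
  obtain ⟨H, hH⟩ : ∃ H : Subgroup G, ∀ s, s ∈ H ↔ ∃ c : k, r s *ᵥ v = c • v := by
    refine ⟨{ carrier := {s | ∃ c : k, r s *ᵥ v = c • v}
              one_mem' := ⟨1, by rw [map_one, Matrix.one_mulVec, one_smul]⟩
              mul_mem' := ?_
              inv_mem' := ?_ }, fun s => Iff.rfl⟩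
    · rintro s t ⟨c, hc⟩ ⟨d, hd⟩
      exact ⟨d * c, by rw [map_mul, ← Matrix.mulVec_mulVec, hd, Matrix.mulVec_smul, hc, smul_smul]⟩
    · rintro s ⟨c, hc⟩
      have hc0 : c ≠ 0 := fun h => hmulne s hv (by rw [hc, h, zero_smul])
      refine ⟨c⁻¹, ?_⟩
      have h' := congrArg (r s⁻¹ *ᵥ ·) hc
      simp only [Matrix.mulVec_mulVec, inv_mul_val, Matrix.one_mulVec, Matrix.mulVec_smul] at h'
      rw [eq_inv_smul_iff₀ hc0, ← h']
  have hidx : ∀ s t, s ∉ H → t ∉ H → s * t ∈ H := by
    intro s t hs ht
    rw [hH] at hs ht ⊢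
    push Not at hs ht
    -- `r t *ᵥ v` is in the line of `r s *ᵥ v`
    obtain ⟨d, hd⟩ : ∃ d : k, r t *ᵥ v = d • (r s *ᵥ v) := by
      by_contra hno
      push Not at hno
      obtain ⟨cs, hcs⟩ := himg s hv ⟨e, hev⟩
      obtain ⟨ct, hct⟩ := himg t hv ⟨e, hev⟩
      -- three eigenlines
      have hli : LinearIndependent k ![v, r s *ᵥ v] :=
        (LinearIndependent.pair_iff' hv).2 fun c h => hs c h.symm
      have hu : r t *ᵥ v ∈ Submodule.span k (Set.range ![v, r s *ᵥ v]) := by
        rw [hli.span_eq_top_of_card_eq_finrank (by simp)]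
        exact Submodule.mem_top
      rw [Matrix.range_cons, Matrix.range_cons, Matrix.range_empty, Set.union_empty,
        Set.union_singleton, Set.pair_comm, Submodule.mem_span_pair] at hu
      obtain ⟨x, y, hxy⟩ := hu
      have hx : x ≠ 0 := fun h => hno y (by rw [← hxy, h, zero_smul, zero_add])
      have hy : y ≠ 0 := fun h => ht x (by rw [← hxy, h, zero_smul, add_zero])
      have h1 : (x * e) • v + (y * cs) • (r s *ᵥ v) =
          (x * ct) • v + (y * ct) • (r s *ᵥ v) := by
        have h := hct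
        rw [← hxy, Matrix.mulVec_add, Matrix.mulVec_smul, Matrix.mulVec_smul, hev, hcs, smul_add,
          smul_smul, smul_smul, smul_smul, smul_smul, mul_comm ct x, mul_comm ct y] at h
        exact h
      obtain ⟨q1, q2⟩ := hli.eq_of_pair h1
      refine hns e (eq_scalar_of_two hv (fun c => hs c) hev ?_)
      rw [hcs, mul_left_cancel₀ hy q2, ← mul_left_cancel₀ hx q1]
    -- `r s` takes its line to that of `v`
    obtain ⟨cs, hcs⟩ := himg s hv ⟨e, hev⟩
    obtain ⟨css, hcss⟩ := himg s (hmulne s hv) ⟨cs, hcs⟩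
    set w := r s *ᵥ v
    have hw : w ≠ 0 := hmulne s hv
    obtain ⟨c, hc⟩ : ∃ c : k, r s *ᵥ w = c • v := by
      have hli : LinearIndependent k ![v, w] :=
        (LinearIndependent.pair_iff' hv).2 fun c h => hs c h.symm
      have hu : r s *ᵥ w ∈ Submodule.span k (Set.range ![v, w]) := by
        rw [hli.span_eq_top_of_card_eq_finrank (by simp)]
        exact Submodule.mem_top
      rw [Matrix.range_cons, Matrix.range_cons, Matrix.range_empty, Set.union_empty,
        Set.union_singleton, Set.pair_comm, Submodule.mem_span_pair] at hu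
      obtain ⟨x, y, hxy⟩ := hu
      refine ⟨x, ?_⟩
      by_contra hne
      have hy : y ≠ 0 := fun h => hne (by rw [← hxy, h, zero_smul, add_zero])
      rcases eq_or_ne x 0 with hx | hx
      · -- two vectors to one line
        rw [hx, zero_smul, zero_add] at hxy
        have h' := congrArg (r s⁻¹ *ᵥ ·) hxy
        simp only [Matrix.mulVec_mulVec, Matrix.mulVec_smul, inv_mul_val, Matrix.one_mulVec] at h'
        rw [show w = r s *ᵥ v from rfl, Matrix.mulVec_mulVec, inv_mul_val, Matrix.one_mulVec] at h'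
        exact hs y h'.symm
      have h1 : (x * e) • v + (y * cs) • w = (x * css) • v + (y * css) • w := by
        have h := hcss
        rw [← hxy, Matrix.mulVec_add, Matrix.mulVec_smul, Matrix.mulVec_smul, hev, hcs, smul_add,
          smul_smul, smul_smul, smul_smul, smul_smul, mul_comm css x, mul_comm css y] at h
        exact h
      obtain ⟨q1, q2⟩ := hli.eq_of_pair h1
      refine hns e (eq_scalar_of_two hv (fun c => hs c) hev ?_)
      rw [hcs, mul_left_cancel₀ hy q2, ← mul_left_cancel₀ hx q1]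
    exact ⟨d * c, by rw [map_mul, ← Matrix.mulVec_mulVec, hd, Matrix.mulVec_smul, hc, smul_smul]⟩
  refine ⟨H, v, hv, fun s t => ?_, fun s hs => (hH s).1 hs⟩
  by_cases hall : ∀ x, x ∈ H
  · exact hall _
  push Not at hall
  obtain ⟨x, hx⟩ := hall
  have h2 : H.index = 2 := Subgroup.index_eq_two_iff.2 ⟨x, fun b => by
    by_cases hb : b ∈ H
    · refine Or.inr ⟨hb, fun h => hx ?_⟩
      exact (H.mul_mem_cancel_left hb).1 h
    · exact Or.inl ⟨hidx b x hb hx, hb⟩⟩
  rw [Subgroup.mul_mem_iff_of_index_two h2, Subgroup.mul_mem_iff_of_index_two h2,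
    Subgroup.mul_mem_iff_of_index_two h2, H.inv_mem_iff, H.inv_mem_iff]
  tauto

/-- **No term of the derived series acts trivially.** -/
theorem exists_derived_ne_one (hp : p.Prime) (h5 : 5 ≤ p) {g : G} (hg : r g ^ p = 1)
    (hne : r g ≠ 1)
    (hline : ∀ H : Subgroup G, H.Normal → (∀ s t : G, s * t * s⁻¹ * t⁻¹ ∈ H) →
      ∀ v : Fin 2 → k, v ≠ 0 → ∃ s ∈ H, ∀ c : k, r s *ᵥ v ≠ c • v) (n : ℕ) :
    ∃ s ∈ derivedSeries G n, r s ≠ 1 := by
  classical
  haveI := Fact.mk hp
  have h2 : (2 : k) ≠ 0 := fun e => by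
    have := Nat.le_of_dvd two_pos ((CharP.cast_eq_zero_iff k p 2).1 (by exact_mod_cast e))
    omega
  suffices h : ∀ n, ∃ s ∈ derivedSeries G n, ∀ c : k, r s ≠ c • 1 by
    obtain ⟨s, hs, h⟩ := h n
    exact ⟨s, hs, fun e => h 1 (by rw [e, one_smul])⟩
  intro n
  induction n with
  | zero => exact ⟨g, by simp, ne_scalar_of_order r hp hg hne⟩
  | succ m ih =>
    obtain ⟨a, ha, hns⟩ := ih
    by_contra hcon
    push Not at hcon
    have hN : (derivedSeries G m).Normal := derivedSeries_normal G m
    have hca : ∀ x ∈ derivedSeries G m, ∀ y ∈ derivedSeries G m,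
        r x * r y = r y * r x ∨ r x * r y = -(r y * r x) := fun x hx y hy => by
      obtain ⟨z, hz⟩ := hcon _ (Subgroup.commutator_mem_commutator hx hy)
      exact comm_or_anti r hz
    -- two anticommuting elements
    obtain ⟨x, hx, y, hy, hxy⟩ : ∃ x ∈ derivedSeries G m, ∃ y ∈ derivedSeries G m,
        r x * r y ≠ r y * r x := by
      by_contra hall
      push Not at hall
      obtain ⟨H, v, hv, hab, hst⟩ := exists_line_index_two r hN ha hns hall
      have hH : H.Normal := ⟨fun z hz w => by
        have := H.mul_mem (hab w z) hz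
        rwa [inv_mul_cancel_right] at this⟩
      obtain ⟨s, hs, h⟩ := hline H hH hab v hv
      obtain ⟨c, hc⟩ := hst s hs
      exact h c hc
    have key : ∀ z ∈ derivedSeries G m, ∀ w ∈ derivedSeries G m,
        r z * r w = -(r w * r z) → Commute (r g) (r z) := by
      intro z hz w hw hzw
      have hzt := trace_eq_zero_of_anti r h2 hzw
      have hzns : ∀ c : k, r z ≠ c • 1 := fun c e => by
        rw [e, smul_mul_assoc, one_mul, mul_smul_comm, mul_one] at hzw
        have h0 : (2 * c) • r w = 0 := by rw [two_mul, add_smul]; exact eq_neg_iff_add_eq_zero.1 hzw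
        rcases smul_eq_zero.1 h0 with h | h
        · have hc : c = 0 := (mul_eq_zero.1 h).resolve_left h2
          exact val_ne_zero r z (by rw [e, hc, zero_smul])
        · exact val_ne_zero r w h
      let f : Fin 4 → G := fun i => g ^ (i : ℕ) * z * (g ^ (i : ℕ))⁻¹
      have hf : ∀ i, f i ∈ derivedSeries G m := fun i => hN.conj_mem z hz _
      have hfv : ∀ i, r (f i) * r (g ^ (i : ℕ)) = r (g ^ (i : ℕ)) * r z := fun i => conj_val r _ z
      have hcancel : ∀ {X Y : Matrix (Fin 2) (Fin 2) k} (t : G), r t * X = r t * Y → X = Y :=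
        fun {X Y} t h => by
          have h' := congrArg (r t⁻¹ * ·) h
          simpa only [← mul_assoc, inv_mul_val, one_mul] using h'
      have hfns : ∀ i, ∀ c : k, r (f i) ≠ c • 1 := fun i c e => hzns c (hcancel (g ^ (i : ℕ)) (by
        rw [← hfv i, e, smul_mul_assoc, one_mul, mul_smul_comm, mul_one]))
      have hft : ∀ i, (r (f i)).trace = 0 := fun i => by
        rw [show r (f i) = r (g ^ (i : ℕ)) * r z * r (g ^ (i : ℕ))⁻¹ by
          rw [← map_mul, ← map_mul], Matrix.trace_mul_comm, ← mul_assoc, inv_mul_val, one_mul, hzt]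
      obtain ⟨i, j, hij, hcomm⟩ := two_of_four_comm r
        fun i j => hca _ (hf i) _ (hf j)
      obtain ⟨c, hc⟩ := eq_smul_of_comm_trace h2 (hfns i) hcomm.symm (hft i) (hft j)
      refine commute_of_conj_smul r hp hg (val_ne_zero r z) (d := (j : ℕ) - i) ?_ (y := c)
        (hcancel (g ^ (i : ℕ)) ?_)
      · intro hd
        have := Nat.le_of_dvd (by omega) hd
        omega
      have hsum : r (g ^ (i : ℕ)) * r g ^ ((j : ℕ) - i) = r (g ^ (j : ℕ)) := by
        rw [map_pow, map_pow, ← pow_add, Nat.add_sub_cancel' (le_of_lt hij)]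
      rw [← mul_assoc, hsum, ← hfv j, hc, smul_mul_assoc, mul_smul_comm, ← mul_assoc, ← hfv i,
        mul_assoc, hsum]
    have hanti := (hca x hx y hy).resolve_left hxy
    have hyx : r y * r x = -(r x * r y) := by rw [hanti, neg_neg]
    exact hxy (commute_of_commute (ne_scalar_of_order r hp hg hne)
      (key x hx y hy hanti).symm (key y hy x hx hyx).symm).eq

end FA.WeightTwoOrdinary
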