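import Fermat.Agent.WeightTwoOrdinary.LocalShapeLine
import Fermat.Agent.WeightTwoOrdinary.NonSolvable
import Mathlib.RingTheory.Nakayama
import Mathlib.LinearAlgebra.Dual.Lemmas

/-!
# No point of order `p` over the solvable closure

A system representation modulo `p` is not trivial on any term of the derived series. On a nonzero
module over the Hecke algebra with the relations of Frobenius some system representation acts
through the matrices, so an element acting trivially on the module is trivial there.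
-/

set_option autoImplicit false
set_option linter.style.haveILetI false
set_option linter.unusedSectionVars false
set_option synthInstance.maxHeartbeats 400000
set_option maxHeartbeats 2000000

noncomputable section

open ModularCurve FA.Mazur FA.JTorsion FA.ModField
open scoped Matrix

local notation "Qb" => AlgebraicClosure ℚ
local notation "GQ" => AlgebraicClosure ℚ ≃ₐ[ℚ] AlgebraicClosure ℚ

namespace FA.WeightTwoOrdinary

variable {p : ℕ} [hp : Fact p.Prime] {k : Type} [Field k] [CharP k p]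

/-- **A system representation is nontrivial on every term of the derived series.** -/
theorem IsSystemRep.derived_ne_one {θ : TAlg p →+* k} {r : GQ →* Matrix (Fin 2) (Fin 2) k}
    {S : Finset ℕ} (h : IsSystemRep θ r S) (h5 : 5 ≤ p) (n : ℕ) :
    ∃ s ∈ derivedSeries GQ n, r s ≠ 1 := by
  haveI : CharP (AlgebraicClosure k) p :=
    charP_of_injective_algebraMap (algebraMap k (AlgebraicClosure k)).injective p
  obtain ⟨e, he⟩ : ∃ e : k →+* AlgebraicClosure k, e = algebraMap k (AlgebraicClosure k) :=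
    ⟨_, rfl⟩
  set r' := e.mapMatrix.toMonoidHom.comp r
  have h' : IsSystemRep (e.comp θ) r' S := h.map e
  obtain ⟨g, hne, hsq⟩ := h'.exists_transvection h5
  have hpow : r' g ^ p = 1 := by
    have h1 : (r' g - 1) ^ p = 0 := pow_eq_zero_of_le hp.out.two_le (by rw [pow_two]; exact hsq)
    rwa [sub_pow_char_of_commute p (Commute.one_right _), one_pow, sub_eq_zero] at h1
  obtain ⟨s, hs, hs1⟩ := exists_derived_ne_one r' hp.out h5 hpow hne
    (fun H _ hab v hv => h'.no_line_abelian h5 H hab hv) n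
  exact ⟨s, hs, fun e1 => hs1 (by show e.mapMatrix (r s) = 1; rw [e1, map_one])⟩

/-- The image is not solvable. -/
theorem IsSystemRep.not_solvable {θ : TAlg p →+* k} {ρ : GQ →* GL (Fin 2) k} {S : Finset ℕ}
    (h : IsSystemRep θ ((Units.coeHom _).comp ρ) S) (h5 : 5 ≤ p) : ¬ Group.IsSolvable ρ.range := by
  intro hsol
  obtain ⟨n, hn⟩ := hsol.solvable
  obtain ⟨s, hs, hne⟩ := h.derived_ne_one h5 n
  have hmem : ρ.rangeRestrict s ∈ derivedSeries ρ.range n :=
    map_derivedSeries_le_derivedSeries ρ.rangeRestrict n (Subgroup.mem_map_of_mem _ hs)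
  rw [hn, Subgroup.mem_bot] at hmem
  exact hne (congrArg (fun x : ρ.range => (x : GL (Fin 2) k).val) hmem)

section Dual

variable {N : Type} [AddCommGroup N] [Module (TAlg p) N]

/-- The functionals compatible with a system. -/
def compatDual (θ : TAlg p →+* k) : Submodule k (N → k) where
  carrier := {φ | (∀ x y, φ (x + y) = φ x + φ y) ∧ ∀ (t : TAlg p) y, φ (t • y) = θ t * φ y}
  add_mem' {a b} ha hb := ⟨fun x y => by
    simp only [Pi.add_apply, ha.1, hb.1]
    abel, fun t y => by rw [Pi.add_apply, Pi.add_apply, ha.2, hb.2, mul_add]⟩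
  zero_mem' := ⟨fun x y => (add_zero 0).symm, fun t y => (mul_zero _).symm⟩
  smul_mem' c a ha := ⟨fun x y => by simp only [Pi.smul_apply, ha.1, smul_add], fun t y => by
    rw [Pi.smul_apply, Pi.smul_apply, ha.2, smul_eq_mul, smul_eq_mul]
    ring⟩

/-- The action on the compatible functionals. -/
def compatAct (θ : TAlg p →+* k) (γ : GQ →* Module.End (TAlg p) N) :
    GQ →* Module.End k (compatDual (N := N) θ) where
  toFun g :=
    { toFun := fun φ => ⟨fun y => φ.1 (γ g⁻¹ y), fun x y => by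
        show φ.1 (γ g⁻¹ (x + y)) = _
        rw [map_add]
        exact φ.2.1 _ _, fun t y => by
        show φ.1 (γ g⁻¹ (t • y)) = _
        rw [map_smul]
        exact φ.2.2 t _⟩
      map_add' := fun φ ψ => rfl
      map_smul' := fun c φ => rfl }
  map_one' := LinearMap.ext fun φ => Subtype.ext (funext fun y => by
    show φ.1 (γ 1⁻¹ y) = φ.1 y
    rw [inv_one, map_one, Module.End.one_apply])
  map_mul' g h := LinearMap.ext fun φ => Subtype.ext (funext fun y => by
    show φ.1 (γ (g * h)⁻¹ y) = φ.1 (γ h⁻¹ (γ g⁻¹ y))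
    rw [_root_.mul_inv_rev, map_mul, Module.End.mul_apply])

/-- **What acts trivially on the module acts trivially in the representation.** -/
theorem IsSystemRep.eq_one_of_act {θ : TAlg p →+* k} {r : GQ →* Matrix (Fin 2) (Fin 2) k}
    {S : Finset ℕ} (h : IsSystemRep θ r S) (h5 : 5 ≤ p) (γ : GQ →* Module.End (TAlg p) N)
    (hfield : ∃ L : IntermediateField ℚ Qb, FiniteDimensional ℚ L ∧
      ∀ σ : GQ, (∀ a ∈ L, σ a = a) → γ σ = 1)
    (hfrob : ∀ q : Nat.Primes, (q : ℕ) ≠ p →
      ∀ A : ValuationSubring Qb, A.LiesOverPrime q → ∀ σ : GQ, A.IsFrobeniusAt σ q →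
        γ σ + (q : ℕ) • γ σ⁻¹ = algebraMap (TAlg p) (Module.End (TAlg p) N) (tGen p q))
    {φ₀ : N → k} (hφ₀ : φ₀ ∈ compatDual (N := N) θ) (hne : φ₀ ≠ 0) {s : GQ} (hs : γ s = 1) :
    r s = 1 := by
  classical
  let r' : GQ →* Matrix (Fin 2) (Fin 2) k :=
    { toFun := fun g => (r g⁻¹)ᵀ
      map_one' := by rw [inv_one, map_one, Matrix.transpose_one]
      map_mul' := fun g h => by rw [_root_.mul_inv_rev, map_mul, Matrix.transpose_mul] }
  set act := compatAct θ γ
  haveI : Nontrivial (compatDual (N := N) θ) :=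
    ⟨⟨φ₀, hφ₀⟩, 0, fun e => hne (congrArg Subtype.val e)⟩
  have hinv : ∀ {M : Type} [Monoid M] (f : GQ →* M) {η : GQ}, f η = 1 → f η⁻¹ = 1 :=
    fun f η h => by
      have h4 : f η⁻¹ * f η = 1 := by rw [← map_mul, inv_mul_cancel, map_one]
      rwa [h, mul_one] at h4
  have hrel0 : ∀ g, act g⁻¹ + (r g).det • act g = (r g).trace • 1 := by
    obtain ⟨L, hL, hLγ⟩ := hfield
    have hact : IsOpen (act.ker : Set GQ) := isOpen_ker_of_field act ⟨L, hL, fun s hs =>
      LinearMap.ext fun φ => Subtype.ext (funext fun y => by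
        show φ.1 (γ s⁻¹ y) = φ.1 y
        rw [hinv γ (hLγ s hs)]
        rfl)⟩
    have hK : IsOpen (((act.prod r).ker : Subgroup GQ) : Set GQ) := by
      rw [MonoidHom.ker_prod, Subgroup.coe_inf]
      exact hact.inter h.1
    refine fun g => FA.Density.forall_of_frobenius_pow _ hK
      (fun g => act g⁻¹ + (r g).det • act g = (r g).trace • 1) ?_ (insert p S) ?_ g
    · intro g η hη hg
      obtain ⟨e1, e2⟩ := Prod.ext_iff.1 (MonoidHom.mem_ker.1 hη)
      change act η = 1 at e1
      change r η = 1 at e2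
      rw [_root_.mul_inv_rev, map_mul, map_mul, map_mul, e1, e2, hinv act e1, one_mul, mul_one,
        mul_one]
      exact hg
    · intro q hq hqS B hB g hg e
      rw [Finset.mem_insert, not_or] at hqS
      obtain ⟨htr, hdet⟩ := h.2 ⟨q, hq⟩ hqS.2 hqS.1 B hB g hg
      have h1 : act g⁻¹ + (r g).det • act g = (r g).trace • 1 :=
        LinearMap.ext fun φ => Subtype.ext (funext fun y => by
          let f : N →+ k := AddMonoidHom.mk' φ.1 φ.2.1
          have hf := congrArg f (LinearMap.congr_fun (hfrob ⟨q, hq⟩ hqS.1 B hB g hg) y)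
          rw [LinearMap.add_apply, LinearMap.smul_apply, map_add, map_nsmul,
            Module.algebraMap_end_apply, show ∀ z, f z = φ.1 z from fun _ => rfl,
            show ∀ z, f z = φ.1 z from fun _ => rfl, show ∀ z, f z = φ.1 z from fun _ => rfl,
            φ.2.2, nsmul_eq_mul] at hf
          show φ.1 (γ g⁻¹⁻¹ y) + (r g).det • φ.1 (γ g⁻¹ y) = (r g).trace • φ.1 y
          rw [inv_inv, htr, hdet, smul_eq_mul, smul_eq_mul]
          exact hf)
      have hpow := pow_add_smul_pow (u := act g⁻¹) (v := act g)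
        (by rw [← map_mul, inv_mul_cancel, map_one]) (by rw [← map_mul, mul_inv_cancel, map_one])
        h1 e
      rw [← map_pow, ← map_pow, inv_pow] at hpow
      rw [show r (g ^ e) = r g ^ e from map_pow r g e, trace_pow_fin_two, Matrix.det_pow]
      exact hpow
  have hrel : ∀ g, act g + (r' g).det • act g⁻¹ = (r' g).trace • 1 := fun g => by
    show act g + ((r g⁻¹)ᵀ).det • act g⁻¹ = ((r g⁻¹)ᵀ).trace • 1
    rw [Matrix.det_transpose, Matrix.trace_transpose]
    simpa only [inv_inv] using hrel0 g⁻¹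
  have hspan' : Submodule.span k (Set.range r') = ⊤ := by
    refine eq_top_iff.2 fun M _ => ?_
    have hmem : Mᵀ ∈ Submodule.span k (Set.range r) := h.span h5 ▸ Submodule.mem_top
    have h := Submodule.mem_map_of_mem
      (f := (Matrix.transposeLinearEquiv (Fin 2) (Fin 2) k k).toLinearMap) hmem
    rw [Submodule.map_span] at h
    refine Submodule.span_mono ?_ (by simpa using h)
    rintro _ ⟨_, ⟨g, rfl⟩, rfl⟩
    exact ⟨g⁻¹, by show (r g⁻¹⁻¹)ᵀ = _; rw [inv_inv]⟩
  have h2 : IsUnit (2 : k) := isUnit_iff_ne_zero.2 fun h => by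
    have := Nat.le_of_dvd two_pos ((CharP.cast_eq_zero_iff k p 2).1 (by exact_mod_cast h))
    omega
  obtain ⟨Ψ, hΨ⟩ := FA.FlatModel.exists_matrix_action r' act hspan' h2 hrel
  have hact1 : act s⁻¹ = 1 := LinearMap.ext fun φ => Subtype.ext (funext fun y => by
    show φ.1 (γ s⁻¹⁻¹ y) = φ.1 y
    rw [inv_inv, hs]
    rfl)
  have he : r' s⁻¹ = 1 := (RingHom.injective Ψ.toRingHom) (by
    show Ψ (r' s⁻¹) = Ψ 1
    rw [hΨ, hact1, map_one])
  have ht := congrArg Matrix.transpose he
  simpa [r'] using ht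

end Dual

/-- A nonzero finite module has a functional over some maximal ideal. -/
theorem exists_compat_functional {T N : Type} [CommRing T] [AddCommGroup N] [Module T N]
    [Finite N] [Nontrivial N] :
    ∃ (m : Ideal T) (_ : m.IsMaximal) (ψ : N →+ T ⧸ m),
      ψ ≠ 0 ∧ (∀ t y, ψ (t • y) = Ideal.Quotient.mk m t * ψ y) ∧
        ∀ t : T, (∀ y : N, t • y = 0) → t ∈ m := by
  classical
  obtain ⟨y₀, hy₀⟩ := exists_ne (0 : N)
  obtain ⟨m, hm, hle⟩ := Ideal.exists_le_maximal (⊤ : Submodule T N).annihilator (fun h => hy₀ (by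
    have := Submodule.mem_annihilator.1
      (show (1 : T) ∈ (⊤ : Submodule T N).annihilator by rw [h]; exact Submodule.mem_top) y₀ Submodule.mem_top
    rwa [one_smul] at this))
  have hann : ∀ t : T, (∀ y : N, t • y = 0) → t ∈ m := fun t ht =>
    hle (Submodule.mem_annihilator.2 fun y _ => ht y)
  have hne : m • (⊤ : Submodule T N) ≠ ⊤ := fun h => by
    obtain ⟨t, ht, ht'⟩ := Submodule.exists_sub_one_mem_and_smul_eq_zero_of_fg_of_le_smul m
      (⊤ : Submodule T N) Module.Finite.fg_top (le_of_eq h.symm)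
    refine hm.ne_top ((Ideal.eq_top_iff_one m).2 ?_)
    have := m.sub_mem (hann t fun y => ht' y trivial) ht
    rwa [sub_sub_cancel] at this
  obtain ⟨y, hy⟩ : ∃ y : N, y ∉ m • (⊤ : Submodule T N) := by
    by_contra hall
    push Not at hall
    exact hne (eq_top_iff.2 fun y _ => hall y)
  letI := Ideal.Quotient.field m
  obtain ⟨f, hf⟩ : ∃ f : Module.Dual (T ⧸ m) (N ⧸ m • (⊤ : Submodule T N)),
      f (Submodule.Quotient.mk y) ≠ 0 := by
    by_contra hall
    push Not at hall
    exact hy ((Submodule.Quotient.mk_eq_zero _).1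
      ((Module.forall_dual_apply_eq_zero_iff (T ⧸ m) _).1 hall))
  refine ⟨m, hm, f.toAddMonoidHom.comp (Submodule.mkQ (m • (⊤ : Submodule T N))).toAddMonoidHom,
    fun h => hf (DFunLike.congr_fun h y), fun t z => ?_, hann⟩
  show f (Submodule.Quotient.mk (t • z)) = _
  rw [Submodule.Quotient.mk_smul]
  exact f.map_smul (Ideal.Quotient.mk m t) (Submodule.Quotient.mk z)

/-- **A class of order `p` fixed by a term of the derived series is zero.** -/
theorem eq_zero_of_derived (h5 : 5 ≤ p) (n : ℕ) (x : JZero p) (hpx : p • x = 0)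
    (hfix : ∀ σ ∈ derivedSeries GQ n, σ • x = x) : x = 0 := by
  classical
  by_contra hx0
  obtain ⟨alg⟩ := exists_algebra_qbar
  letI := alg
  haveI : NeZero p := ⟨hp.out.ne_zero⟩
  obtain ⟨q₀, hq₀⟩ := FA.EisReducible.exists_toTors_eq_of_nsmul p p x hpx
  obtain ⟨γ, hγ⟩ : ∃ γ : GQ →* Module.End (TAlg p) (ModN p (∅ : Set ℕ) p),
      γ = galMod p (∅ : Set ℕ) p := ⟨_, rfl⟩
  obtain ⟨N, hN⟩ : ∃ N : Submodule (TAlg p) (ModN p (∅ : Set ℕ) p),
      ∀ q, q ∈ N ↔ ∀ s ∈ derivedSeries GQ n, γ s q = q :=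
    ⟨{ carrier := {q | ∀ s ∈ derivedSeries GQ n, γ s q = q}
       add_mem' := fun {a b} ha hb s hs => by rw [map_add, ha s hs, hb s hs]
       zero_mem' := fun s _ => map_zero _
       smul_mem' := fun t a ha s hs => by rw [map_smul, ha s hs] }, fun _ => Iff.rfl⟩
  have hmem : ∀ (σ : GQ), ∀ q ∈ N, γ σ q ∈ N := fun σ q hq => (hN _).2 fun s hs => by
    have h := (hN q).1 hq (σ⁻¹ * s * σ) (by
      simpa using (derivedSeries_normal GQ n).conj_mem s hs σ⁻¹)
    rw [← Module.End.mul_apply, ← map_mul, show s * σ = σ * (σ⁻¹ * s * σ) by group, map_mul,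
      Module.End.mul_apply, h]
  obtain ⟨g, hg⟩ : ∃ g : GQ →* Module.End (TAlg p) N,
      ∀ σ (q : N), (g σ q : ModN p (∅ : Set ℕ) p) = γ σ q :=
    ⟨{ toFun := fun σ => (γ σ).restrict (hmem σ)
       map_one' := LinearMap.ext fun q => Subtype.ext (by
        show γ 1 q = q
        rw [map_one]
        rfl)
       map_mul' := fun σ τ => LinearMap.ext fun q => Subtype.ext (by
        show γ (σ * τ) q = γ σ (γ τ q)
        rw [map_mul]
        rfl) }, fun _ _ => rfl⟩
  have hq : q₀ ∈ N := (hN _).2 fun s hs => toTors_injective p (∅ : Set ℕ) p (by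
    rw [hγ, toTors_galMod, hq₀, hfix s hs])
  haveI : Nontrivial N := ⟨⟨⟨q₀, hq⟩, 0, fun h => hx0 (by
    rw [← hq₀, show q₀ = 0 from congrArg Subtype.val h, map_zero])⟩⟩
  haveI := FA.FlatModel.modN_finite p (∅ : Set ℕ) p
  haveI : Finite N := inferInstance
  obtain ⟨m, hm, ψ, hψ, hψt, hann⟩ := exists_compat_functional (T := TAlg p) (N := N)
  letI := Ideal.Quotient.field m
  haveI : CharP (TAlg p ⧸ m) p := (CharP.charP_iff_prime_eq_zero hp.out).2 (by
    rw [← map_natCast (Ideal.Quotient.mk m), Ideal.Quotient.eq_zero_iff_mem]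
    refine hann _ fun y => Subtype.ext (toTors_injective p (∅ : Set ℕ) p ?_)
    rw [Submodule.coe_smul, Nat.cast_smul_eq_nsmul, map_nsmul, nsmul_toTors, ZeroMemClass.coe_zero,
      map_zero])
  haveI : CharP (AlgebraicClosure (TAlg p ⧸ m)) p :=
    charP_of_injective_algebraMap (algebraMap (TAlg p ⧸ m) (AlgebraicClosure (TAlg p ⧸ m))).injective p
  obtain ⟨e, he⟩ : ∃ e : TAlg p ⧸ m →+* AlgebraicClosure (TAlg p ⧸ m), e = algebraMap _ _ :=
    ⟨_, rfl⟩
  set θ : TAlg p →+* AlgebraicClosure (TAlg p ⧸ m) := e.comp (Ideal.Quotient.mk m)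
  obtain ⟨f, hf, φ, hφ⟩ := FA.Summary.prime_level_reduction (l := p) θ
  obtain ⟨ρ, hρ⟩ := exists_isTwoRep φ hf
  have hsys : IsSystemRep θ ((Units.coeHom _).comp ρ) ∅ := by
    refine ⟨Subgroup.isOpen_mono (fun σ hσ => MonoidHom.mem_ker.2 (by
      rw [MonoidHom.comp_apply, MonoidHom.mem_ker.1 hσ, map_one])) hρ.1,
      fun q _ hqp A hA σ hσ => ?_⟩
    obtain ⟨hσd, hσf⟩ := hσ
    obtain ⟨c, hc, ht, hd⟩ := (hρ.2 q q.2 hqp A hA).2 ⟨σ, hσd⟩ hσf
    obtain ⟨c', hc', hc''⟩ := hφ q
    refine ⟨ht.trans ?_, hd⟩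
    rw [show c = c' from Subtype.ext (hc.trans ((FA.Deform.qLin_apply _ _).trans hc'.symm)), hc'',
      show hCoeff p q = tGen p q from hCoeff_prime p q]
  obtain ⟨s, hs, hne⟩ := hsys.derived_ne_one h5 n
  refine hne (hsys.eq_one_of_act h5 g ?_ ?_ (φ₀ := fun y => e (ψ y)) ⟨fun a b => ?_, fun t y => ?_⟩
    (fun h => hψ (AddMonoidHom.ext fun y => e.injective ((congrFun h y).trans (map_zero e).symm)))
    (LinearMap.ext fun q => Subtype.ext (by rw [hg]; exact (hN _).1 q.2 s hs)))
  · obtain ⟨L, hL, hLγ⟩ := exists_field_galMod p (∅ : Set ℕ) p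
    exact ⟨L, hL, fun σ hσ => LinearMap.ext fun q => Subtype.ext (by
      rw [hg, hγ, hLγ σ hσ]
      rfl)⟩
  · intro r hrp A hA σ hσ
    have hrN : ¬ (r : ℕ) ∣ p := fun h => hrp ((Nat.prime_dvd_prime_iff_eq r.2 Fact.out).1 h)
    haveI : NeZero (r : ℕ) := ⟨r.2.ne_zero⟩
    refine LinearMap.ext fun q => Subtype.ext ?_
    have hf := galMod_frobenius p (∅ : Set ℕ) p (goodRed_all p) r.2 hrN hrN hA
      (Set.notMem_empty _) hσ (q : ModN p (∅ : Set ℕ) p)
    rw [← CuspForm.heckeEvalForms_heckeGen_of_not_dvd (ℓ := r) hrN, ← hγ] at hf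
    rw [LinearMap.add_apply, LinearMap.smul_apply, Submodule.coe_add, SetLike.val_smul_of_tower,
      hg, hg, hf]
    rfl
  · show e (ψ (a + b)) = e (ψ a) + e (ψ b)
    rw [map_add, map_add]
  · show e (ψ (t • y)) = θ t * e (ψ y)
    rw [hψt, map_mul]
    rfl

/-- **No `p`-power torsion fixed by a term of the derived series.** -/
theorem eq_zero_of_derived_pow (h5 : 5 ≤ p) (n : ℕ) :
    ∀ (e : ℕ) (x : JZero p), p ^ e • x = 0 → (∀ σ ∈ derivedSeries GQ n, σ • x = x) → x = 0 := by
  intro e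
  induction e with
  | zero => intro x hx _; rwa [pow_zero, one_smul] at hx
  | succ e ih =>
    intro x hx hfix
    refine ih x ?_ hfix
    refine eq_zero_of_derived h5 n (p ^ e • x) (by rw [smul_smul, ← pow_succ', hx]) fun σ hσ => ?_
    exact ((DistribSMul.toAddMonoidHom (JZero p) σ).map_nsmul (p ^ e) x).trans
      (by rw [DistribSMul.toAddMonoidHom_apply, hfix σ hσ])

end FA.WeightTwoOrdinary
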