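import Fermat.Agent.WeightTwoOrdinary.Mazur

/-!
# Torsion of `J₀(p)` over abelian extensions

The classes killed by a prime `l` and fixed by the commutators form a module over the Hecke algebra
on which Galois acts by commuting endomorphisms. A maximal ideal of the algebra they generate gives
a system modulo `l` and a character `a` with `θ(T_q) = a + q / a`: a reducible representation.
-/

set_option autoImplicit false
set_option linter.style.haveILetI false
set_option linter.unusedSectionVars false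
set_option synthInstance.maxHeartbeats 400000
set_option maxHeartbeats 2000000

noncomputable section

open ModularCurve FA.Mazur FA.JTorsion
open scoped Matrix

local notation "Qb" => AlgebraicClosure ℚ
local notation "GQ" => AlgebraicClosure ℚ ≃ₐ[ℚ] AlgebraicClosure ℚ

namespace FA.WeightTwoOrdinary

variable {p : ℕ} [Fact p.Prime] {l : ℕ} [Fact l.Prime]

/-- No stable line at a prime `l ≥ 5` not dividing the numerator. -/
theorem no_line_of_not_dvd {k : Type} [Field k] [CharP k l] (hp5 : 5 ≤ p) (h5 : 5 ≤ l)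
    (hn : ¬l ∣ eisensteinNumerator p) (θ : TAlg p →+* k) (r : GQ →* Matrix (Fin 2) (Fin 2) k)
    (hopen : IsOpen (r.ker : Set GQ))
    (hr : ∀ q : Nat.Primes, (q : ℕ) ≠ p → (q : ℕ) ≠ l →
      ∀ A : ValuationSubring Qb, A.LiesOverPrime q → ∀ σ : GQ, A.IsFrobeniusAt σ q →
        (r σ).trace = θ (tGen p q) ∧ (r σ).det = ((q : ℕ) : k))
    (v : Fin 2 → k) (hv : v ≠ 0) : ∃ σ, ∀ c : k, r σ *ᵥ v ≠ c • v := by
  rcases eq_or_ne l p with rfl | hlp
  · exact no_line_of_system hp5 θ r hopen ∅ (fun q _ hq => hr q hq hq) v hv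
  · exact FA.Summary.prime_level_irreducible_of_not_dvd h5 hlp hn θ r hopen hr v hv

/-- A system modulo `l` that is the sum of two characters is impossible. -/
theorem false_of_sum_system {F : Type} [Field F] [CharP F l] (hp5 : 5 ≤ p) (h5 : 5 ≤ l)
    (hn : ¬l ∣ eisensteinNumerator p) (θ : TAlg p →+* F) (a : GQ →* F)
    (hfield : ∃ L : IntermediateField ℚ Qb, FiniteDimensional ℚ L ∧
      ∀ σ : GQ, (∀ b ∈ L, σ b = b) → a σ = 1)
    (hfrob : ∀ q : Nat.Primes, (q : ℕ) ≠ p → (q : ℕ) ≠ l →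
      ∀ A : ValuationSubring Qb, A.LiesOverPrime q → ∀ σ : GQ, A.IsFrobeniusAt σ q →
        θ (tGen p q) = a σ + ((q : ℕ) : F) * a σ⁻¹) : False := by
  let c := ZMod.castHom (dvd_refl l) F
  let χ := cycK l (ZMod l)
  let r : GQ →* Matrix (Fin 2) (Fin 2) F :=
    { toFun := fun σ => Matrix.diagonal ![a σ, c (χ σ : ZMod l) * a σ⁻¹]
      map_one' := by
        rw [inv_one, map_one a, map_one χ, Units.val_one, mul_one, map_one, ← Matrix.diagonal_one]
        congr 1
        ext i; fin_cases i <;> rfl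
      map_mul' := fun σ τ => by
        rw [Matrix.diagonal_mul_diagonal, map_mul a, map_mul χ, Units.val_mul, mul_inv_rev,
          map_mul a, map_mul c]
        congr 1
        ext i
        fin_cases i
        · simp
        · simp
          ring }
  obtain ⟨L, hL, hLγ⟩ := hfield
  obtain ⟨L', hL', hLχ⟩ := exists_field_cycK l (ZMod l)
  have hopen : IsOpen (r.ker : Set GQ) := isOpen_ker_of_field r
      ⟨L ⊔ L', inferInstance, fun σ hσ => by
    have hσL : ∀ b ∈ L, σ b = b := fun b hb => hσ b ((le_sup_left : L ≤ L ⊔ L') hb)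
    have hσi : ∀ b ∈ L, σ⁻¹ b = b := fun b hb => by
      conv_lhs => rw [← hσL b hb, ← AlgEquiv.mul_apply, inv_mul_cancel]
      rfl
    show Matrix.diagonal ![a σ, c (χ σ : ZMod l) * a σ⁻¹] = 1
    rw [hLγ σ hσL, hLγ σ⁻¹ hσi,
      show χ σ = 1 from hLχ σ fun b hb => hσ b ((le_sup_right : L' ≤ L ⊔ L') hb), Units.val_one,
      mul_one, map_one, ← Matrix.diagonal_one]
    congr 1
    ext i; fin_cases i <;> rfl⟩
  obtain ⟨σ, hσ⟩ := no_line_of_not_dvd hp5 h5 hn θ r hopen (fun q hqp hql A hA σ hσ => by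
      have hχ : (χ σ : ZMod l) = (q : ℕ) := cycK_frobenius l _ q.2 hql hA hσ
      have hai : a σ * a σ⁻¹ = 1 := by rw [← map_mul, mul_inv_cancel, map_one]
      show (Matrix.diagonal _).trace = _ ∧ (Matrix.diagonal _).det = _
      rw [Matrix.trace_diagonal, Matrix.det_diagonal, Fin.sum_univ_two, Fin.prod_univ_two]
      simp only [Matrix.cons_val_zero, Matrix.cons_val_one, Matrix.cons_val_fin_one, hχ,
        map_natCast]
      refine ⟨(hfrob q hqp hql A hA σ hσ).symm, ?_⟩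
      rw [mul_left_comm, hai, mul_one])
    ![1, 0] (fun h => by simpa using congrFun h 0)
  refine hσ (a σ) ?_
  show Matrix.diagonal _ *ᵥ _ = _
  ext i
  fin_cases i <;> simp [Matrix.mulVec_diagonal]

/-- An endomorphism algebra generated by commuting elements maps to a field. -/
theorem exists_field_point {T N : Type} [CommRing T] [AddCommGroup N] [Module T N] [Nontrivial N]
    {G : Type} [Monoid G] (γ : G →* Module.End T N) (hcomm : ∀ σ τ, γ σ * γ τ = γ τ * γ σ) :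
    ∃ (F : Type) (_ : Field F) (θ : T →+* F) (a : G →* F),
      ∀ (σ τ : G) (n : ℕ) (t : T), γ σ + n • γ τ = algebraMap T (Module.End T N) t →
        θ t = a σ + (n : F) * a τ ∧
      (∀ ρ : G, γ ρ = 1 → a ρ = 1) ∧
      ∀ m : ℕ, (∀ q : N, m • q = 0) → (m : F) = 0 := by
  classical
  obtain ⟨R, hR⟩ : ∃ R : Subalgebra T (Module.End T N),
      R = Algebra.adjoin T (Set.range γ) := ⟨_, rfl⟩
  have hmul : IsMulCommutative R := hR ▸ Algebra.isMulCommutative_adjoin T
    (by rintro _ ⟨σ, rfl⟩ _ ⟨τ, rfl⟩; exact hcomm σ τ)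
  letI : CommRing R :=
    { (inferInstance : Ring R) with mul_comm := fun a b => hmul.is_comm.comm a b }
  obtain ⟨g, hg⟩ : ∃ g : G →* R, ∀ σ, (g σ : Module.End T N) = γ σ :=
    ⟨{ toFun := fun σ => ⟨γ σ, hR ▸ Algebra.subset_adjoin ⟨σ, rfl⟩⟩
       map_one' := Subtype.ext (map_one γ)
       map_mul' := fun σ τ => Subtype.ext (map_mul γ σ τ) }, fun _ => rfl⟩
  haveI : Nontrivial R := ⟨0, 1, fun h => zero_ne_one (congrArg Subtype.val h)⟩
  obtain ⟨M, hM⟩ := Ideal.exists_maximal R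
  refine ⟨R ⧸ M, Ideal.Quotient.field M, (Ideal.Quotient.mk M).comp (algebraMap T R),
    (Ideal.Quotient.mk M).toMonoidHom.comp g, fun σ τ n t h => ⟨?_, fun ρ h => ?_, fun m h => ?_⟩⟩
  · show Ideal.Quotient.mk M (algebraMap T R t) =
      Ideal.Quotient.mk M (g σ) + (n : R ⧸ M) * Ideal.Quotient.mk M (g τ)
    rw [← map_natCast (Ideal.Quotient.mk M), ← map_mul, ← map_add]
    refine congrArg _ (Subtype.ext (h.symm.trans ?_))
    rw [Subalgebra.coe_add, Subalgebra.coe_mul, hg, hg, nsmul_eq_mul]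
    norm_cast
  · show Ideal.Quotient.mk M (g ρ) = 1
    rw [show g ρ = 1 from Subtype.ext ((hg ρ).trans h), map_one]
  · show (m : R ⧸ M) = 0
    rw [← map_natCast (Ideal.Quotient.mk M), show (m : R) = 0 from Subtype.ext
      (LinearMap.ext fun q => by
        rw [← nsmul_one, AddSubmonoidClass.coe_nsmul, LinearMap.smul_apply]
        exact h q), map_zero]

/-- Commuting endomorphisms with the relation of Frobenius are impossible. -/
theorem false_of_commuting (hp5 : 5 ≤ p) (h5 : 5 ≤ l) (hn : ¬l ∣ eisensteinNumerator p)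
    {N : Type} [AddCommGroup N] [Module (TAlg p) N] [Nontrivial N] (hlN : ∀ q : N, l • q = 0)
    (γ : GQ →* Module.End (TAlg p) N) (hcomm : ∀ σ τ, γ σ * γ τ = γ τ * γ σ)
    (hfield : ∃ L : IntermediateField ℚ Qb, FiniteDimensional ℚ L ∧
      ∀ σ : GQ, (∀ a ∈ L, σ a = a) → γ σ = 1)
    (hfrob : ∀ q : Nat.Primes, (q : ℕ) ≠ p → (q : ℕ) ≠ l →
      ∀ A : ValuationSubring Qb, A.LiesOverPrime q → ∀ σ : GQ, A.IsFrobeniusAt σ q →
        γ σ + (q : ℕ) • γ σ⁻¹ = algebraMap (TAlg p) (Module.End (TAlg p) N) (tGen p q)) :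
    False := by
  obtain ⟨F, hF, θ, a, h⟩ := exists_field_point γ hcomm
  letI := hF
  have h1 := (h 1 1 0 1 (by rw [zero_smul, add_zero, map_one, map_one])).2
  haveI : CharP F l := (CharP.charP_iff_prime_eq_zero Fact.out).2 (h1.2 l hlN)
  obtain ⟨L, hL, hLγ⟩ := hfield
  exact false_of_sum_system hp5 h5 hn θ a ⟨L, hL, fun σ hσ => h1.1 σ (hLγ σ hσ)⟩
    fun q hqp hql A hA σ hσ => (h σ σ⁻¹ q _ (hfrob q hqp hql A hA σ hσ)).1

/-- **No class of order `l` fixed by the commutators.** -/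
theorem eq_zero_of_commutators (hp5 : 5 ≤ p) (h5 : 5 ≤ l) (hn : ¬l ∣ eisensteinNumerator p)
    (x : JZero p) (hlx : l • x = 0)
    (hfix : ∀ σ τ : GQ, (σ * τ * σ⁻¹ * τ⁻¹) • x = x) : x = 0 := by
  classical
  by_contra hx0
  obtain ⟨alg⟩ := exists_algebra_qbar
  letI := alg
  haveI : NeZero p := ⟨(Fact.out : p.Prime).ne_zero⟩
  haveI : NeZero l := ⟨(Fact.out : l.Prime).ne_zero⟩
  obtain ⟨q₀, hq₀⟩ := FA.EisReducible.exists_toTors_eq_of_nsmul p l x hlx
  obtain ⟨γ, hγ⟩ : ∃ γ : GQ →* Module.End (TAlg p) (ModN p (∅ : Set ℕ) l),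
      γ = galMod p (∅ : Set ℕ) l := ⟨_, rfl⟩
  obtain ⟨N, hN⟩ : ∃ N : Submodule (TAlg p) (ModN p (∅ : Set ℕ) l),
      ∀ q, q ∈ N ↔ ∀ σ τ : GQ, γ (σ * τ * σ⁻¹ * τ⁻¹) q = q :=
    ⟨{ carrier := {q | ∀ σ τ : GQ, γ (σ * τ * σ⁻¹ * τ⁻¹) q = q}
       add_mem' := fun {a b} ha hb σ τ => by rw [map_add, ha σ τ, hb σ τ]
       zero_mem' := fun σ τ => map_zero _
       smul_mem' := fun t a ha σ τ => by rw [map_smul, ha σ τ] }, fun _ => Iff.rfl⟩
  have hmem : ∀ (σ : GQ), ∀ q ∈ N, γ σ q ∈ N := fun σ q hq => (hN _).2 fun a b => by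
    have h := (hN q).1 hq (σ⁻¹ * a * σ) (σ⁻¹ * b * σ)
    rw [← Module.End.mul_apply, ← map_mul,
      show a * b * a⁻¹ * b⁻¹ * σ = σ * ((σ⁻¹ * a * σ) * (σ⁻¹ * b * σ) * (σ⁻¹ * a * σ)⁻¹ *
        (σ⁻¹ * b * σ)⁻¹) by group, map_mul, Module.End.mul_apply, h]
  obtain ⟨g, hg⟩ : ∃ g : GQ →* Module.End (TAlg p) N,
      ∀ σ (q : N), (g σ q : ModN p (∅ : Set ℕ) l) = γ σ q :=
    ⟨{ toFun := fun σ => (γ σ).restrict (hmem σ)
       map_one' := LinearMap.ext fun q => Subtype.ext (by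
        show γ 1 q = q
        rw [map_one]
        rfl)
       map_mul' := fun σ τ => LinearMap.ext fun q => Subtype.ext (by
        show γ (σ * τ) q = γ σ (γ τ q)
        rw [map_mul]
        rfl) }, fun _ _ => rfl⟩
  have hq : q₀ ∈ N := (hN _).2 fun σ τ => toTors_injective p (∅ : Set ℕ) l (by
    rw [hγ, toTors_galMod, hq₀, hfix])
  haveI : Nontrivial N := ⟨⟨⟨q₀, hq⟩, 0, fun h => hx0 (by
    rw [← hq₀, show q₀ = 0 from congrArg Subtype.val h, map_zero])⟩⟩
  refine false_of_commuting (l := l) hp5 h5 hn (N := N) (fun q => Subtype.ext ?_) g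
    (fun σ τ => LinearMap.ext fun q => Subtype.ext ?_) ?_ fun r hrp hrl A hA σ hσ => ?_
  · exact toTors_injective p (∅ : Set ℕ) l (by
      show toTors p (∅ : Set ℕ) l (l • (q : ModN p (∅ : Set ℕ) l)) = _
      rw [map_nsmul, nsmul_toTors, ZeroMemClass.coe_zero, map_zero])
  · show (g σ (g τ q) : ModN p (∅ : Set ℕ) l) = g τ (g σ q)
    rw [hg, hg, hg, hg, ← Module.End.mul_apply, ← map_mul, ← Module.End.mul_apply, ← map_mul,
      show σ * τ = σ * τ * σ⁻¹ * τ⁻¹ * (τ * σ) by group, map_mul, Module.End.mul_apply]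
    exact (hN _).1 (hmem _ q q.2) σ τ
  · obtain ⟨L, hL, hLγ⟩ := exists_field_galMod p (∅ : Set ℕ) l
    exact ⟨L, hL, fun σ hσ => LinearMap.ext fun q => Subtype.ext (by
      rw [hg, hγ, hLγ σ hσ]
      rfl)⟩
  · have hrN : ¬ (r : ℕ) ∣ p := fun h => hrp ((Nat.prime_dvd_prime_iff_eq r.2 Fact.out).1 h)
    have hrn : ¬ (r : ℕ) ∣ l := fun h => hrl ((Nat.prime_dvd_prime_iff_eq r.2 Fact.out).1 h)
    haveI : NeZero (r : ℕ) := ⟨r.2.ne_zero⟩
    refine LinearMap.ext fun q => Subtype.ext ?_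
    have hf := galMod_frobenius p (∅ : Set ℕ) l (goodRed_all p) r.2 hrN hrn hA
      (Set.notMem_empty _) hσ (q : ModN p (∅ : Set ℕ) l)
    rw [← CuspForm.heckeEvalForms_heckeGen_of_not_dvd (ℓ := r) hrN, ← hγ] at hf
    rw [LinearMap.add_apply, LinearMap.smul_apply, Submodule.coe_add, SetLike.val_smul_of_tower,
      hg, hg, hf]
    rfl

/-- Fixed by the commutators, killed by `M` prime to `6 n`: zero. -/
theorem eq_zero_of_commutators_coprime (hp5 : 5 ≤ p) :
    ∀ (M : ℕ), M.Coprime (6 * eisensteinNumerator p) → ∀ x : JZero p, M • x = 0 →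
      (∀ σ τ : GQ, (σ * τ * σ⁻¹ * τ⁻¹) • x = x) → x = 0 := by
  intro M
  induction M using Nat.strong_induction_on with
  | _ M ih =>
    intro hM x hx hfix
    rcases eq_or_ne M 1 with rfl | h1
    · rwa [one_smul] at hx
    have hM0 : M ≠ 0 := fun h => by
      rw [h, Nat.coprime_zero_left] at hM
      omega
    obtain ⟨r, hr, e, rfl⟩ := Nat.exists_prime_and_dvd h1
    haveI := Fact.mk hr
    have hne : ∀ t, t ∣ 6 * eisensteinNumerator p → ¬ r ∣ t := fun t ht h =>
      hr.one_lt.ne' (Nat.eq_one_of_dvd_coprimes hM (dvd_mul_right r e) (h.trans ht))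
    have h5 : 5 ≤ r := by
      have h2 : r ≠ 2 := fun h => hne 2 ((by norm_num : 2 ∣ 6).mul_right _) h.dvd
      have h3 : r ≠ 3 := fun h => hne 3 ((by norm_num : 3 ∣ 6).mul_right _) h.dvd
      have h4 : r ≠ 4 := fun h => by rw [h] at hr; norm_num at hr
      have := hr.two_le
      omega
    refine ih e (lt_mul_left (Nat.pos_of_ne_zero fun h => hM0 (by rw [h, mul_zero])) hr.one_lt)
      (hM.coprime_dvd_left (dvd_mul_left e r)) x ?_ hfix
    refine eq_zero_of_commutators hp5 h5 (hne _ (dvd_mul_left _ 6)) (e • x)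
      (by rw [smul_smul, hx]) fun σ τ => ?_
    exact ((DistribSMul.toAddMonoidHom (JZero p) (σ * τ * σ⁻¹ * τ⁻¹)).map_nsmul e x).trans
      (congrArg (e • ·) (hfix σ τ))

end FA.WeightTwoOrdinary

end
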