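import Fermat.Agent.WeightTwoOrdinary.Operators
import Fermat.Agent.Tau.EisensteinPrime

/-!
# Between weight two of level `p` and weight `k` of level one

Modulo a prime over `p` the systems of the normalised eigenforms of weight two and level `p` are
those of the ordinary cuspidal eigenforms of level one and weight `k ≡ 2` modulo `p - 1`.
-/

set_option autoImplicit false
set_option linter.unusedSectionVars false

noncomputable section

open UpperHalfPlane hiding I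
open PowerSeries CongruenceSubgroup ModularCurve CuspForm
open scoped MatrixGroups ModularForm

namespace FA.WeightTwoOrdinary

open FA.PadicForms FA.OrdinaryProj FA.LambdaHecke FA.LevelOneControl FA.OrdinaryReduced
  FA.OrdinaryCount FA.OrdinaryCongruence FA.LevelPModP

local notation "ZB" => integralClosure ℤ ℂ

variable {p : ℕ} [Fact p.Prime] {k : ℕ}

theorem twoCoeff_mem_intNums (ι : ℚ_[p] →+* ℂ) {g : CuspForm (Gamma0 p) 2}
    (hg : g.IsNormalizedEigenform) (n : ℕ) : FA.Deform.qLin p g n ∈ intNums ι :=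
  mem_intNums_of_isIntegral (FA.Root.isIntegral_qCoeff_eigenform hg n)

/-- The same systems at the primes give congruent coefficients. -/
theorem coeff_congr_two (h5 : 5 ≤ p) (hk : 3 ≤ k) (hk2 : (k : ZMod (p - 1)) = 2)
    (ι : ℚ_[p] →+* ℂ) (P : Ideal ↥(intNums ι)) (hp : (p : ↥(intNums ι)) ∈ P)
    {F : ModularForm 𝒮ℒ (k : ℤ)} (hF : IsEigenForm F) {g : CuspForm (Gamma0 p) 2}
    (hg : g.IsNormalizedEigenform)
    (h : ∀ l : ℕ, l.Prime → ∃ u : ↥(intNums ι), u ∈ P ∧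
      (u : ℂ) = (qExpansion 1 ⇑F).coeff l - FA.Deform.qLin p g l) {n : ℕ} (hn : 1 ≤ n) :
    ∃ u : ↥(intNums ι), u ∈ P ∧
      (u : ℂ) = (qExpansion 1 ⇑F).coeff n - FA.Deform.qLin p g n := by
  refine prime_induction (Q := fun n => ∃ u : ↥(intNums ι), u ∈ P ∧
      (u : ℂ) = (qExpansion 1 ⇑F).coeff n - FA.Deform.qLin p g n) ?_
    (fun l j hl hj hQ hQd => ?_) hn
  · refine ⟨0, P.zero_mem, ?_⟩
    rw [hF.1, show FA.Deform.qLin p g 1 = 1 from hg.qCoeff_one, sub_self]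
    rfl
  obtain ⟨u, hu, hue⟩ := hQ
  obtain ⟨v, hv, hve⟩ := h l hl
  obtain ⟨b, hb⟩ : ∃ b : ↥(intNums ι), (b : ℂ) = FA.Deform.qLin p g l :=
    ⟨⟨_, twoCoeff_mem_intNums ι hg l⟩, rfl⟩
  obtain ⟨a, ha⟩ : ∃ a : ↥(intNums ι), (a : ℂ) = (qExpansion 1 ⇑F).coeff j :=
    ⟨⟨_, coeff_mem_intNums h5 hk ι hF hj⟩, rfl⟩
  obtain ⟨ε, hε, hεe⟩ : ∃ ε : ↥(intNums ι), ε ∈ P ∧
      (ε : ℂ) = (l : ℂ) ^ (k - 1) - FA.Deform.cor p l := by
    rcases eq_or_ne l p with rfl | hlp
    · refine ⟨(l : ↥(intNums ι)) ^ (k - 1), P.pow_mem_of_mem hp _ (by omega), ?_⟩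
      rw [FA.Deform.cor, if_pos dvd_rfl, sub_zero, Subring.coe_pow, Subring.coe_natCast]
    · refine ⟨(l : ↥(intNums ι)) ^ (k - 1) - (l : ↥(intNums ι)) ^ (2 - 1),
        natCast_pow_sub_mem P hp l (by omega) le_rfl (by rw [hk2, Nat.cast_two]), ?_⟩
      rw [FA.Deform.cor, if_neg fun hd => hlp ((Nat.prime_dvd_prime_iff_eq hl Fact.out).1 hd)]
      push_cast
      ring
  have e1 := hF.2 l hl j
  have e2 := FA.JTorsion.qCoeff_rec hg hl j
  by_cases hd : l ∣ j
  · rw [if_pos hd] at e1 e2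
    obtain ⟨w, hw, hwe⟩ := hQd hd
    obtain ⟨c, hc⟩ : ∃ c : ↥(intNums ι), (c : ℂ) = FA.Deform.qLin p g (j / l) :=
      ⟨⟨_, twoCoeff_mem_intNums ι hg _⟩, rfl⟩
    refine ⟨v * a + b * u - ((l : ↥(intNums ι)) ^ (k - 1) * w + ε * c),
      P.sub_mem (P.add_mem (P.mul_mem_right _ hv) (P.mul_mem_left _ hu))
        (P.add_mem (P.mul_mem_left _ hw) (P.mul_mem_right _ hε)), ?_⟩
    push_cast
    rw [hve, ha, hb, hue, hwe, hc, hεe]
    linear_combination e2 - e1
  · rw [if_neg hd, add_zero] at e1 e2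
    refine ⟨v * a + b * u, P.add_mem (P.mul_mem_right _ hv) (P.mul_mem_left _ hu), ?_⟩
    push_cast
    rw [hve, ha, hb, hue, e1, e2]
    ring

/-- `p` does not divide the numerator. -/
theorem not_dvd_numerator (h5 : 5 ≤ p) : ¬p ∣ eisensteinNumerator p := fun h => by
  have h1 := Nat.le_of_dvd (by omega) (h.trans (eisensteinNumerator_dvd p))
  omega

/-- The algebraic integers among the integral numbers. -/
def algEmb (ι : ℚ_[p] →+* ℂ) : ZB →+* ↥(intNums ι) :=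
  (integralClosure ℤ ℂ).val.toRingHom.codRestrict (intNums ι) fun x =>
    mem_intNums_of_isIntegral x.2

/-- **An eigenform of weight two is not Eisenstein modulo `p`.** -/
theorem two_not_eisenstein (h5 : 5 ≤ p) (hk : 3 ≤ k) (hk2 : (k : ZMod (p - 1)) = 2)
    (ι : ℚ_[p] →+* ℂ) (P : Ideal ↥(intNums ι)) [P.IsPrime] (hp : (p : ↥(intNums ι)) ∈ P)
    {g : CuspForm (Gamma0 p) 2} (hg : g.IsNormalizedEigenform) :
    ∃ l : ℕ, l.Prime ∧ ¬∃ u : ↥(intNums ι), u ∈ P ∧
      (u : ℂ) = (1 + (l : ℂ) ^ (k - 1)) - FA.Deform.qLin p g l := by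
  by_contra hall
  push Not at hall
  obtain ⟨m, hmm⟩ : ∃ m : Ideal ZB, m = P.comap (algEmb ι) := ⟨_, rfl⟩
  have hpm : (p : ZB) ∈ m := by
    rw [hmm, Ideal.mem_comap, map_natCast]
    exact hp
  have hprime : m.IsPrime := hmm ▸ Ideal.comap_isPrime _ _
  have hmax : m.IsMaximal := by
    refine Ideal.isMaximal_of_isIntegral_of_isMaximal_comap (R := ℤ) m ?_
    refine Ideal.IsPrime.isMaximal (Ideal.comap_isPrime _ _) fun e => ?_
    have h : (p : ℤ) ∈ m.comap (algebraMap ℤ ZB) := by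
      rw [Ideal.mem_comap, map_natCast]
      exact hpm
    rw [e, Ideal.mem_bot, Nat.cast_eq_zero] at h
    exact (Fact.out : p.Prime).ne_zero h
  refine not_dvd_numerator h5 (FA.EisensteinPrime.dvd_of_congruent_eigenform hg hmax hpm
    fun q hq => ?_)
  obtain ⟨u, hu, hue⟩ := hall q hq
  refine ⟨⟨_, FA.Root.isIntegral_qCoeff_eigenform hg q⟩, rfl, ?_⟩
  rw [hmm, Ideal.mem_comap, map_sub, map_intCast]
  rcases eq_or_ne q p with rfl | hqp
  · rw [show algEmb ι ⟨_, FA.Root.isIntegral_qCoeff_eigenform hg q⟩ -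
        ((FA.EisensteinPrime.eisValue q q : ℤ) : ↥(intNums ι)) =
      -u + (q : ↥(intNums ι)) ^ (k - 1) from Subtype.ext (by
        simp only [AddSubgroupClass.coe_sub, Subring.coe_add, Subring.coe_neg, Subring.coe_pow,
          Subring.coe_natCast, hue, FA.EisensteinPrime.eisValue, if_pos,
          Int.cast_one]
        show FA.Deform.qLin q g q - 1 = _
        ring)]
    exact P.add_mem (P.neg_mem hu) (P.pow_mem_of_mem hp _ (by omega))
  · rw [show algEmb ι ⟨_, FA.Root.isIntegral_qCoeff_eigenform hg q⟩ -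
        ((FA.EisensteinPrime.eisValue p q : ℤ) : ↥(intNums ι)) =
      -u + ((q : ↥(intNums ι)) ^ (k - 1) - (q : ↥(intNums ι)) ^ (2 - 1)) from Subtype.ext (by
        simp only [AddSubgroupClass.coe_sub, Subring.coe_add, Subring.coe_neg, Subring.coe_pow,
          Subring.coe_natCast, hue, FA.EisensteinPrime.eisValue, if_neg hqp,
          Int.cast_add, Int.cast_one, Int.cast_natCast]
        show FA.Deform.qLin p g q - _ = _
        push_cast
        ring)]
    exact P.add_mem (P.neg_mem hu)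
      (natCast_pow_sub_mem P hp q (by omega) le_rfl (by rw [hk2, Nat.cast_two]))

/-- **From weight two to weight `k`.** -/
theorem exists_one_of_two (h5 : 5 ≤ p) (hk : 3 ≤ k) (hk2 : (k : ZMod (p - 1)) = 2)
    (ι : ℚ_[p] →+* ℂ) (P : Ideal ↥(intNums ι)) [P.IsPrime] (hp : (p : ↥(intNums ι)) ∈ P)
    {g : CuspForm (Gamma0 p) 2} (hg : g.IsNormalizedEigenform) :
    ∃ F : ModularForm 𝒮ℒ (k : ℤ), IsEigenForm F ∧ IsUnitAt ι F ∧
      (qExpansion 1 ⇑F).coeff 0 = 0 ∧ ∀ n, 1 ≤ n → ∃ u : ↥(intNums ι), u ∈ P ∧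
        (u : ℂ) = (qExpansion 1 ⇑F).coeff n - FA.Deform.qLin p g n := by
  obtain ⟨ξ, hξ, -, hξp⟩ := exists_twoSys h5 ι hg
  obtain ⟨F, hF, hFu, hFl⟩ := exists_lift_system h5 hk ι P hp
    ((Ideal.Quotient.mk P).comp ξ) fun r hr => by
      obtain ⟨c, hc⟩ := hξp r fun f => by
        obtain ⟨y, hy, hyv⟩ := exists_lift_vec h5 (red_mem h5 hk hk2 f).1
        rw [← redOrd_two h5 hk hk2 r hy hyv, hr y hy]
      rw [RingHom.comp_apply, hc, Ideal.Quotient.eq_zero_iff_mem]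
      exact P.mul_mem_right _ hp
  have hl : ∀ l : ℕ, l.Prime → ∃ u : ↥(intNums ι), u ∈ P ∧
      (u : ℂ) = (qExpansion 1 ⇑F).coeff l - FA.Deform.qLin p g l := fun l hl => by
    obtain ⟨b, hb, hbψ⟩ := hFl ⟨l, hl⟩
    rw [RingHom.comp_apply, Ideal.Quotient.eq] at hbψ
    exact ⟨_, hbψ, by rw [AddSubgroupClass.coe_sub, hb, hξ]⟩
  refine ⟨F, hF, hFu, ?_, fun n hn => coeff_congr_two h5 hk hk2 ι P hp hF hg hl hn⟩
  by_contra h0
  obtain ⟨l, hlp, hne⟩ := two_not_eisenstein h5 hk hk2 ι P hp hg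
  obtain ⟨u, hu, hue⟩ := hl l hlp
  exact hne ⟨u, hu, by rw [hue, coeff_prime_of_noncusp hF h0 hlp]⟩

/-- A functional on the algebra comes, up to a factor, from a form. -/
theorem exists_form_of_functional (φ : ↥(heckeLatticeAlgebra p ∅) →ₗ[ℤ] ℤ) :
    ∃ (D : ℤ) (f : ↥(intLattice p 2)), D ≠ 0 ∧
      ∀ t, FA.Eis.zCoeff 1 (FA.Eis.act t f) = D * φ t := by
  have := intLattice.moduleFinite p
  have := intLattice.moduleFree p
  have hrank : Module.finrank ℤ ↥(LinearMap.range (FA.Eis.pair p)) =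
      Module.finrank ℤ (↥(heckeLatticeAlgebra p ∅) →ₗ[ℤ] ℤ) := by
    rw [LinearMap.finrank_range_of_inj FA.Eis.pair_injective, Module.finrank_linearMap_self]
    refine le_antisymm ?_ ?_
    · have := LinearMap.finrank_le_finrank_of_injective (FA.Eis.pair_injective (p := p))
      rwa [Module.finrank_linearMap_self] at this
    · have := LinearMap.finrank_le_finrank_of_injective (FA.Eis.pair_flip_injective (p := p))
      rwa [Module.finrank_linearMap_self] at this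
  have hq : Module.finrank ℤ ((↥(heckeLatticeAlgebra p ∅) →ₗ[ℤ] ℤ) ⧸
      LinearMap.range (FA.Eis.pair p)) = 0 :=
    Nat.add_eq_right.mp
      ((Submodule.finrank_quotient_add_finrank (LinearMap.range (FA.Eis.pair p))).trans hrank.symm)
  obtain ⟨D, hD, hDφ⟩ := (Module.finrank_eq_zero_iff.mp hq) (Submodule.Quotient.mk φ)
  rw [← Submodule.Quotient.mk_smul, Submodule.Quotient.mk_eq_zero] at hDφ
  obtain ⟨f, hf⟩ := hDφ
  exact ⟨D, f, hD, fun t => by rw [← FA.Eis.pair_apply, hf]; rfl⟩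

/-- A map killing the kernel of a map to a ring free over `ℤ` is linear in the coordinates. -/
theorem eq_sum_coords {R T Q ν : Type*} [CommRing R] [Ring T] [CommRing Q] [Fintype ν]
    (φ : R →+* T) (ψ : R →+* Q) (h : ∀ r, φ r = 0 → ψ r = 0) (B : Module.Basis ν ℤ T)
    {rt : ν → R} (hrt : ∀ i, φ (rt i) = B i) (r : R) :
    ψ r = ∑ i, (B.repr (φ r) i : Q) * ψ (rt i) := by
  have h := h (r - ∑ i, ((B.repr (φ r) i : ℤ) : R) * rt i) (by
    rw [map_sub, map_sum, sub_eq_zero]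
    conv_lhs => rw [← B.sum_repr (φ r)]
    exact Finset.sum_congr rfl fun i _ => by rw [map_mul, map_intCast, hrt, zsmul_eq_mul])
  rw [map_sub, map_sum, sub_eq_zero] at h
  rw [h]
  exact Finset.sum_congr rfl fun i _ => by rw [map_mul, map_intCast]

/-- A functional of the algebra on a polynomial with values killed by every eigenform. -/
theorem sum_functional_eq_zero (ι : ℚ_[p] →+* ℂ) [Fintype (FA.PrimeLevelBasis.Eigenforms p)]
    (ξ : FA.PrimeLevelBasis.Eigenforms p → HeckePoly →+* ↥(intNums ι))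
    (hξ : ∀ g r, (formsEval p r : Module.End ℂ (CuspForm (Gamma0 p) 2)) g.1 = (ξ g r : ℂ) • g.1)
    (φ : ↥(heckeLatticeAlgebra p ∅) →ₗ[ℤ] ℤ) (I : Finset ({l : ℕ // l.Prime} →₀ ℕ))
    (β : ({l : ℕ // l.Prime} →₀ ℕ) → ↥(intNums ι))
    (hz : ∀ g, ∑ d ∈ I, β d * ξ g (MvPolynomial.monomial d 1) = 0) :
    ∑ d ∈ I, β d * (φ (latTwo p (MvPolynomial.monomial d 1)) : ↥(intNums ι)) = 0 := by
  classical
  obtain ⟨D, f, hD, hf⟩ := exists_form_of_functional φ
  obtain ⟨μ, hμ⟩ : ∃ μ : FA.PrimeLevelBasis.Eigenforms p → ℂ,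
      ∑ g, μ g • g.1 = (f : CuspForm (Gamma0 p) 2) := by
    refine ⟨fun g => FA.PrimeLevelBasis.eigenBasis.repr (f : CuspForm (Gamma0 p) 2) g, ?_⟩
    conv_rhs => rw [← FA.PrimeLevelBasis.eigenBasis.sum_repr (f : CuspForm (Gamma0 p) 2)]
    exact Finset.sum_congr rfl fun g _ => by
      rw [show FA.PrimeLevelBasis.eigenBasis g = g.1 from Module.Basis.mk_apply _ _ g]
  have hval : ∀ r : HeckePoly, (D : ℂ) * (φ (latTwo p r) : ℤ) =
      ∑ g, μ g * FA.Deform.qLin p g.1 1 * (ξ g r : ℂ) := fun r => by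
    rw [← Int.cast_mul, ← hf, FA.Eis.cast_zCoeff,
      show ((FA.Eis.act (latTwo p r) f : ↥(intLattice p 2)) : CuspForm (Gamma0 p) 2) =
        (formsEval p r : Module.End ℂ (CuspForm (Gamma0 p) 2)) f from rfl, ← hμ]
    simp only [map_sum, map_smul, hξ, Finset.sum_apply, Pi.smul_apply, smul_eq_mul]
    exact Finset.sum_congr rfl fun g _ => by ring
  refine Subtype.ext ?_
  rw [AddSubmonoidClass.coe_finsetSum, ZeroMemClass.coe_zero]
  refine (mul_eq_zero.1 (?_ : (D : ℂ) * _ = 0)).resolve_left (Int.cast_ne_zero.2 hD)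
  simp only [Subring.coe_mul, Subring.coe_intCast, Finset.mul_sum]
  rw [Finset.sum_congr rfl fun d _ => (mul_left_comm (D : ℂ) _ _).trans
    (congrArg _ (hval (MvPolynomial.monomial d 1)))]
  simp only [Finset.mul_sum]
  rw [Finset.sum_comm]
  refine Finset.sum_eq_zero fun g _ => ?_
  have h := congrArg (fun z : ↥(intNums ι) => (z : ℂ)) (hz g)
  simp only [AddSubmonoidClass.coe_finsetSum, Subring.coe_mul, ZeroMemClass.coe_zero] at h
  rw [Finset.sum_congr rfl fun d _ => mul_left_comm ((β d : ↥(intNums ι)) : ℂ)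
    (μ g * FA.Deform.qLin p g.1 1) _, ← Finset.mul_sum, h, mul_zero]

/-- A polynomial that kills all eigenforms of weight two kills the system. -/
theorem two_extended_eq_zero (ι : ℚ_[p] →+* ℂ) [Fintype (FA.PrimeLevelBasis.Eigenforms p)]
    (ξ : FA.PrimeLevelBasis.Eigenforms p → HeckePoly →+* ↥(intNums ι))
    (hξ : ∀ g r, (formsEval p r : Module.End ℂ (CuspForm (Gamma0 p) 2)) g.1 = (ξ g r : ℂ) • g.1)
    (P : Ideal ↥(intNums ι)) (ψ : HeckePoly →+* ↥(intNums ι) ⧸ P)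
    (hψ : ∀ r, latTwo p r = 0 → ψ r = 0) (I : Finset ({l : ℕ // l.Prime} →₀ ℕ))
    (β : ({l : ℕ // l.Prime} →₀ ℕ) → ↥(intNums ι))
    (hz : ∀ g, ∑ d ∈ I, β d * ξ g (MvPolynomial.monomial d 1) = 0) :
    ∑ d ∈ I, Ideal.Quotient.mk P (β d) * ψ (MvPolynomial.monomial d 1) = 0 := by
  have := intLattice.moduleFinite p
  have := intLattice.moduleFree p
  obtain ⟨B, -⟩ : ∃ B : Module.Basis (Fin (Module.finrank ℤ ↥(heckeLatticeAlgebra p ∅))) ℤ
      ↥(heckeLatticeAlgebra p ∅), True := ⟨Module.finBasis _ _, trivial⟩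
  choose rt hrt using fun i =>
    show ∃ r : HeckePoly, latTwo p r = B i from FA.Eis.latEval_surjective (B i)
  rw [Finset.sum_congr rfl fun d _ => congrArg (Ideal.Quotient.mk P (β d) * ·)
    (eq_sum_coords (latTwo p) ψ hψ B hrt (MvPolynomial.monomial d 1))]
  simp only [Finset.mul_sum]
  rw [Finset.sum_comm]
  refine Finset.sum_eq_zero fun i _ => ?_
  have h := congrArg (Ideal.Quotient.mk P) (sum_functional_eq_zero ι ξ hξ (B.coord i) I β hz)
  simp only [map_sum, map_zero, map_mul, map_intCast, Module.Basis.coord_apply] at h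
  simp only [← mul_assoc]
  rw [← Finset.sum_mul, h, zero_mul]

/-- **Lifting to weight two**: a system that factors through the algebra of weight two is that of
an eigenform modulo the prime. -/
theorem exists_two_system (h5 : 5 ≤ p) (ι : ℚ_[p] →+* ℂ) (P : Ideal ↥(intNums ι)) [P.IsPrime]
    (ψ : HeckePoly →+* ↥(intNums ι) ⧸ P) (hψ : ∀ r, latTwo p r = 0 → ψ r = 0) :
    ∃ g : CuspForm (Gamma0 p) 2, g.IsNormalizedEigenform ∧ ∀ l : {l : ℕ // l.Prime},
      ∃ b : ↥(intNums ι), (b : ℂ) = FA.Deform.qLin p g l.1 ∧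
        Ideal.Quotient.mk P b = ψ (MvPolynomial.X l) := by
  classical
  have := FA.Deform.finite_of_hasIntegralBasis (FA.LTInt.hasIntegralBasis p)
  have : Finite (FA.PrimeLevelBasis.Eigenforms p) :=
    Module.Finite.finite_basis FA.PrimeLevelBasis.eigenBasis
  let := Fintype.ofFinite (FA.PrimeLevelBasis.Eigenforms p)
  choose ξ hξX hξ using fun g : FA.PrimeLevelBasis.Eigenforms p =>
    (exists_twoSys h5 ι g.2).imp fun _ h => And.imp_right And.left h
  obtain ⟨Ψ, hΨC, hΨX⟩ : ∃ Ψ : MvPolynomial {l : ℕ // l.Prime} ↥(intNums ι) →+* ↥(intNums ι) ⧸ P,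
      (∀ b, Ψ (MvPolynomial.C b) = Ideal.Quotient.mk P b) ∧
      ∀ l, Ψ (MvPolynomial.X l) = ψ (MvPolynomial.X l) :=
    ⟨MvPolynomial.eval₂Hom (Ideal.Quotient.mk P) fun l => ψ (MvPolynomial.X l),
      fun b => MvPolynomial.eval₂Hom_C _ _ b, fun l => MvPolynomial.eval₂Hom_X' _ _ l⟩
  obtain ⟨Ξ, hΞC, hΞX⟩ : ∃ Ξ : FA.PrimeLevelBasis.Eigenforms p →
      MvPolynomial {l : ℕ // l.Prime} ↥(intNums ι) →+* ↥(intNums ι),
      (∀ g b, Ξ g (MvPolynomial.C b) = b) ∧
      ∀ g l, Ξ g (MvPolynomial.X l) = ξ g (MvPolynomial.X l) :=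
    ⟨fun g => MvPolynomial.eval₂Hom (RingHom.id _) fun l => ξ g (MvPolynomial.X l),
      fun g b => MvPolynomial.eval₂Hom_C _ _ b, fun g l => MvPolynomial.eval₂Hom_X' _ _ l⟩
  have hmono : ∀ (d : {l : ℕ // l.Prime} →₀ ℕ) (b : ↥(intNums ι)),
      MvPolynomial.monomial d b = MvPolynomial.C b *
        MvPolynomial.map (Int.castRingHom ↥(intNums ι)) (MvPolynomial.monomial d 1) := fun d b => by
    rw [MvPolynomial.map_monomial, MvPolynomial.C_mul_monomial, map_one, mul_one]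
  have hΨ : Ψ.comp (MvPolynomial.map (Int.castRingHom ↥(intNums ι))) = ψ :=
    MvPolynomial.ringHom_ext (fun a => by simp) fun l => by
      rw [RingHom.comp_apply, MvPolynomial.map_X, hΨX]
  have hΞ : ∀ g, (Ξ g).comp (MvPolynomial.map (Int.castRingHom ↥(intNums ι))) = ξ g := fun g =>
    MvPolynomial.ringHom_ext (fun a => by simp) fun l => by
      rw [RingHom.comp_apply, MvPolynomial.map_X, hΞX]
  have hker : (RingHom.ker Ψ).IsPrime := RingHom.ker_isPrime _
  have hle : (Finset.univ.inf fun g => RingHom.ker (Ξ g)) ≤ RingHom.ker Ψ := fun s hs => by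
    simp only [Submodule.mem_finsetInf, Finset.mem_univ, true_implies, RingHom.mem_ker] at hs
    rw [RingHom.mem_ker, s.as_sum, map_sum]
    have e : ∀ d, Ψ (MvPolynomial.monomial d (MvPolynomial.coeff d s)) =
        Ideal.Quotient.mk P (MvPolynomial.coeff d s) * ψ (MvPolynomial.monomial d 1) := fun d => by
      rw [hmono, map_mul, hΨC, ← RingHom.comp_apply, hΨ]
    rw [Finset.sum_congr rfl fun d _ => e d]
    refine two_extended_eq_zero ι ξ hξ P ψ hψ s.support _ fun g => ?_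
    have h := hs g
    rw [s.as_sum, map_sum] at h
    refine (Finset.sum_congr rfl fun d _ => ?_).trans h
    rw [hmono, map_mul, hΞC, ← RingHom.comp_apply, hΞ]
  obtain ⟨g, -, hgle⟩ := (Ideal.IsPrime.inf_le' hker).1 hle
  refine ⟨g.1, g.2, fun l => ⟨ξ g (MvPolynomial.X l), hξX g l, ?_⟩⟩
  have h : MvPolynomial.X l - MvPolynomial.C (ξ g (MvPolynomial.X l)) ∈ RingHom.ker Ψ :=
    hgle (by rw [RingHom.mem_ker, map_sub, hΞX, hΞC, sub_self])
  rw [RingHom.mem_ker, map_sub, hΨX, hΨC, sub_eq_zero] at h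
  exact h.symm

/-- **From weight `k` to weight two.** -/
theorem exists_two_of_one (h5 : 5 ≤ p) (hk : 3 ≤ k) (hev : Even k)
    (hk2 : (k : ZMod (p - 1)) = 2) (ι : ℚ_[p] →+* ℂ) (P : Ideal ↥(intNums ι)) [P.IsPrime]
    (hp : (p : ↥(intNums ι)) ∈ P) {F : ModularForm 𝒮ℒ (k : ℤ)} (hF : IsEigenForm F)
    (hu : IsUnitAt ι F) (h0 : (qExpansion 1 ⇑F).coeff 0 = 0) :
    ∃ g : CuspForm (Gamma0 p) 2, g.IsNormalizedEigenform ∧ ∀ n, 1 ≤ n →
      ∃ u : ↥(intNums ι), u ∈ P ∧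
        (u : ℂ) = (qExpansion 1 ⇑F).coeff n - FA.Deform.qLin p g n := by
  obtain ⟨χ, hχ⟩ := exists_char_of_eigen hk ι hF
  have hT : ∀ T : ↥(lvlAlg p k), IsTp T → IsIntUnit ι (χ.1 T) := fun T hT => by
    have e : T = heckeHom p hk (MvPolynomial.X ⟨p, Fact.out⟩) := Subtype.ext (LinearMap.ext
      fun x => Subtype.ext ((hT x).trans (act_heckeHom_X hk ⟨p, Fact.out⟩ x).symm))
    rw [e, hχ]
    exact hu
  obtain ⟨l, hl, hne⟩ := exists_not_eisenstein h5 (by obtain ⟨j, rfl⟩ := hev; omega) hev hk2 ι P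
    hp hF h0
  obtain ⟨ψ, hψ⟩ : ∃ ψ : HeckePoly →+* ↥(intNums ι) ⧸ P,
      ψ = (Ideal.Quotient.mk P).comp (charInt h5 hk χ) := ⟨_, rfl⟩
  obtain ⟨s, hs⟩ : ∃ s : HeckePoly, s = MvPolynomial.X (⟨l, hl⟩ : {l : ℕ // l.Prime}) -
      MvPolynomial.C (1 + (l : ℤ) ^ (k - 1)) := ⟨_, rfl⟩
  obtain ⟨g, hg, hgl⟩ := exists_two_system h5 ι P ψ fun r hr => by
    have hkill : ∀ x : ↥(qpSpace p k), SupLe (x : PowerSeries ℚ_[p]) 1 →
        redOrd (act (heckeHom p hk (r * s)) x) = 0 := fun x hx => by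
      rw [map_mul, show act (heckeHom p hk r * heckeHom p hk s) x =
        act (heckeHom p hk r) (act (heckeHom p hk s) x) from rfl]
      have h0s : coeff 0 (redOrd (act (heckeHom p hk s) x)) = 0 := by
        rw [hs, sub_eq_add_neg, map_add, ← map_neg MvPolynomial.C,
          show act (heckeHom p hk (MvPolynomial.X (⟨l, hl⟩ : {l : ℕ // l.Prime})) +
              heckeHom p hk (MvPolynomial.C (-(1 + (l : ℤ) ^ (k - 1))))) x =
            act (heckeHom p hk (MvPolynomial.X (⟨l, hl⟩ : {l : ℕ // l.Prime}))) x +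
              act (heckeHom p hk (MvPolynomial.C (-(1 + (l : ℤ) ^ (k - 1))))) x from rfl,
          redOrd_add h5 (supLe_heckeHom hk _ hx) (supLe_heckeHom hk _ hx),
          redOrd_tSer h5 (by omega) hl (act_heckeHom_X hk ⟨l, hl⟩ x) hx, act_heckeHom_C,
          redOrd_smul h5 hx, map_add, coeff_tSer, coeff_C_mul, if_pos (dvd_zero l), zero_mul,
          Nat.zero_div, map_intCast]
        push_cast
        ring
      obtain ⟨f, hf⟩ := exists_of_coeff_zero h5 hk2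
        (redOrd_mem h5 hk rfl (supLe_heckeHom hk s hx)) h0s
      rw [redOrd_two h5 hk hk2 r (supLe_heckeHom hk s hx) hf.symm, twoAct, hr]
      exact map_zero (redLattice p)
    obtain ⟨c, hc⟩ := exists_eq_p_mul h5 hk hT hkill
    have h : ψ r * ψ s = 0 := by
      rw [← map_mul, hψ, RingHom.comp_apply, hc, Ideal.Quotient.eq_zero_iff_mem]
      exact P.mul_mem_right _ hp
    refine (mul_eq_zero.1 h).resolve_right fun h' => hne ?_
    rw [hψ, RingHom.comp_apply, Ideal.Quotient.eq_zero_iff_mem] at h'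
    refine ⟨_, h', ?_⟩
    rw [hs, map_sub, AddSubgroupClass.coe_sub, coe_charInt, hχ]
    simp
  refine ⟨g, hg, fun n hn => coeff_congr_two h5 hk hk2 ι P hp hF hg (fun l hl => ?_) hn⟩
  obtain ⟨b, hb, hbψ⟩ := hgl ⟨l, hl⟩
  rw [hψ, RingHom.comp_apply, eq_comm, Ideal.Quotient.eq] at hbψ
  exact ⟨_, hbψ, by rw [AddSubgroupClass.coe_sub, coe_charInt, hb, hχ]⟩

end FA.WeightTwoOrdinary

end
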