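import Fermat.Agent.RT.Tame
import Fermat.Agent.KroneckerWeber.Main
import Fermat.Agent.Weight1.CycLevel
import Fermat.Agent.Root.SummaryAbelianInverseGalois
import Fermat.Agent.Deform.Frobenius
import Mathlib.RingTheory.RootsOfUnity.PrimitiveRoots

/-!
# Characters modulo `p` unramified outside `p`

A character of `Gal(ℚ̄/ℚ)` into the units of a field of characteristic `p` with open kernel and
unramified outside `p` is a power of the cyclotomic character modulo `p`: by Minkowski its image is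
that of the inertia at `p`, which is tame, so of order dividing `p - 1`.
-/

set_option autoImplicit false

noncomputable section

local notation "Qb" => AlgebraicClosure ℚ
local notation "GQ" => AlgebraicClosure ℚ ≃ₐ[ℚ] AlgebraicClosure ℚ

namespace FA.WeightTwoOrdinary

variable {p : ℕ} [Fact p.Prime] {K : Type} [Field K]

/-- The image of inertia at `p` is the whole image. -/
theorem exists_inertia_apply_eq {X : Type} [CommGroup X] (ψ : GQ →* X)
    (hopen : IsOpen (ψ.ker : Set GQ))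
    (hun : ∀ l : ℕ, l.Prime → l ≠ p → ∀ A : ValuationSubring Qb, A.LiesOverPrime l →
      ∀ σ ∈ A.inertiaSubgroupIn ℚ, ψ σ = 1)
    {A : ValuationSubring Qb} (hA : A.LiesOverPrime p) (σ : GQ) :
    ∃ s ∈ A.inertiaSubgroupIn ℚ, ψ s = ψ σ := by
  obtain ⟨E, hE, -, hfix⟩ := FA.KroneckerWeber.exists_field_of_isOpen hopen
  obtain ⟨H, hH⟩ : ∃ H : Subgroup GQ, H = ((A.inertiaSubgroupIn ℚ).map ψ).comap ψ := ⟨_, rfl⟩
  have : H.Normal := hH ▸ inferInstance
  have htop : H = ⊤ := FA.Local.eq_top_of_inertia_le H E (fun τ hτ => by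
      rw [hH, Subgroup.mem_comap, show ψ τ = 1 from MonoidHom.mem_ker.1
        (hfix.le ((IntermediateField.mem_fixingSubgroup_iff _ _).2 hτ))]
      exact one_mem _) fun l hl => by
    rcases eq_or_ne l p with rfl | hlp
    · exact ⟨A, hA, fun τ hτ => hH ▸ Subgroup.mem_comap.2 (Subgroup.mem_map_of_mem _ hτ)⟩
    · obtain ⟨B, hB⟩ := FA.Deform.exists_liesOverPrime hl
      refine ⟨B, hB, fun τ hτ => ?_⟩
      rw [hH, Subgroup.mem_comap, hun l hl hlp B hB τ hτ]
      exact one_mem _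
  obtain ⟨s, hs, hse⟩ := Subgroup.mem_comap.1 (hH.le (htop ▸ Subgroup.mem_top σ : σ ∈ H))
  exact ⟨s, hs, hse⟩

/-- In a finite group each element has some power of order a power of a prime. -/
theorem pow_ordCompl_pow {X : Type} [Group X] [Finite X] (r : ℕ) (x : X) :
    (x ^ (Nat.card X / r ^ (Nat.card X).factorization r)) ^
      r ^ (Nat.card X).factorization r = 1 := by
  rw [← pow_mul, Nat.div_mul_cancel (Nat.ordProj_dvd (Nat.card X) r), pow_card_eq_one']

/-- **A character unramified outside `p` is trivial where the cyclotomic one is.** -/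
theorem eq_one_of_cycM [CharP K p] [NeZero p] (χ : GQ →* Kˣ) (hopen : IsOpen (χ.ker : Set GQ))
    (hun : ∀ l : ℕ, l.Prime → l ≠ p → ∀ A : ValuationSubring Qb, A.LiesOverPrime l →
      ∀ σ ∈ A.inertiaSubgroupIn ℚ, χ σ = 1)
    {σ : GQ} (hσ : FA.Weight1.cycM p σ = 1) : χ σ = 1 := by
  have hp : p.Prime := Fact.out
  have : Fact (1 < p) := ⟨hp.one_lt⟩
  have : Finite (GQ ⧸ χ.ker) := Subgroup.quotient_finite_of_isOpen _ hopen
  have : Finite χ.range := Finite.of_equiv _ (QuotientGroup.quotientKerEquivRange χ).toEquiv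
  obtain ⟨ψ, hψ⟩ : ∃ ψ : GQ →* (ZMod p)ˣ × χ.range,
      ψ = (FA.Weight1.cycM p).prod χ.rangeRestrict := ⟨_, rfl⟩
  have hψo : IsOpen (ψ.ker : Set GQ) := by
    obtain ⟨L, hL, hLc⟩ := FA.Weight1.exists_field_cycM p
    have hc : IsOpen ((FA.Weight1.cycM p).ker : Set GQ) := Subgroup.isOpen_mono
      (fun τ hτ => MonoidHom.mem_ker.2 (hLc τ ((IntermediateField.mem_fixingSubgroup_iff _ _).1 hτ)))
      L.fixingSubgroup_isOpen
    rw [hψ, MonoidHom.ker_prod, MonoidHom.ker_rangeRestrict, Subgroup.coe_inf]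
    exact hc.inter hopen
  have hψun : ∀ l : ℕ, l.Prime → l ≠ p → ∀ A : ValuationSubring Qb, A.LiesOverPrime l →
      ∀ τ ∈ A.inertiaSubgroupIn ℚ, ψ τ = 1 := fun l hl hlp A hA τ hτ => by
    rw [hψ]
    refine Prod.ext (FA.Weight1.cycM_inertia p hl
      (fun hd => hlp ((Nat.prime_dvd_prime_iff_eq hl hp).1 hd)) hA hτ) (Subtype.ext ?_)
    exact hun l hl hlp A hA τ hτ
  obtain ⟨A, hA⟩ := FA.Deform.exists_liesOverPrime hp
  rw [← orderOf_eq_one_iff, Nat.eq_one_iff_not_exists_prime_dvd]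
  intro r hr hrd
  have hord : orderOf (χ.rangeRestrict σ) = orderOf (χ σ) := (Subgroup.orderOf_coe _).symm
  have hrp : r ≠ p := by
    rintro rfl
    have hfin : IsOfFinOrder (χ σ) := by
      rw [← orderOf_pos_iff, ← hord]
      exact orderOf_pos _
    obtain ⟨c, hc⟩ := hrd
    have hc0 : c ≠ 0 := fun e => (orderOf_pos_iff.2 hfin).ne' (by rw [hc, e, mul_zero])
    have hy : ((χ σ ^ c : Kˣ) : K) = 1 := by
      refine frobenius_inj K r ?_
      rw [frobenius_def, frobenius_def, one_pow, ← Units.val_pow_eq_pow_val, ← pow_mul, mul_comm,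
        ← hc, pow_orderOf_eq_one, Units.val_one]
    have := Nat.le_of_dvd (Nat.pos_of_ne_zero hc0) (orderOf_dvd_of_pow_eq_one (Units.ext hy))
    rw [hc] at this
    have := (Nat.mul_lt_mul_of_pos_right hp.one_lt (Nat.pos_of_ne_zero hc0))
    omega
  obtain ⟨e, he⟩ : ∃ e, e = (Nat.card ((ZMod p)ˣ × χ.range)).factorization r := ⟨_, rfl⟩
  obtain ⟨m, hm⟩ : ∃ m, m = Nat.card ((ZMod p)ˣ × χ.range) / r ^ e := ⟨_, rfl⟩
  have hrm : ¬r ∣ m := by
    rw [hm, he]
    exact Nat.not_dvd_ordCompl hr Nat.card_pos.ne'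
  obtain ⟨f, hf⟩ : ∃ f : GQ →* (ZMod p)ˣ × χ.range, f = (powMonoidHom m).comp ψ := ⟨_, rfl⟩
  have hfe : ∀ τ, f τ = ψ τ ^ m := fun τ => by rw [hf]; rfl
  have hfo : IsOpen (f.ker : Set GQ) := Subgroup.isOpen_mono (fun τ hτ => MonoidHom.mem_ker.2 (by
    rw [hfe, MonoidHom.mem_ker.1 hτ, one_pow])) hψo
  have hfr : ∀ τ, f τ ^ r ^ e = 1 := fun τ => by
    rw [hfe, hm, he]
    exact pow_ordCompl_pow r _
  obtain ⟨s, hs, hgen⟩ := FA.RT.exists_tame_gen hr hp hrp hA
  have hgen' : ∀ τ, ∃ i : ℕ, f τ = f s ^ i := fun τ => by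
    obtain ⟨τ', hτ', hττ'⟩ := exists_inertia_apply_eq ψ hψo hψun hA τ
    obtain ⟨i, hi⟩ := hgen _ f hfo (fun x _ => ⟨e, hfr x⟩) τ' hτ'
    exact ⟨i, by rw [hfe, ← hττ', ← hfe, hi]⟩
  -- the tame relation
  obtain ⟨Φ, hΦ⟩ := FA.Deform.exists_isFrobeniusAt hp hA
  have hrel : f s ^ (p - 1) = 1 := by
    have h := FA.RT.tame_relation f hr hp hrp hA hfo (fun x _ => ⟨e, hfr x⟩) hΦ hs
    rw [mul_comm, mul_left_inj] at h
    refine mul_right_cancel (b := f s) ?_
    rw [← pow_succ, Nat.sub_add_cancel hp.one_le, one_mul, ← h]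
  -- compare the orders
  obtain ⟨g, hg⟩ := IsCyclic.exists_generator (α := (ZMod p)ˣ)
  obtain ⟨τ, hτ⟩ := FA.AbelianInverseGalois.cycM_surjective p g
  obtain ⟨j, hj⟩ := hgen' τ
  obtain ⟨i, hi⟩ := hgen' σ
  have hj1 : g ^ m = (f s).1 ^ j := by
    rw [← Prod.pow_fst, ← hj, hfe, Prod.pow_fst, hψ, MonoidHom.prod_apply, hτ]
  have hi1 : (f s).1 ^ i = 1 := by
    rw [← Prod.pow_fst, ← hi, hfe, Prod.pow_fst, hψ, MonoidHom.prod_apply, hσ, one_pow]
  have ho1 : orderOf (f s).2 ∣ p - 1 :=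
    orderOf_dvd_of_pow_eq_one (by rw [← Prod.pow_snd, hrel, Prod.snd_one])
  have ho2 : (orderOf (f s).2).Coprime m := by
    refine Nat.Coprime.coprime_dvd_left ?_ (Nat.Coprime.pow_left e (hr.coprime_iff_not_dvd.2 hrm))
    exact orderOf_dvd_of_pow_eq_one (by rw [← Prod.pow_snd, hfr, Prod.snd_one])
  have ho3 : orderOf (f s).2 ∣ orderOf (f s).1 := by
    refine (ho2.dvd_of_dvd_mul_left (ho1.trans ?_)).trans
      (hj1 ▸ orderOf_pow_dvd j : orderOf (g ^ m) ∣ orderOf (f s).1)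
    rw [← ZMod.card_units p, ← Nat.card_eq_fintype_card,
      ← orderOf_eq_card_of_forall_mem_zpowers hg]
    exact orderOf_dvd_of_pow_eq_one (by rw [pow_mul, pow_orderOf_eq_one])
  have h1 : (f σ).2 = 1 := by
    rw [hi, Prod.pow_snd, ← orderOf_dvd_iff_pow_eq_one]
    exact ho3.trans (orderOf_dvd_iff_pow_eq_one.2 hi1)
  rw [hfe, Prod.pow_snd, hψ, MonoidHom.prod_apply, ← orderOf_dvd_iff_pow_eq_one, hord] at h1
  exact hrm (hrd.trans h1)

/-- **Characters unramified outside `p` are powers of the cyclotomic character.** -/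
theorem exists_pow_cycM [CharP K p] [NeZero p] (χ : GQ →* Kˣ) (hopen : IsOpen (χ.ker : Set GQ))
    (hun : ∀ l : ℕ, l.Prime → l ≠ p → ∀ A : ValuationSubring Qb, A.LiesOverPrime l →
      ∀ σ ∈ A.inertiaSubgroupIn ℚ, χ σ = 1) :
    ∃ a : ℕ, ∀ σ, (χ σ : K) =
      ZMod.castHom (dvd_refl p) K ((FA.Weight1.cycM p σ : (ZMod p)ˣ) : ZMod p) ^ a := by
  have hp : p.Prime := Fact.out
  obtain ⟨g, hg⟩ := IsCyclic.exists_generator (α := (ZMod p)ˣ)
  obtain ⟨τ, hτ⟩ := FA.AbelianInverseGalois.cycM_surjective p g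
  obtain ⟨c, hc⟩ : ∃ c : (ZMod p)ˣ →* Kˣ, c = Units.map (ZMod.castHom (dvd_refl p) K).toMonoidHom :=
    ⟨_, rfl⟩
  have hci : Function.Injective c := by
    rw [hc]
    exact Units.map_injective (ZMod.castHom_injective K)
  have hcard : orderOf g = p - 1 := by
    rw [orderOf_eq_card_of_forall_mem_zpowers hg, Nat.card_eq_fintype_card, ZMod.card_units]
  have : NeZero (p - 1) := ⟨by have := hp.two_le; omega⟩
  have hprim : IsPrimitiveRoot (c g : K) (p - 1) :=
    IsPrimitiveRoot.coe_units_iff.2 (hcard ▸ (orderOf_injective c hci g ▸ IsPrimitiveRoot.orderOf _))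
  have hpow : χ τ ^ (p - 1) = 1 := by
    rw [← map_pow]
    exact eq_one_of_cycM χ hopen hun (by rw [map_pow, hτ, ← hcard, pow_orderOf_eq_one])
  obtain ⟨a, -, ha⟩ := hprim.eq_pow_of_pow_eq_one
    (show (χ τ : K) ^ (p - 1) = 1 by rw [← Units.val_pow_eq_pow_val, hpow, Units.val_one])
  refine ⟨a, fun σ => ?_⟩
  obtain ⟨i, hi⟩ := Submonoid.mem_powers_iff _ _ |>.1
    ((mem_powers_iff_mem_zpowers).2 (hg (FA.Weight1.cycM p σ)))
  have h := eq_one_of_cycM χ hopen hun (σ := σ * (τ ^ i)⁻¹)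
    (by rw [map_mul, map_inv, map_pow, hτ, hi, mul_inv_cancel])
  rw [map_mul, map_inv, map_pow, mul_inv_eq_one] at h
  rw [h, Units.val_pow_eq_pow_val, ← ha, ← hi, Units.val_pow_eq_pow_val, map_pow, ← pow_mul,
    ← pow_mul, mul_comm a i, hc]
  rfl

end FA.WeightTwoOrdinary

end
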