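import Fermat.Agent.WeightTwoOrdinary.Unique
import Fermat.Agent.Root.SummaryWeightTwoOrdinary
import Fermat.Agent.Root.SummaryPrimeLevelDiscriminant
import Fermat.Agent.JTorsion.Attach

/-!
# The conjugacy classes of the representations in the class of `2`

They correspond one to one to the systems modulo `P` of weight two and level `p`.
-/

set_option autoImplicit false
set_option linter.unusedSectionVars false
set_option synthInstance.maxHeartbeats 400000

noncomputable section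

open UpperHalfPlane hiding I
open PowerSeries CongruenceSubgroup CuspForm IsLocalRing
open scoped MatrixGroups ModularForm

namespace FA.WeightTwoOrdinary

open FA.OrdinaryCount FA.OrdinaryCongruence

local notation "ZB" => integralClosure ℤ ℂ
local notation "Qb" => AlgebraicClosure ℚ
local notation "GQ" => AlgebraicClosure ℚ ≃ₐ[ℚ] AlgebraicClosure ℚ

variable {p : ℕ} [Fact p.Prime] {K : Type} [Field K] [CharP K p] {ι : ℚ_[p] →+* ℂ}

theorem IsConjRep.symm {ρ ρ' : GQ →* GL (Fin 2) K} (h : IsConjRep ρ ρ') : IsConjRep ρ' ρ := by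
  obtain ⟨Q, hQ⟩ := h
  refine ⟨Q⁻¹, fun σ => ?_⟩
  rw [hQ]
  group

/-- A representation of `g` is one of each congruent form of level one. -/
theorem isResidualRep_of_isTwoRep {k : ℕ} (hk : 2 ≤ k) (hk2 : (k : ZMod (p - 1)) = 2)
    (φ : ↥(intNums ι) →+* K) {F : ModularForm 𝒮ℒ (k : ℤ)} {g : CuspForm (Gamma0 p) 2}
    (hc : ∀ l : ℕ, l.Prime → ∃ u : ↥(intNums ι), φ u = 0 ∧
      (u : ℂ) = (qExpansion 1 ⇑F).coeff l - FA.Deform.qLin p g l)
    {ρ : GQ →* GL (Fin 2) K} (hρ : IsTwoRep (φ.comp (algEmb ι)) g ρ) : IsResidualRep φ F ρ := by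
  refine ⟨hρ.1, fun l hl hlp A hA => ⟨(hρ.2 l hl hlp A hA).1, fun σ hσ => ?_⟩⟩
  obtain ⟨c, hc', htr, hdet⟩ := (hρ.2 l hl hlp A hA).2 σ hσ
  obtain ⟨u, hu, hue⟩ := hc l hl
  refine ⟨algEmb ι c + u, ?_, ?_, ?_⟩
  · rw [Subring.coe_add, hue, show ((algEmb ι c : ↥(intNums ι)) : ℂ) = (c : ℂ) from rfl, hc',
      add_sub_cancel]
  · rw [htr, RingHom.comp_apply, map_add, hu, add_zero]
  · rw [hdet, ← map_natCast (ZMod.castHom (dvd_refl p) K) l, ← map_pow,
      pow_congr l hk le_rfl (by rw [hk2, Nat.cast_two]), pow_one]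

/-- The system of an eigenform. -/
theorem exists_twoSystem (P : Ideal ↥(intNums ι)) {g : CuspForm (Gamma0 p) 2}
    (hg : g.IsNormalizedEigenform) : ∃ f ∈ Summary.twoSystems ι P, ∀ n (b : ↥(intNums ι)),
      (b : ℂ) = FA.Deform.qLin p g n → Ideal.Quotient.mk P b = f n := by
  choose b hb using fun n =>
    (⟨⟨_, twoCoeff_mem_intNums ι hg n⟩, rfl⟩ : ∃ b : ↥(intNums ι), (b : ℂ) = FA.Deform.qLin p g n)
  exact ⟨fun n => Ideal.Quotient.mk P (b n), ⟨g, hg, fun n => ⟨b n, hb n, rfl⟩⟩,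
    fun n c hc => congrArg _ (Subtype.ext (hc.trans (hb n).symm))⟩

/-- The systems are at most `g` in number. -/
theorem twoSystems_finite (P : Ideal ↥(intNums ι)) :
    (Summary.twoSystems ι P).Finite ∧
      (Summary.twoSystems ι P).ncard ≤ Module.finrank ℂ (CuspForm (Gamma0 p) 2) := by
  obtain ⟨-, -, hfin, hcard⟩ := FA.Summary.prime_level_eigenforms_basis (p := p)
  choose e he1 he2 using fun g : FA.PrimeLevelBasis.Eigenforms p => exists_twoSystem P g.2
  have h : Summary.twoSystems ι P ⊆ Set.range e := fun f hf => by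
    obtain ⟨g, hg, hb⟩ := hf
    refine ⟨⟨g, hg⟩, funext fun n => ?_⟩
    obtain ⟨b, hb1, hb2⟩ := hb n
    exact (he2 ⟨g, hg⟩ n b hb1).symm.trans hb2
  refine ⟨(Set.finite_range e).subset h,
    (Set.ncard_le_ncard h (Set.finite_range e)).trans ?_⟩
  rw [← hcard, ← Nat.card_coe_set_eq]
  exact Nat.card_le_card_of_surjective _ Set.rangeFactorization_surjective

open scoped Classical in
/-- Exactly `g` systems if `p` does not divide the discriminant of the Hecke algebra. -/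
theorem twoSystems_card (P : Ideal ↥(intNums ι)) [P.IsPrime] (hp : (p : ↥(intNums ι)) ∈ P)
    {ν : Type} [Fintype ν] (b : Module.Basis ν ℤ (FA.Mazur.TAlg p))
    (hd : ¬(p : ℤ) ∣ Algebra.discr ℤ b) :
    (Summary.twoSystems ι P).ncard = Module.finrank ℂ (CuspForm (Gamma0 p) 2) := by
  obtain ⟨-, -, hfin, hcard⟩ := FA.Summary.prime_level_eigenforms_basis (p := p)
  refine le_antisymm (twoSystems_finite P).2 ?_
  choose e he1 he2 using fun g : FA.PrimeLevelBasis.Eigenforms p => exists_twoSystem P g.2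
  have hinj : Function.Injective e := fun g g' he => by
    by_contra hne
    have hpm : (p : ZB) ∈ P.comap (algEmb ι) := by
      rw [Ideal.mem_comap, map_natCast]
      exact hp
    have : (P.comap (algEmb ι)).IsPrime := Ideal.comap_isPrime _ _
    have := FA.JTorsion.isMaximal_of_natCast_mem (P.comap (algEmb ι)) hpm
    refine hd ((FA.Summary.prime_level_congruence_primes b Fact.out (P.comap (algEmb ι)) hpm).2
      ⟨g.1, g'.1, g.2, g'.2, fun h => hne (Subtype.ext h), fun n => ?_⟩)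
    obtain ⟨c, hc⟩ : ∃ c : ZB, (c : ℂ) = FA.Deform.qLin p g.1 n :=
      ⟨⟨_, FA.Root.isIntegral_qCoeff_eigenform g.2 n⟩, rfl⟩
    obtain ⟨c', hc'⟩ : ∃ c : ZB, (c : ℂ) = FA.Deform.qLin p g'.1 n :=
      ⟨⟨_, FA.Root.isIntegral_qCoeff_eigenform g'.2 n⟩, rfl⟩
    refine ⟨c - c', ?_, ?_⟩
    · rw [AddSubgroupClass.coe_sub, hc, hc']
      rfl
    · rw [Ideal.mem_comap, map_sub, ← Ideal.Quotient.eq, he2 g n (algEmb ι c) hc,
        he2 g' n (algEmb ι c') hc', he]
  rw [← hcard]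
  exact (Set.ncard_range_of_injective hinj).ge.trans
    (Set.ncard_le_ncard (Set.range_subset_iff.2 he1) (twoSystems_finite P).1)

/-- **One representation for each system.** -/
theorem exists_classes (h5 : 5 ≤ p) (φ : ↥(intNums ι) →+* K) :
    ∃ S : Set (GQ →* GL (Fin 2) K), S.Finite ∧
      S.ncard = (Summary.twoSystems ι (RingHom.ker φ)).ncard ∧
      (∀ ρ ∈ S, ∀ ρ' ∈ S, IsConjRep ρ ρ' → ρ = ρ') ∧
      (∀ k : ℕ, 3 ≤ k → Even k → (k : ZMod (p - 1)) = 2 →
        ∀ F : ModularForm 𝒮ℒ (k : ℤ), IsEigenForm F → IsUnitAt ι F →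
          (qExpansion 1 ⇑F).coeff 0 = 0 → ∀ ρ', IsResidualRep φ F ρ' →
            ∃ ρ ∈ S, IsConjRep ρ ρ') ∧
      ∀ ρ ∈ S, ∀ k : ℕ, 3 ≤ k → (k : ZMod (p - 1)) = 2 →
        ∃ F : ModularForm 𝒮ℒ (k : ℤ), IsEigenForm F ∧ IsUnitAt ι F ∧
          (qExpansion 1 ⇑F).coeff 0 = 0 ∧ IsResidualRep φ F ρ := by
  have hP := RingHom.ker_isPrime φ
  have hp := natCast_mem_ker φ
  choose g hg hgb using fun f : ↥(Summary.twoSystems ι (RingHom.ker φ)) => f.2
  choose r hr using fun f => exists_isTwoRep (φ.comp (algEmb ι)) (hg f)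
  have hval : ∀ (f : ↥(Summary.twoSystems ι (RingHom.ker φ))) n (c : ZB),
      (c : ℂ) = FA.Deform.qLin p (g f) n → f.1 n = Ideal.Quotient.mk _ (algEmb ι c) :=
    fun f n c hc => by
      obtain ⟨b, hb1, hb2⟩ := hgb f n
      rw [← hb2, show b = algEmb ι c from Subtype.ext (hb1.trans hc.symm)]
  have hinj : ∀ f f', IsConjRep (r f) (r f') → f = f' := fun f f' h => by
    refine Subtype.ext (funext fun n => ?_)
    obtain ⟨c, hc⟩ : ∃ c : ZB, (c : ℂ) = FA.Deform.qLin p (g f) n :=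
      ⟨⟨_, FA.Root.isIntegral_qCoeff_eigenform (hg f) n⟩, rfl⟩
    obtain ⟨c', hc'⟩ : ∃ c : ZB, (c : ℂ) = FA.Deform.qLin p (g f') n :=
      ⟨⟨_, FA.Root.isIntegral_qCoeff_eigenform (hg f') n⟩, rfl⟩
    rw [hval f n c hc, hval f' n c' hc', Ideal.Quotient.eq, RingHom.mem_ker, map_sub, sub_eq_zero]
    exact values_eq_of_conj (φ.comp (algEmb ι)) (hg f) (hg f') (hr f) (hr f') h n c c' hc hc'
  have hrefl : ∀ ρ : GQ →* GL (Fin 2) K, IsConjRep ρ ρ :=
    fun ρ => ⟨1, fun σ => by rw [one_mul, inv_one, mul_one]⟩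
  have hfin := (twoSystems_finite (RingHom.ker φ)).1
  have : Finite ↥(Summary.twoSystems ι (RingHom.ker φ)) := hfin.to_subtype
  refine ⟨Set.range r, Set.finite_range r, ?_, ?_, fun k hk hev hk2 F hF hu h0 ρ' hρ' => ?_, ?_⟩
  · rw [Set.ncard_range_of_injective fun f f' e => hinj f f' (by rw [e]; exact hrefl _),
      Nat.card_coe_set_eq]
  · rintro _ ⟨f, rfl⟩ _ ⟨f', rfl⟩ h
    rw [hinj f f' h]
  · obtain ⟨g₀, hg₀, hc⟩ := exists_two_of_one h5 hk hev hk2 ι (RingHom.ker φ) hp hF hu h0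
    obtain ⟨f, hf, hfb⟩ := exists_twoSystem (RingHom.ker φ) hg₀
    refine ⟨_, ⟨⟨f, hf⟩, rfl⟩, two_conj h5 (φ.comp (algEmb ι)) (hg ⟨f, hf⟩) (hr ⟨f, hf⟩)
      (isTwoRep_of_isResidualRep (by omega) hk2 φ hg₀ (fun l hl => hc l hl.one_le) hρ') ∅
      fun l _ _ c c' hc1 hc2 => ?_⟩
    have e := (hval ⟨f, hf⟩ l c hc1).symm.trans (hfb l (algEmb ι c') hc2).symm
    rwa [Ideal.Quotient.eq, RingHom.mem_ker, map_sub, sub_eq_zero] at e
  · rintro _ ⟨f, rfl⟩ k hk hk2
    obtain ⟨F, hF, hu, h0, hc⟩ := exists_one_of_two h5 hk hk2 ι (RingHom.ker φ) hp (hg f)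
    exact ⟨F, hF, hu, h0, isResidualRep_of_isTwoRep (by omega) hk2 φ
      (fun l hl => hc l hl.one_le) (hr f)⟩

/-- A single system for `p = 11`. -/
theorem twoSystems_eleven (_ : Fact (Nat.Prime 11)) (ι : ℚ_[11] →+* ℂ)
    (P : Ideal ↥(intNums ι)) : (Summary.twoSystems ι P).ncard = 1 := by
  obtain ⟨-, -, -, hcard⟩ := FA.Summary.prime_level_eigenforms_basis (p := 11)
  rw [FA.CuspClass.finrank_cuspForm_eleven] at hcard
  refine le_antisymm ?_ ?_
  · have h := (twoSystems_finite P).2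
    rwa [FA.CuspClass.finrank_cuspForm_eleven] at h
  · obtain ⟨hne, -⟩ := Nat.card_eq_one_iff_unique.1 hcard |>.symm
    obtain ⟨g⟩ := hne
    obtain ⟨f, hf, -⟩ := exists_twoSystem P g.2
    exact (Set.ncard_pos (twoSystems_finite P).1).2 ⟨f, hf⟩

end FA.WeightTwoOrdinary

end
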