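import Fermat.Agent.OrdinaryCongruence.Congruence
import Fermat.Agent.Tau.LevelPModP

/-!
# The constant term of an eigenform modulo `p`

Outside the weights divisible by `p - 1` the constant term of an eigenform is determined modulo `p`
by the other coefficients; so the reduction of a cusp form of weight `≡ 2` is not Eisenstein's.
-/

set_option autoImplicit false
set_option linter.unusedSectionVars false

noncomputable section

open UpperHalfPlane hiding I
open PowerSeries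
open scoped MatrixGroups ModularForm ArithmeticFunction.sigma

namespace FA.WeightTwoOrdinary

open FA.PadicForms FA.OrdinaryProj FA.LambdaHecke FA.LevelOneControl FA.SwinnertonDyer
  FA.OrdinaryCount FA.OrdinaryCongruence

variable {p : ℕ} [Fact p.Prime] {k : ℕ}

/-- Every positive coefficient is the first of a polynomial in the `T_l` with integral
coefficients. -/
theorem exists_intCoeff (hk : 3 ≤ k) {n : ℕ} (hn : 1 ≤ n) :
    ∃ r : HeckePoly, ∀ x : ↥(qpSpace p k),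
      lvlPair p k (heckeHom p hk r) x = coeff n (x : PowerSeries ℚ_[p]) := by
  refine prime_induction (Q := fun n => ∃ r : HeckePoly, ∀ x : ↥(qpSpace p k),
    lvlPair p k (heckeHom p hk r) x = coeff n (x : PowerSeries ℚ_[p])) ⟨1, fun x => ?_⟩
    (fun l j hl _ hA hB => ?_) hn
  · rw [map_one]
    rfl
  obtain ⟨r, hr⟩ := hA
  by_cases hd : l ∣ j
  · obtain ⟨s, hs⟩ := hB hd
    refine ⟨r * MvPolynomial.X (⟨l, hl⟩ : {l : ℕ // l.Prime}) -
      MvPolynomial.C ((l : ℤ) ^ (k - 1)) * s, fun x => ?_⟩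
    rw [map_sub, map_sub, LinearMap.sub_apply, map_mul (heckeHom p hk), map_mul (heckeHom p hk),
      lvlPair_mul, lvlPair_mul, hr, act_heckeHom_X, lvlPair_apply]
    rw [show ((heckeHom p hk (MvPolynomial.C ((l : ℤ) ^ (k - 1))) : ↥(lvlAlg p k)) :
        Module.End ℚ_[p] ↥(qpSpace p k)) (act (heckeHom p hk s) x) = _ from act_heckeHom_C hk _ _,
      Submodule.coe_smul, PowerSeries.coeff_smul, smul_eq_mul, ← lvlPair_apply, hs,
      coeff_tSer, if_pos hd]
    push_cast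
    ring
  · refine ⟨r * MvPolynomial.X (⟨l, hl⟩ : {l : ℕ // l.Prime}), fun x => ?_⟩
    rw [map_mul (heckeHom p hk), lvlPair_mul, hr, act_heckeHom_X, coeff_tSer, if_neg hd, add_zero]

/-- In a class other than `0` a form modulo `p` with no coefficient of positive index is zero. -/
theorem eq_zero_of_const (h5 : 5 ≤ p) {n : ℕ} (hn : (n : ZMod (p - 1)) ≠ 0)
    {v : PowerSeries (ZMod p)} (h : IsFormModP p n v) (hv : ∀ j, 1 ≤ j → coeff j v = 0) :
    v = 0 := by
  by_contra hne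
  have e : v = C (coeff 0 v) * 1 := PowerSeries.ext fun j => by
    rw [mul_one, coeff_C]
    split_ifs with hj
    · rw [hj]
    · exact hv j (Nat.pos_of_ne_zero hj)
  have h0 : IsFormModP p 0 v := by
    rw [e]
    refine formModP_smul' h5 ?_ _
    rw [← map_one (phi p)]
    exact isFormModP_phi (MvPolynomial.isWeightedHomogeneous_one _ _)
  exact hn (by rw [class_eq h5 h h0 hne, Nat.cast_zero])

theorem exists_intSer {x : PowerSeries ℚ_[p]} (hx : SupLe x 1) :
    ∃ L : PowerSeries ℤ_[p], toQps p L = x :=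
  ⟨PowerSeries.mk fun n => ⟨_, hx n⟩, PowerSeries.ext fun n => by rw [coeff_toQps, coeff_mk]⟩

/-- Integral higher coefficients make the constant integral. -/
theorem int_of_higher (h5 : 5 ≤ p) (hk0 : (k : ZMod (p - 1)) ≠ 0) {x : PowerSeries ℚ_[p]}
    (hf : IsPadicForm x (natWeight p k)) (h : ∀ n, 1 ≤ n → ‖coeff n x‖ ≤ 1) : SupLe x 1 := by
  have hp0 : (p : ℚ_[p]) ≠ 0 := Nat.cast_ne_zero.2 (Fact.out : p.Prime).ne_zero
  have hp1 : (1 : ℝ) < p := one_lt_cast
  by_contra hne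
  have h0 : 1 < ‖coeff 0 x‖ := by
    by_contra hle
    exact hne fun n => (Nat.eq_zero_or_pos n).elim (fun e => e ▸ not_lt.1 hle) (h n)
  obtain ⟨c, hc⟩ : ∃ c, c = (coeff 0 x)⁻¹ := ⟨_, rfl⟩
  have hc0 : coeff 0 x ≠ 0 := fun e => by rw [e, norm_zero] at h0; linarith
  have hy : SupLe (C c * x) 1 := fun n => by
    rw [coeff_C_mul, norm_mul, hc, norm_inv]
    rcases Nat.eq_zero_or_pos n with rfl | hn
    · rw [inv_mul_cancel₀ (norm_ne_zero_iff.2 hc0)]
    · exact mul_le_one₀ (inv_le_one_of_one_le₀ h0.le) (norm_nonneg _) (h n hn)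
  obtain ⟨L, hL⟩ := exists_intSer hy
  have hLi : IsIntForm (natWeight p k) L := by
    rw [IsIntForm, hL]
    exact hf.C_mul c
  obtain ⟨n, hn, hfn⟩ := hLi.exists_modP h5
  have hz : redSer p L = 0 := eq_zero_of_const h5 (by rw [hn]; exact hk0) hfn fun j hj => by
    rw [coeff_redSer, ← RingHom.mem_ker, PadicInt.ker_toZMod, IsLocalRing.mem_maximalIdeal,
      PadicInt.mem_nonunits, PadicInt.norm_def, ← coeff_toQps, hL, coeff_C_mul, norm_mul, hc,
      norm_inv]
    exact (mul_le_of_le_one_right (inv_nonneg.2 (norm_nonneg _)) (h j hj)).trans_lt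
      (inv_lt_one_of_one_lt₀ h0)
  have e := congrArg (coeff 0) hz
  rw [coeff_redSer, map_zero, ← RingHom.mem_ker, PadicInt.ker_toZMod, IsLocalRing.mem_maximalIdeal,
    PadicInt.mem_nonunits, PadicInt.norm_def, ← coeff_toQps, hL, coeff_C_mul, hc,
    inv_mul_cancel₀ hc0, norm_one] at e
  exact lt_irrefl _ e

/-- The reductions of the integral series of the space. -/
theorem exists_redSpace (h5 : 5 ≤ p) (hk : 3 ≤ k) :
    ∃ V : Submodule (ZMod p) (PowerSeries (ZMod p)), Finite ↥V ∧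
      ∀ v, v ∈ V ↔ ∃ L : PowerSeries ℤ_[p], toQps p L ∈ qpSpace p k ∧ redSer p L = v := by
  obtain ⟨V, hV⟩ : ∃ V : Submodule (ZMod p) (PowerSeries (ZMod p)),
      ∀ v, v ∈ V ↔ ∃ L : PowerSeries ℤ_[p], toQps p L ∈ qpSpace p k ∧ redSer p L = v :=
    ⟨{ carrier := {v | ∃ L : PowerSeries ℤ_[p], toQps p L ∈ qpSpace p k ∧ redSer p L = v}
       add_mem' := fun {u v} ⟨L, hL, hu⟩ ⟨M, hM, hv⟩ =>
        ⟨L + M, by rw [map_add]; exact add_mem hL hM, by rw [map_add, hu, hv]⟩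
       zero_mem' := ⟨0, by rw [map_zero]; exact zero_mem _, map_zero _⟩
       smul_mem' := fun c v ⟨L, hL, hv⟩ => ⟨C ((c.val : ℕ) : ℤ_[p]) * L, by
        rw [toQps_C_mul, ← PowerSeries.smul_eq_C_mul]
        exact Submodule.smul_mem _ _ hL, by
        rw [map_mul, hv, redSer, map_C, map_natCast, ZMod.natCast_zmod_val,
          PowerSeries.smul_eq_C_mul]⟩ }, fun _ => Iff.rfl⟩
  refine ⟨V, ?_, hV⟩
  obtain ⟨b, D, hb, hD⟩ := exists_int_basis (p := p) (k := k) h5 hk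
  choose L hL using fun v : ↥V => (hV v).1 v.2
  have hint : ∀ (v : ↥V) i,
      ‖(p : ℚ_[p]) ^ D * b.repr ⟨toQps p (L v), (hL v).1⟩ i‖ ≤ 1 := fun v i => by
    rw [norm_mul, Padic.norm_p_pow]
    refine (mul_le_mul_of_nonneg_left (hD ⟨toQps p (L v), (hL v).1⟩ (supLe_toQps (L v)) i)
      (zpow_pos' _).le).trans (le_of_eq ?_)
    rw [← zpow_add₀ (zero_lt_one.trans (one_lt_cast (p := p))).ne', neg_add_cancel, zpow_zero]
  refine Finite.of_injective (β := Fin (Module.finrank ℚ_[p] ↥(qpSpace p k)) →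
    ZMod (p ^ (D + 1))) (fun v i => PadicInt.toZModPow (D + 1) ⟨_, hint v i⟩) fun u v e => ?_
  refine Subtype.ext ?_
  rw [← (hL u).2, ← (hL v).2, redSer_eq_iff, ← pow_one (p : PowerSeries ℤ_[p]), ← supLe_iff,
    map_sub]
  intro n
  have hsub : toQps p (L u) - toQps p (L v) = ∑ i, (b.repr ⟨toQps p (L u), (hL u).1⟩ i -
      b.repr ⟨toQps p (L v), (hL v).1⟩ i) • (b i : PowerSeries ℚ_[p]) := by
    have eu := congrArg (fun z : ↥(qpSpace p k) => (z : PowerSeries ℚ_[p]))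
      (b.sum_repr ⟨toQps p (L u), (hL u).1⟩)
    have ev := congrArg (fun z : ↥(qpSpace p k) => (z : PowerSeries ℚ_[p]))
      (b.sum_repr ⟨toQps p (L v), (hL v).1⟩)
    simp only [Submodule.coe_sum, Submodule.coe_smul] at eu ev
    simp only [sub_smul, Finset.sum_sub_distrib, eu, ev]
  rw [hsub, map_sum]
  refine IsUltrametricDist.norm_sum_le_of_forall_le_of_nonneg (zpow_pos' _).le fun i _ => ?_
  rw [PowerSeries.coeff_smul, smul_eq_mul, norm_mul]
  have hnorm := congrFun e i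
  rw [← sub_eq_zero, ← map_sub, ← RingHom.mem_ker, PadicInt.ker_toZModPow,
    ← PadicInt.norm_le_pow_iff_mem_span_pow, PadicInt.norm_def, PadicInt.coe_sub] at hnorm
  change ‖(p : ℚ_[p]) ^ D * _ - (p : ℚ_[p]) ^ D * _‖ ≤ _ at hnorm
  rw [← mul_sub, norm_mul, Padic.norm_p_pow] at hnorm
  refine (mul_le_mul_of_nonneg_left (hb i n) (norm_nonneg _)).trans ?_
  rw [mul_one]
  refine le_of_mul_le_mul_left (hnorm.trans (le_of_eq ?_)) (zpow_pos' (p := p) (-(D : ℤ)))
  rw [← zpow_add₀ (zero_lt_one.trans (one_lt_cast (p := p))).ne']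
  push_cast
  ring_nf

/-- **The constant term modulo `p` from the other coefficients.** -/
theorem exists_const_rel (h5 : 5 ≤ p) (hk : 3 ≤ k) (hk0 : (k : ZMod (p - 1)) ≠ 0)
    (ι : ℚ_[p] →+* ℂ) :
    ∃ (I : Finset ℕ) (c : ℕ → ℤ), (∀ n ∈ I, 1 ≤ n) ∧
      ∀ F : ModularForm 𝒮ℒ (k : ℤ), IsEigenForm F → ∃ b : ↥(intNums ι),
        (qExpansion 1 ⇑F).coeff 0 - ∑ n ∈ I, (c n : ℂ) * (qExpansion 1 ⇑F).coeff n =
          (p : ℂ) * (b : ℂ) := by
  classical
  obtain ⟨V, hVfin, hV⟩ := exists_redSpace (p := p) (k := k) h5 hk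
  let : Fintype ↥V := Fintype.ofFinite _
  have hidx : ∀ v : ↥V, ∃ n, 1 ≤ n ∧
      ((v : PowerSeries (ZMod p)) ≠ 0 → coeff n (v : PowerSeries (ZMod p)) ≠ 0) := fun v => by
    by_cases h : (v : PowerSeries (ZMod p)) = 0
    · exact ⟨1, le_rfl, fun e => absurd h e⟩
    · obtain ⟨L, hL, hLv⟩ := (hV v).1 v.2
      have hLi : IsIntForm (natWeight p k) L := by
        rw [IsIntForm]
        exact isPadicForm_of_mem h5 hL
      obtain ⟨n, hn, hf⟩ := hLi.exists_modP h5
      by_contra hall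
      push Not at hall
      exact h (eq_zero_of_const h5 (by rw [hn]; exact hk0) (hLv ▸ hf) fun j hj => (hall j hj).2)
  choose idx hidx1 hidx2 using hidx
  obtain ⟨I, hI⟩ : ∃ I : Finset ℕ, I = Finset.univ.image idx := ⟨_, rfl⟩
  obtain ⟨R, hR⟩ : ∃ R : ↥V →ₗ[ZMod p] (↥I → ZMod p),
      ∀ v n, R v n = coeff (n : ℕ) (v : PowerSeries (ZMod p)) :=
    ⟨LinearMap.pi fun n : ↥I => (coeff (n : ℕ)).comp V.subtype, fun _ _ => rfl⟩
  obtain ⟨S, hS⟩ := R.exists_leftInverse_of_injective (LinearMap.ker_eq_bot'.2 fun v hv => by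
    refine Subtype.ext ?_
    by_contra hne
    refine hidx2 v hne ?_
    rw [← hR v ⟨idx v, hI ▸ Finset.mem_image_of_mem idx (Finset.mem_univ v)⟩, hv, Pi.zero_apply])
  obtain ⟨lam, hlam⟩ : ∃ lam : (↥I → ZMod p) →ₗ[ZMod p] ZMod p,
      lam = ((coeff 0).comp V.subtype).comp S := ⟨_, rfl⟩
  obtain ⟨c, hc⟩ : ∃ c : ℕ → ℤ, ∀ n : ↥I, (c n : ZMod p) = lam (Pi.single n 1) :=
    ⟨fun n => if h : n ∈ I then ((lam (Pi.single ⟨n, h⟩ 1)).val : ℤ) else 0, fun n => by
      dsimp only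
      rw [dif_pos n.2, Int.cast_natCast, ZMod.natCast_zmod_val]⟩
  have hI1 : ∀ n ∈ I, 1 ≤ n := fun n hn => by
    rw [hI, Finset.mem_image] at hn
    obtain ⟨v, -, rfl⟩ := hn
    exact hidx1 v
  refine ⟨I, c, hI1, fun F hF => ?_⟩
  have hcoef : ∀ v : ↥V, coeff 0 (v : PowerSeries (ZMod p)) =
      ∑ n : ↥I, (c n : ZMod p) * coeff (n : ℕ) (v : PowerSeries (ZMod p)) := fun v => by
    have e : lam (R v) = coeff 0 (v : PowerSeries (ZMod p)) := by
      rw [hlam, LinearMap.comp_apply, show S (R v) = v from LinearMap.congr_fun hS v]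
      rfl
    refine e.symm.trans (((congrArg lam (pi_eq_sum_univ' (R v))).trans (map_sum lam _ _)).trans ?_)
    exact Finset.sum_congr rfl fun n _ => by rw [map_smul, smul_eq_mul, hR, hc, mul_comm]
  obtain ⟨hbij, -⟩ := lvlPair_bijective (p := p) hk
  obtain ⟨t0, ht0⟩ := hbij.2 ((coeff 0).comp (qpSpace p k).subtype)
  choose T hT using fun n : ↥I => exists_intCoeff (p := p) hk (hI1 n n.2)
  obtain ⟨z, hz⟩ : ∃ z : ↥(lvlAlg p k), z = (p : ℚ_[p])⁻¹ •
      (t0 - ∑ n : ↥I, (c n : ℚ_[p]) • heckeHom p hk (T n)) := ⟨_, rfl⟩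
  have hp0 : (p : ℚ_[p]) ≠ 0 := Nat.cast_ne_zero.2 (Fact.out : p.Prime).ne_zero
  have hpair : ∀ y : ↥(qpSpace p k), SupLe (y : PowerSeries ℚ_[p]) 1 →
      ‖lvlPair p k z y‖ ≤ 1 := fun y hy => by
    obtain ⟨L, hL⟩ := exists_intSer hy
    obtain ⟨v, hv⟩ : ∃ v : ↥V, (v : PowerSeries (ZMod p)) = redSer p L :=
      ⟨⟨_, (hV _).2 ⟨L, hL ▸ y.2, rfl⟩⟩, rfl⟩
    have h := hcoef v
    simp only [hv, coeff_redSer] at h
    obtain ⟨w, hw⟩ : (p : ℤ_[p]) ∣ coeff 0 L - ∑ n : ↥I, (c n : ℤ_[p]) * coeff (n : ℕ) L := by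
      rw [← Ideal.mem_span_singleton, ← PadicInt.maximalIdeal_eq_span_p, ← PadicInt.ker_toZMod,
        RingHom.mem_ker, map_sub, map_sum, sub_eq_zero, h]
      exact Finset.sum_congr rfl fun n _ => by rw [map_mul, map_intCast]
    have e := congrArg (fun u : ℤ_[p] => (u : ℚ_[p])) hw
    simp only [PadicInt.coe_sub, PadicInt.coe_mul, PadicInt.coe_natCast, PadicInt.coe_sum,
      PadicInt.coe_intCast, ← coeff_toQps, hL] at e
    rw [hz, map_smul, map_sub, map_sum, LinearMap.smul_apply, LinearMap.sub_apply,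
      LinearMap.sum_apply, ht0, smul_eq_mul]
    simp only [map_smul, LinearMap.smul_apply, smul_eq_mul, hT, LinearMap.comp_apply,
      Submodule.subtype_apply]
    rw [e, inv_mul_cancel_left₀ hp0, ← PadicInt.norm_def]
    exact PadicInt.norm_le_one _
  obtain ⟨χ, hχ⟩ := exists_char ι hF
  have hint : (iotaInt ι).IsIntegralElem (χ.1 z) :=
    isIntegralElem_of_integral h5 hk χ z fun x hx => by
      refine int_of_higher h5 hk0 (isPadicForm_of_mem h5 (act z x).2) fun n hn => ?_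
      obtain ⟨r, hr⟩ := exists_intCoeff (p := p) hk hn
      rw [← hr, ← lvlPair_mul, mul_comm, lvlPair_mul]
      exact hpair _ (supLe_heckeHom hk r hx)
  refine ⟨⟨χ.1 z, hint⟩, ?_⟩
  obtain ⟨r, x, w, hx⟩ := exists_expansion ι F
  have hval : ∀ (a : ↥(lvlAlg p k)) (n : ℕ),
      (∀ y, lvlPair p k a y = coeff n (y : PowerSeries ℚ_[p])) →
      χ.1 a = (qExpansion 1 ⇑F).coeff n := fun a n ha => by
    have h := congrArg (coeff 1) (hχ a r x w 1 (by rw [map_one, one_mul, hx]))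
    rw [map_sum, coeff_C_mul, hF.1, mul_one, mul_one] at h
    rw [← h, hx, map_sum]
    refine Finset.sum_congr rfl fun i _ => ?_
    rw [coeff_C_mul, coeff_C_mul, coeff_map, coeff_map, ← ha, lvlPair_apply]
  show _ = (p : ℂ) * χ.1 z
  rw [hz, Algebra.smul_def, map_mul, χ.2, map_inv₀, map_natCast, ← mul_assoc,
    mul_inv_cancel₀ (Nat.cast_ne_zero.2 (Fact.out : p.Prime).ne_zero), one_mul, map_sub, map_sum,
    hval t0 0 fun y => LinearMap.congr_fun ht0 y, ← Finset.sum_coe_sort I]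
  congr 1
  refine Finset.sum_congr rfl fun n _ => ?_
  rw [Algebra.smul_def, map_mul, χ.2, map_intCast, hval (heckeHom p hk (T n)) n (hT n)]

/-- Eigenforms congruent at all positive indices have congruent constant terms. -/
theorem eigen_const_congr (h5 : 5 ≤ p) (hk : 3 ≤ k) (hk0 : (k : ZMod (p - 1)) ≠ 0)
    (ι : ℚ_[p] →+* ℂ) (P : Ideal ↥(intNums ι)) (hp : (p : ↥(intNums ι)) ∈ P)
    {F G : ModularForm 𝒮ℒ (k : ℤ)} (hF : IsEigenForm F) (hG : IsEigenForm G)
    (h : ∀ n, 1 ≤ n → ∃ u : ↥(intNums ι), u ∈ P ∧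
      (u : ℂ) = (qExpansion 1 ⇑F).coeff n - (qExpansion 1 ⇑G).coeff n) :
    ∃ u : ↥(intNums ι), u ∈ P ∧
      (u : ℂ) = (qExpansion 1 ⇑F).coeff 0 - (qExpansion 1 ⇑G).coeff 0 := by
  obtain ⟨I, c, hI, hc⟩ := exists_const_rel h5 hk hk0 ι
  obtain ⟨a, ha⟩ := hc F hF
  obtain ⟨b, hb⟩ := hc G hG
  choose u hu hue using fun n : ↥I => h n (hI n n.2)
  refine ⟨(p : ↥(intNums ι)) * (a - b) + ∑ n : ↥I, (c n : ↥(intNums ι)) * u n,
    P.add_mem (P.mul_mem_right _ hp) (P.sum_mem fun n _ => P.mul_mem_left _ (hu n)), ?_⟩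
  rw [← Finset.sum_coe_sort I] at ha hb
  simp only [Subring.coe_add, Subring.coe_mul, Subring.coe_natCast, AddSubgroupClass.coe_sub,
    AddSubmonoidClass.coe_finsetSum, Subring.coe_intCast, hue, mul_sub, Finset.sum_sub_distrib]
  linear_combination hb - ha

/-- **A cusp eigenform of weight `≡ 2` is not congruent to the Eisenstein series.** -/
theorem exists_not_eisenstein (h5 : 5 ≤ p) (hk : 4 ≤ k) (hev : Even k)
    (hk2 : (k : ZMod (p - 1)) = 2) (ι : ℚ_[p] →+* ℂ) (P : Ideal ↥(intNums ι)) [P.IsPrime]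
    (hp : (p : ↥(intNums ι)) ∈ P) {F : ModularForm 𝒮ℒ (k : ℤ)} (hF : IsEigenForm F)
    (h0 : (qExpansion 1 ⇑F).coeff 0 = 0) :
    ∃ l : ℕ, l.Prime ∧ ¬∃ u : ↥(intNums ι), u ∈ P ∧
      (u : ℂ) = (qExpansion 1 ⇑F).coeff l - (1 + (l : ℂ) ^ (k - 1)) := by
  by_contra hall
  push Not at hall
  have h2 : (2 : ZMod (p - 1)) ≠ 0 := by
    rw [show (2 : ZMod (p - 1)) = ((2 : ℕ) : ZMod (p - 1)) from Nat.cast_two.symm, Ne,
      ZMod.natCast_eq_zero_iff]
    exact fun h => by have := Nat.le_of_dvd two_pos h; omega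
  have hk0 : (k : ZMod (p - 1)) ≠ 0 := hk2 ▸ h2
  obtain ⟨E, hE, hE0, hEl⟩ := exists_eisenstein hev hk
  have hcon := eigen_const_congr h5 (by omega) hk0 ι P hp hF hE fun n hn =>
    coeff_congr h5 (by omega) (by omega) rfl ι P hp hF hE (fun l hl => by
      rw [hEl l hl]
      obtain ⟨u, hu, hue⟩ := hall l hl
      exact ⟨u, hu, hue⟩) hn
  obtain ⟨u, hu, hue⟩ := hcon
  -- the Eisenstein constant is a unit
  obtain ⟨G, hG⟩ := isRatForm_eisSer hev hk
  have hEG : E = G := eigen_ext (by omega) hE ⟨by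
      rw [hG, coeff_map, eisSer, coeff_mk, if_neg one_ne_zero, ArithmeticFunction.sigma_one]
      simp, fun l hl n => by
      have h := congrArg (fun S => ((coeff n S : ℚ) : ℂ))
        (FA.OrdinaryReduced.opT_eisSer (k := k) hl)
      simp only [FA.OrdinaryReduced.opT, coeff_tSer, PowerSeries.coeff_smul, smul_eq_mul,
        apply_ite (Rat.cast (K := ℂ)), Rat.cast_add, Rat.cast_mul, Rat.cast_pow, Rat.cast_natCast,
        Rat.cast_zero, Rat.cast_one] at h
      simp only [hG, coeff_map, eq_ratCast]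
      rw [show coeff l (eisSer k) = 1 + (l : ℚ) ^ (k - 1) by
        rw [eisSer, coeff_mk, if_neg hl.ne_zero, ArithmeticFunction.sigma_apply, hl.divisors,
          Finset.sum_pair hl.one_lt.ne]
        simp]
      push_cast
      exact h⟩ fun l hl => by
    rw [hEl l hl, hG, coeff_map, eisSer, coeff_mk, if_neg hl.ne_zero,
      ArithmeticFunction.sigma_apply, hl.divisors, Finset.sum_pair hl.one_lt.ne]
    simp
  have hf := (isRatForm_eisSer hev hk).isPadicForm (p := p)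
  have hint := int_of_higher h5 hk0 hf fun n hn => by
    rw [coeff_toQp, eisSer, coeff_mk, if_neg (by omega : n ≠ 0), Rat.cast_natCast]
    exact_mod_cast Padic.norm_int_le_one _
  obtain ⟨L, hL⟩ := exists_intSer hint
  have hLi : IsIntForm (natWeight p k) L := by
    rw [IsIntForm, hL]
    exact hf
  obtain ⟨m, hm, hfm⟩ := hLi.exists_modP h5
  have hm2 : (m : ZMod (p - 1)) = 2 := hm.trans hk2
  have hmem : IsFormModP p (p + 1) (e2 p) :=
    (FA.SupersingularPoints.mem_formSpace h5 _).1 (FA.SupersingularMass.eTwo_mem p h5)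
  obtain ⟨N, hN1, hN2, hNc⟩ : ∃ N, m ≤ N ∧ p + 1 ≤ N ∧ (N : ZMod (p - 1)) = 2 :=
    ⟨m + (p + 1) * (p - 1), by omega, by nlinarith [show 1 ≤ p - 1 by omega], by
      rw [Nat.cast_add, Nat.cast_mul, ZMod.natCast_self, mul_zero, add_zero, hm2]⟩
  have hraise : ∀ {j : ℕ} {v : PowerSeries (ZMod p)}, j ≤ N → (j : ZMod (p - 1)) = 2 →
      IsFormModP p j v → IsFormModP p N v := fun {j v} hjN hj hv => by
    obtain ⟨i, hi⟩ : p - 1 ∣ N - j := by
      rw [← ZMod.natCast_eq_zero_iff, Nat.cast_sub hjN, hNc, hj, sub_self]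
    have h := hv.add_weight h5 i
    rwa [show j + i * (p - 1) = N by rw [mul_comm, ← hi]; omega] at h
  have hp1 : ((p + 1 : ℕ) : ZMod (p - 1)) = 2 := by
    rw [show p + 1 = p - 1 + 2 by omega, Nat.cast_add, ZMod.natCast_self, zero_add, Nat.cast_two]
  have hv := eq_zero_of_const h5 (by rw [hNc]; exact h2)
    ((formModP_smul' h5 (hraise hN1 hm2 hfm) (-24)).sub h5 (hraise hN2 hp1 hmem)) fun j hj => by
      have e : coeff j L = ((σ (k - 1) j : ℕ) : ℤ_[p]) := Subtype.ext (by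
        rw [← coeff_toQps, hL, coeff_toQp, eisSer, coeff_mk, if_neg (by omega : j ≠ 0),
          Rat.cast_natCast]
        rfl)
      rw [map_sub, coeff_C_mul, coeff_redSer, e, map_natCast, e2, coeff_map,
        FA.Tau.eTwoInt, coeff_mk, if_neg (by omega : j ≠ 0), eq_intCast]
      push_cast
      rw [← mul_sub, ArithmeticFunction.sigma_apply, ArithmeticFunction.sigma_apply]
      push_cast
      rw [← Finset.sum_sub_distrib, Finset.sum_eq_zero fun d _ => ?_, mul_zero]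
      rw [pow_congr d (m := 2) (by omega) le_rfl (by rw [hk2, Nat.cast_two]), pow_one, sub_self]
  have e0 := congrArg (coeff 0) hv
  rw [map_sub, coeff_C_mul, coeff_redSer, e2, coeff_map, FA.Tau.eTwoInt, coeff_mk, if_pos rfl,
    map_one, map_zero, sub_eq_zero] at e0
  obtain ⟨w, hw⟩ : (p : ℤ_[p]) ∣ -24 * coeff 0 L - 1 := by
    rw [← Ideal.mem_span_singleton, ← PadicInt.maximalIdeal_eq_span_p, ← PadicInt.ker_toZMod,
      RingHom.mem_ker, map_sub, map_mul, map_neg, map_ofNat, e0, map_one, sub_self]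
  have hu' : intEmb ι (coeff 0 L) ∈ P := by
    have e : intEmb ι (coeff 0 L) = -u := Subtype.ext (by
      rw [Subring.coe_neg, hue, h0, zero_sub, neg_neg, coe_intEmb, hEG, hG, coeff_map, eq_ratCast,
        ← coeff_toQps, hL, coeff_toQp, map_ratCast])
    rw [e]
    exact P.neg_mem hu
  refine Ideal.IsPrime.ne_top ‹_› ((Ideal.eq_top_iff_one _).2 ?_)
  have e := congrArg (intEmb ι) hw
  rw [map_sub, map_mul, map_mul, map_one, map_natCast, sub_eq_iff_eq_add] at e
  rw [show (1 : ↥(intNums ι)) = intEmb ι (-24) * intEmb ι (coeff 0 L) -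
    (p : ↥(intNums ι)) * intEmb ι w by rw [e]; ring]
  exact P.sub_mem (P.mul_mem_left _ hu') (P.mul_mem_right _ hp)

end FA.WeightTwoOrdinary

end
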