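import Fermat.Agent.Tau.ReduciblePrimes
import Fermat.Agent.Tau.ContractionModP
import Fermat.Agent.OrdinaryProj.ModP

/-!
# An eigenform of weight `p + 1` modulo `p` is not a twist of an Eisenstein series

If a cusp form `v` of weight `p + 1` modulo `p` with `U v = ε v` had the coefficients
`nᵃ σ_c(n)` at `n` prime to `p`, then `θʲ v = θ^(p-1) g` for an Eisenstein series `g`; the
filtration of the right side is `p` times that of `g`, so `j = p - 1` and `v - g = (ε v - g)ᵖ`.
-/

set_option autoImplicit false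

noncomputable section

open PowerSeries FA.SwinnertonDyer
open scoped ArithmeticFunction.sigma

namespace FA.WeightTwoOrdinary

variable {p : ℕ} [Fact p.Prime]

/-- `U` fixes the divisor sums modulo `p`. -/
theorem sigma_mul_self {c m : ℕ} (hc : c ≠ 0) (hm : m ≠ 0) :
    ((σ c (m * p) : ℕ) : ZMod p) = ((σ c m : ℕ) : ZMod p) := by
  have h := congrArg (Int.cast : ℤ → ZMod p)
    (FA.EisCong.sigma_hecke (Fact.out : p.Prime) c hm)
  push_cast at h
  rw [ZMod.natCast_self, zero_pow hc] at h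
  simpa using h

/-- The Eisenstein series of weight at most `p + 1` in the class of `c + 1`. -/
theorem exists_eisenstein_series (h5 : 5 ≤ p) {c : ℕ}
    (hc : c = 1 ∨ c % 2 = 1 ∧ 3 ≤ c ∧ c + 4 ≤ p) :
    ∃ (g : PowerSeries (ZMod p)) (w : ℕ), IsLeast {n | IsFormModP p n g} w ∧
      (∀ n, n ≠ 0 → coeff n g = ((σ c n : ℕ) : ZMod p)) ∧ 1 ≤ w ∧ w ≤ p + 1 ∧
      (w = p + 1 → coeff 0 g ≠ 0) := by
  have hp : p.Prime := Fact.out
  rcases hc with rfl | ⟨hc2, hc3, hc4⟩
  · -- weight two: `E₂` has filtration `p + 1`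
    have h24 : (24 : ZMod p) ≠ 0 := by
      rw [show (24 : ZMod p) = 2 * 12 by norm_num]
      exact mul_ne_zero (ne_two_three h5).1 (twelve_ne h5)
    obtain ⟨g, hg⟩ : ∃ g, g = C (-(24 : ZMod p)⁻¹) * e2 p := ⟨_, rfl⟩
    have hcoef : ∀ n, n ≠ 0 → coeff n g = ((σ 1 n : ℕ) : ZMod p) := fun n hn => by
      rw [hg, coeff_C_mul, e2, coeff_map, FA.Tau.eTwoInt, coeff_mk, if_neg hn, eq_intCast]
      push_cast
      rw [ArithmeticFunction.sigma_apply]
      push_cast
      field_simp
    have hform : IsFormModP p (p + 1) g := by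
      have e : phi p (MvPolynomial.C (-(24 : ZMod p)⁻¹) * dOp p (FA.HasseEis.hassePoly p)) =
          g := by
        rw [map_mul, phi_dOp_hassePoly h5]
        simp [phi, hg]
      rw [← e]
      have := (dOp_isob (isob_hassePoly (p := p) h5)).C_mul (-(24 : ZMod p)⁻¹)
      rw [show p - 1 + 2 = p + 1 by omega] at this
      exact isFormModP_phi this
    have hg1 : coeff 1 g = 1 := by rw [hcoef 1 one_ne_zero]; simp
    refine ⟨g, p + 1, ⟨hform, fun n hn => ?_⟩, hcoef, by omega, le_rfl, fun _ => ?_⟩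
    · by_contra hlt
      obtain ⟨q, hq⟩ := (Nat.modEq_iff_dvd' (by omega : n ≤ p + 1)).1
        (FA.Partition.modEq_of_isFormModP h5 hn hform (ne_zero_of_coeff_one hg1))
      obtain rfl : n = 2 := by
        rcases q with _ | _ | q
        · rw [mul_zero] at hq; omega
        · simp at hq; omega
        · have : (p - 1) * 2 ≤ (p - 1) * (q + 1 + 1) := Nat.mul_le_mul_left _ (by omega)
          omega
      obtain ⟨F, hF, hF'⟩ := IsFormModP.exists_isob h5 hn
      have hF0 : F = 0 := by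
        ext d
        rw [MvPolynomial.coeff_zero]
        exact hF.coeff_eq_zero d (by rw [weight_eq]; omega)
      rw [hF0, map_zero] at hF'
      exact ne_zero_of_coeff_one hg1 hF'.symm
    · rw [hg, coeff_C_mul, e2, coeff_map, FA.Tau.eTwoInt, coeff_mk, if_pos rfl, map_one, mul_one]
      exact neg_ne_zero.2 (inv_ne_zero h24)
  · have hev : Even (c + 1) := Nat.even_iff.2 (by omega)
    obtain ⟨g, hg, hcoef, -⟩ := exists_eisenstein (p := p) h5 hev (by omega)
      fun hd => absurd (Nat.le_of_dvd (by omega) hd) (by omega)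
    have hg1 : coeff 1 g = 1 := by rw [hcoef 1 one_ne_zero]; simp
    refine ⟨g, c + 1, ⟨hg, fun n hn => ?_⟩, fun n hn => ?_, by omega, by omega,
      fun e => absurd e (by omega)⟩
    · by_contra hlt
      have h' := FA.Partition.modEq_of_isFormModP h5 hn hg (ne_zero_of_coeff_one hg1)
      rw [Nat.ModEq, Nat.mod_eq_of_lt (by omega), Nat.mod_eq_of_lt (by omega)] at h'
      omega
    · rw [hcoef n hn, Nat.add_sub_cancel]

/-- `θ^(p-1) g` has filtration `p` times that of `g` when `U g = g`. -/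
theorem isLeast_theta_top (h5 : 5 ≤ p) {w : ℕ} (hw : 1 ≤ w) {g : PowerSeries (ZMod p)}
    (h : IsLeast {n | IsFormModP p n g} w) (hu : uOp p g = g) (h1 : coeff 1 g = 1) :
    IsLeast {n | IsFormModP p n ((thetaP p)^[p - 1] g)} (p * w) := by
  have hp : p.Prime := Fact.out
  have hg0 := ne_zero_of_coeff_one h1
  have hpow : (thetaP p)^[p - 1] g = g - g ^ p := by
    have := uOp_pow g
    rw [hu] at this
    rw [this, sub_sub_cancel]
  have hne : (thetaP p)^[p - 1] g ≠ 0 := ne_zero_of_coeff_one (by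
    rw [FA.Partition.coeff_thetaP_iterate, h1, Nat.cast_one, one_pow, one_mul])
  have hgp : IsLeast {n | IsFormModP p n (g ^ p)} (p * w) := filtration_pow h5 hg0 h p
  have hgpw : IsFormModP p (p * w) g := by
    have := h.1.add_weight h5 w
    rwa [show w + w * (p - 1) = p * w by
      rw [Nat.mul_sub, mul_one, mul_comm p w]; have := Nat.le_mul_of_pos_right w hp.pos; omega]
      at this
  have htop : IsFormModP p (p * w) ((thetaP p)^[p - 1] g) := hpow ▸ hgpw.sub h5 hgp.1
  refine ⟨htop, fun n hn => ?_⟩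
  by_contra hlt
  have hmod := FA.Partition.modEq_of_isFormModP h5 hn htop hne
  -- raise both to a common weight below `p * w`
  obtain ⟨N, hN, hNg, hNt⟩ : ∃ N, N < p * w ∧ IsFormModP p N g ∧
      IsFormModP p N ((thetaP p)^[p - 1] g) := by
    have hpw : p * w ≡ w [MOD p - 1] := by
      have : p ≡ 1 [MOD p - 1] := ((Nat.modEq_iff_dvd' hp.one_le).2 dvd_rfl).symm
      simpa using this.mul_right w
    rcases le_total w n with hwn | hnw
    · obtain ⟨i, hi⟩ := (Nat.modEq_iff_dvd' hwn).1 (hmod.trans hpw).symm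
      refine ⟨n, by omega, ?_, hn⟩
      have := h.1.add_weight h5 i
      rwa [show w + i * (p - 1) = n by rw [mul_comm i, ← hi]; omega] at this
    · obtain ⟨i, hi⟩ := (Nat.modEq_iff_dvd' hnw).1 (hmod.trans hpw)
      refine ⟨w, lt_mul_of_one_lt_left (by omega) hp.one_lt, h.1, ?_⟩
      have := IsFormModP.add_weight h5 hn i
      rwa [show n + i * (p - 1) = w by rw [mul_comm i, ← hi]; omega] at this
  have := hgp.2 (show N ∈ {n | IsFormModP p n (g ^ p)} by
    have := hNg.sub h5 hNt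
    rwa [hpow, sub_sub_cancel] at this)
  omega

/-- A non-zero cusp form of weight `p + 1` has filtration `p + 1`. -/
theorem isLeast_succ (h5 : 5 ≤ p) {v : PowerSeries (ZMod p)} (hv : IsFormModP p (p + 1) v)
    (h0 : coeff 0 v = 0) (hne : v ≠ 0) : IsLeast {n | IsFormModP p n v} (p + 1) := by
  refine ⟨hv, fun n hn => ?_⟩
  by_contra hlt
  have h12 := FA.Partition.weight_ge h5 hn (d := 1) (by
    rw [pow_one]; exact X_dvd_iff.2 (by rwa [← coeff_zero_eq_constantCoeff_apply])) hne
  have hmod := FA.Partition.modEq_of_isFormModP h5 hn hv hne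
  obtain ⟨q, hq⟩ := (Nat.modEq_iff_dvd' (by omega : n ≤ p + 1)).1 hmod
  rcases q with _ | _ | q
  · rw [mul_zero] at hq; omega
  · simp at hq; omega
  · have : (p - 1) * 2 ≤ (p - 1) * (q + 1 + 1) := Nat.mul_le_mul_left _ (by omega)
    omega

/-- The case of a normalised exponent. -/
theorem false_of_twist_aux (h5 : 5 ≤ p) {v : PowerSeries (ZMod p)} (hv : IsFormModP p (p + 1) v)
    (h0 : coeff 0 v = 0) (h1 : coeff 1 v = 1) {ε : ZMod p} (hU : uOp p v = C ε * v) {a c : ℕ}
    (hc : c = 1 ∨ c % 2 = 1 ∧ 3 ≤ c ∧ c + 4 ≤ p)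
    (h : ∀ n : ℕ, ¬p ∣ n → coeff n v = (n : ZMod p) ^ a * ((σ c n : ℕ) : ZMod p)) : False := by
  have hp : p.Prime := Fact.out
  obtain ⟨g, w, hw, hcoef, hw1, hwp, hg0⟩ := exists_eisenstein_series (p := p) h5 hc
  have hg1 : coeff 1 g = 1 := by rw [hcoef 1 one_ne_zero]; simp
  have hUg : uOp p g = g := PowerSeries.ext fun m => by
    rw [uOp, coeff_mk]
    rcases eq_or_ne m 0 with rfl | hm
    · rw [zero_mul]
    · rw [hcoef _ (mul_ne_zero hm hp.ne_zero), hcoef m hm, sigma_mul_self (by omega) hm]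
  have hv0 := ne_zero_of_coeff_one h1
  obtain ⟨j, hj⟩ : ∃ j, j = p - 1 - a % (p - 1) := ⟨_, rfl⟩
  have hjlt : a % (p - 1) < p - 1 := Nat.mod_lt _ (by omega)
  have hja : j + a ≡ p - 1 [MOD p - 1] := by
    have : j + a % (p - 1) = p - 1 := by omega
    exact ((Nat.mod_modEq a (p - 1)).symm.add_left j).trans (by rw [this])
  have e : (thetaP p)^[j] v = (thetaP p)^[p - 1] g := PowerSeries.ext fun n => by
    rw [FA.Partition.coeff_thetaP_iterate, FA.Partition.coeff_thetaP_iterate]
    by_cases hn : p ∣ n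
    · rw [(ZMod.natCast_eq_zero_iff n p).2 hn, zero_pow (by omega), zero_pow (by omega), zero_mul,
        zero_mul]
    · rw [h n hn, hcoef n (fun e => hn (e ▸ dvd_zero p)), ← mul_assoc, ← pow_add,
        pow_eq_pow_of_modEq hja (ZMod.pow_card_sub_one_eq_one
          fun e => hn ((ZMod.natCast_eq_zero_iff n p).1 e))]
  have hvl := isLeast_succ h5 hv h0 hv0
  have hjv := isLeast_theta_iterate h5 h1 hvl j fun i hi hd => by
    rw [show p + 1 + i = i + 1 + p by ring, Nat.dvd_add_self_right] at hd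
    exact absurd (Nat.le_of_dvd (by omega) hd) (by omega)
  rw [e] at hjv
  have hval := hjv.unique (isLeast_theta_top h5 hw1 hw hUg hg1)
  -- `j = p - 1`, `w = p + 1`
  have hval' : (j + 1) * (p + 1) = p * w := by rw [← hval]; ring
  have hpj : p ∣ j + 1 := by
    refine ((Nat.Coprime.dvd_mul_right ?_).1 ⟨w, hval'⟩)
    exact hp.coprime_iff_not_dvd.2 fun hd => absurd
      ((Nat.dvd_add_right dvd_rfl).1 hd) hp.not_dvd_one
  have hjp : j = p - 1 := by
    have := Nat.le_of_dvd (by omega) hpj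
    omega
  obtain rfl : w = p + 1 := by
    rw [hjp, Nat.sub_add_cancel hp.one_le] at hval'
    exact (Nat.eq_of_mul_eq_mul_left hp.pos hval').symm
  -- `v - g` is a `p`-th power
  have ha : ∀ n : ℕ, ¬p ∣ n → coeff n v = coeff n g := fun n hn => by
    have hn0 : (n : ZMod p) ≠ 0 := fun e => hn ((ZMod.natCast_eq_zero_iff n p).1 e)
    have := congrArg (coeff n) e
    rw [FA.Partition.coeff_thetaP_iterate, FA.Partition.coeff_thetaP_iterate, hjp,
      ZMod.pow_card_sub_one_eq_one hn0, one_mul, one_mul] at this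
    exact this
  rw [hjp] at e
  obtain ⟨d, hd⟩ : ∃ d, d = C ε * v - g := ⟨_, rfl⟩
  have hdp : d ^ p = v - g := by
    have : CharP (PowerSeries (ZMod p)) p :=
      charP_of_injective_algebraMap (algebraMap (ZMod p) (PowerSeries (ZMod p))).injective p
    rw [hd, sub_pow_char, ← hU, uOp_pow, e, show g ^ p = g - (thetaP p)^[p - 1] g by
      rw [← uOp_pow, hUg]]
    ring
  rcases eq_or_ne d 0 with hd0 | hd0
  · have := congrArg (coeff 0) (hd.symm.trans hd0)
    rw [map_sub, coeff_C_mul, h0, mul_zero, zero_sub, map_zero, neg_eq_zero] at this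
    exact hg0 rfl this
  · have hdf : IsFormModP p (p + 1) d :=
      hd ▸ (FA.OrdinaryProj.formModP_smul' h5 hv ε).sub h5 hw.1
    classical
    have hex : ∃ n, IsFormModP p n d := ⟨_, hdf⟩
    have hmin : IsLeast {n | IsFormModP p n d} (Nat.find hex) :=
      ⟨Nat.find_spec hex, fun m hm => Nat.find_min' hex hm⟩
    have hle := (filtration_pow h5 hd0 hmin p).2 (show p + 1 ∈ {n | IsFormModP p n (d ^ p)} by
      rw [hdp]; exact hv.sub h5 hw.1)
    have hmod := FA.Partition.modEq_of_isFormModP h5 (Nat.find_spec hex) hdf hd0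
    have hn1 : Nat.find hex ≤ 1 := by
      by_contra hn
      have : p * 2 ≤ p * Nat.find hex := Nat.mul_le_mul_left _ (by omega)
      omega
    rw [Nat.ModEq, show p + 1 = p - 1 + 2 by omega, Nat.add_mod_left, Nat.mod_eq_of_lt (by omega),
      Nat.mod_eq_of_lt (by omega)] at hmod
    omega

/-- **No eigenform of weight `p + 1` modulo `p` is a twisted Eisenstein series.** -/
theorem false_of_twist (h5 : 5 ≤ p) {v : PowerSeries (ZMod p)} (hv : IsFormModP p (p + 1) v)
    (h0 : coeff 0 v = 0) (h1 : coeff 1 v = 1) {ε : ZMod p} (hU : uOp p v = C ε * v) {a c : ℕ}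
    (hc : Odd c)
    (h : ∀ n : ℕ, ¬p ∣ n → coeff n v = (n : ZMod p) ^ a * ((σ c n : ℕ) : ZMod p)) : False := by
  have hodd : p % 2 = 1 := Nat.odd_iff.1 ((Fact.out : p.Prime).odd_of_ne_two (by omega))
  obtain ⟨c₀, hc₀⟩ : ∃ c₀, c₀ = c % (p - 1) := ⟨_, rfl⟩
  have hlt : c₀ < p - 1 := hc₀ ▸ Nat.mod_lt _ (by omega)
  have hc2 : c₀ % 2 = 1 := by
    rw [hc₀, Nat.mod_mod_of_dvd c (show 2 ∣ p - 1 by omega), ← Nat.odd_iff]
    exact hc
  have h' : ∀ n : ℕ, ¬p ∣ n → coeff n v = (n : ZMod p) ^ a * ((σ c₀ n : ℕ) : ZMod p) :=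
    fun n hn => by rw [h n hn, sigma_congr hn (hc₀ ▸ (Nat.mod_modEq c (p - 1)).symm)]
  by_cases hlast : c₀ + 2 = p
  · refine false_of_twist_aux h5 hv h0 h1 hU (a := a + c₀) (Or.inl rfl) fun n hn => ?_
    rw [h' n hn, sigma_swap hn (show c₀ + 1 = p - 1 by omega), pow_add, mul_assoc]
  · exact false_of_twist_aux h5 hv h0 h1 hU (a := a) (by omega) h'

end FA.WeightTwoOrdinary

end
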