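import Fermat.Agent.WeightTwoOrdinary.Bridge
import Fermat.Agent.Root.SummaryModularForms
import Fermat.Agent.Root.SummaryPrimeLevelEigenbasis

/-!
# Galois representations modulo `p` in the class of `2`

Modulo `p` an ordinary cuspidal eigenform of level one and weight `k ≡ 2` has the system of a weight
two eigenform of level `p`, hence its representation.
-/

set_option autoImplicit false
set_option linter.unusedSectionVars false

noncomputable section

open UpperHalfPlane hiding I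
open PowerSeries CongruenceSubgroup CuspForm IsLocalRing
open scoped MatrixGroups ModularForm

namespace FA.WeightTwoOrdinary

open FA.OrdinaryCount FA.OrdinaryCongruence

local notation "Qb" => AlgebraicClosure ℚ
local notation "GQ" => AlgebraicClosure ℚ ≃ₐ[ℚ] AlgebraicClosure ℚ

variable {p : ℕ} [Fact p.Prime] {k : ℕ} {ι : ℚ_[p] →+* ℂ} {K : Type} [Field K]

/-- `ρ` has open kernel, is unramified outside `p`, and at a Frobenius over `l ≠ p` has the trace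
`φ (a_l (F))` and the determinant `l ^ (k - 1)`. -/
def IsResidualRep (φ : ↥(intNums ι) →+* K) (F : ModularForm 𝒮ℒ (k : ℤ))
    (ρ : GQ →* GL (Fin 2) K) : Prop :=
  IsOpen (ρ.ker : Set GQ) ∧ ∀ l : ℕ, l.Prime → l ≠ p →
    ∀ A : ValuationSubring Qb, (l : Qb) ∈ A.nonunits →
      (∀ σ ∈ A.inertiaSubgroup ℚ, ρ σ = 1) ∧
      ∀ σ : A.decompositionSubgroup ℚ, (∀ x : ResidueField A, σ • x = x ^ l) →
        ∃ b : ↥(intNums ι), (b : ℂ) = (qExpansion 1 ⇑F).coeff l ∧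
          (ρ σ).val.trace = φ b ∧ (ρ σ).val.det = (l : K) ^ (k - 1)

/-- The representation of `g` is one of every form congruent to it. -/
theorem exists_rep_of_two [CharP K p] (φ : ↥(intNums ι) →+* K)
    {g : CuspForm (Gamma0 p) 2} (hg : g.IsNormalizedEigenform) :
    ∃ ρ : GQ →* GL (Fin 2) K, ∀ (k : ℕ), 2 ≤ k → (k : ZMod (p - 1)) = 2 →
      ∀ F : ModularForm 𝒮ℒ (k : ℤ),
        (∀ l : ℕ, l.Prime → ∃ u : ↥(intNums ι), φ u = 0 ∧
          (u : ℂ) = (qExpansion 1 ⇑F).coeff l - FA.Deform.qLin p g l) →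
        IsResidualRep φ F ρ := by
  have hp : p.Prime := Fact.out
  obtain ⟨ρ, hopen, hρ⟩ := FA.Summary.eigenform_residual_representation g hg.qCoeff_one
    hg.qCoeff_mul_of_coprime hg.qCoeff_prime_pow_of_not_dvd hg.qCoeff_prime_pow_of_dvd hp
    (φ.comp (algEmb ι))
  refine ⟨ρ, fun k hk hk2 F hF => ⟨hopen, fun l hl hlp A hA => ?_⟩⟩
  obtain ⟨hI, hFr⟩ := hρ l hl (fun hd => hlp (by
    rcases hl.dvd_mul.1 hd with h | h <;> exact (Nat.prime_dvd_prime_iff_eq hl hp).1 h)) A hA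
  refine ⟨hI, fun σ hσ => ?_⟩
  obtain ⟨a, ha, htr, hdet⟩ := hFr σ hσ
  obtain ⟨u, hu, hue⟩ := hF l hl
  refine ⟨algEmb ι a + u, ?_, ?_, ?_⟩
  · rw [Subring.coe_add, hue, show ((algEmb ι a : ↥(intNums ι)) : ℂ) = FA.Deform.qLin p g l from ha,
      add_sub_cancel]
  · rw [map_add, hu, add_zero]
    exact htr
  · rw [hdet, ← map_natCast (ZMod.castHom (dvd_refl p) K) l, ← map_pow,
      pow_congr l hk le_rfl (by rw [hk2, Nat.cast_two]), pow_one]

/-- The kernel of a map to characteristic `p`. -/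
theorem natCast_mem_ker [CharP K p] (φ : ↥(intNums ι) →+* K) :
    (p : ↥(intNums ι)) ∈ RingHom.ker φ := by
  rw [RingHom.mem_ker, map_natCast, CharP.cast_eq_zero]

theorem exists_rep [CharP K p] (h5 : 5 ≤ p) (φ : ↥(intNums ι) →+* K) :
    ∃ S : Set (GQ →* GL (Fin 2) K), S.Finite ∧
      S.ncard ≤ Module.finrank ℂ (CuspForm (Gamma0 p) 2) ∧
      ∀ k : ℕ, 3 ≤ k → Even k → (k : ZMod (p - 1)) = 2 →
        ∀ F : ModularForm 𝒮ℒ (k : ℤ), IsEigenForm F → IsUnitAt ι F →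
          (qExpansion 1 ⇑F).coeff 0 = 0 → ∃ ρ ∈ S, IsResidualRep φ F ρ := by
  choose ρ hρ using fun g : FA.PrimeLevelBasis.Eigenforms p => exists_rep_of_two φ g.2
  obtain ⟨-, -, hfin, hcard⟩ := FA.Summary.prime_level_eigenforms_basis (p := p)
  refine ⟨Set.range ρ, Set.finite_range ρ, ?_, fun k hk hev hk2 F hF hu h0 => ?_⟩
  · rw [← hcard, ← Nat.card_coe_set_eq]
    exact Nat.card_le_card_of_surjective _ Set.rangeFactorization_surjective
  · have hP := RingHom.ker_isPrime φ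
    obtain ⟨g, hg, hc⟩ := exists_two_of_one h5 hk hev hk2 ι (RingHom.ker φ) (natCast_mem_ker φ)
      hF hu h0
    exact ⟨_, ⟨⟨g, hg⟩, rfl⟩, hρ ⟨g, hg⟩ k (by omega) hk2 F fun l hl => hc l hl.one_le⟩

/-- Congruent forms in two weights share their representation. -/
theorem exists_common_rep [CharP K p] (h5 : 5 ≤ p) {m : ℕ} (hk : 3 ≤ k) (hm : 3 ≤ m)
    (hev : Even k) (hk2 : (k : ZMod (p - 1)) = 2) (hm2 : (m : ZMod (p - 1)) = 2)
    (φ : ↥(intNums ι) →+* K) {F : ModularForm 𝒮ℒ (k : ℤ)} (hF : IsEigenForm F)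
    (hu : IsUnitAt ι F) (h0 : (qExpansion 1 ⇑F).coeff 0 = 0) :
    ∃ (G : ModularForm 𝒮ℒ (m : ℤ)) (ρ : GQ →* GL (Fin 2) K), IsEigenForm G ∧ IsUnitAt ι G ∧
      (qExpansion 1 ⇑G).coeff 0 = 0 ∧
      (∀ n, 1 ≤ n → ∃ u : ↥(intNums ι), φ u = 0 ∧
        (u : ℂ) = (qExpansion 1 ⇑F).coeff n - (qExpansion 1 ⇑G).coeff n) ∧
      IsResidualRep φ F ρ ∧ IsResidualRep φ G ρ := by
  have hP := RingHom.ker_isPrime φ
  have hp := natCast_mem_ker φ
  obtain ⟨g, hg, hc⟩ := exists_two_of_one h5 hk hev hk2 ι (RingHom.ker φ) hp hF hu h0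
  obtain ⟨G, hG, hGu, hG0, hGc⟩ := exists_one_of_two h5 hm hm2 ι (RingHom.ker φ) hp hg
  obtain ⟨ρ, hρ⟩ := exists_rep_of_two φ hg
  refine ⟨G, ρ, hG, hGu, hG0, fun n hn => ?_, hρ k (by omega) hk2 F fun l hl => hc l hl.one_le,
    hρ m (by omega) hm2 G fun l hl => hGc l hl.one_le⟩
  obtain ⟨u, hu', hue⟩ := hc n hn
  obtain ⟨v, hv, hve⟩ := hGc n hn
  exact ⟨u - v, (RingHom.ker φ).sub_mem hu' hv,
    by rw [AddSubgroupClass.coe_sub, hue, hve, sub_sub_sub_cancel_right]⟩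

end FA.WeightTwoOrdinary

end
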