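import Fermat.Agent.WeightTwoOrdinary.Galois
import Fermat.Agent.WeightTwoOrdinary.Filtration
import Fermat.Agent.WeightTwoOrdinary.Characters

/-!
# Irreducibility at `l = p`

The coefficients modulo `p` of a weight two eigenform of level `p` with `a_l ≡ lᵃ + lᵇ` make a
twisted Eisenstein series in weight `p + 1`, which does not exist. As the characters unramified
outside `p` are the powers of the cyclotomic one, a representation attached to it has no stable
line.
-/

set_option autoImplicit false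
set_option linter.unusedSectionVars false
set_option synthInstance.maxHeartbeats 400000

noncomputable section

open UpperHalfPlane hiding I
open PowerSeries CongruenceSubgroup ModularCurve CuspForm IsLocalRing Matrix
open scoped MatrixGroups ModularForm

namespace FA.WeightTwoOrdinary

open FA.OrdinaryCount FA.OrdinaryCongruence FA.SwinnertonDyer FA.LevelPModP

local notation "ZB" => integralClosure ℤ ℂ
local notation "Qb" => AlgebraicClosure ℚ
local notation "GQ" => AlgebraicClosure ℚ ≃ₐ[ℚ] AlgebraicClosure ℚ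

variable {p : ℕ} [Fact p.Prime] {K : Type} [Field K] [CharP K p]

/-- A system with values in the prime field comes from a character into `ZMod p`. -/
theorem exists_prime_field_character (φ : ZB →+* K) {g : CuspForm (Gamma0 p) 2}
    (hg : g.IsNormalizedEigenform) {a b : ℕ}
    (hab : ∀ l : ℕ, l.Prime → l ≠ p → ∃ c : ZB, (c : ℂ) = FA.Deform.qLin p g l ∧
      φ c = (l : K) ^ a + (l : K) ^ b) :
    ∃ θ : ↥(heckeLatticeAlgebra p ∅) →+* ZMod p, ∀ r : Nat.Primes, (r : ℕ) ≠ p →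
      θ (FA.Eis.latEval p (heckeGen r)) =
        ((r : ℕ) : ZMod p) ^ a + ((r : ℕ) : ZMod p) ^ b := by
  obtain ⟨χ, hχ⟩ := FA.EisensteinPrime.exists_character hg
  obtain ⟨e, he⟩ : ∃ e : FA.Mazur.TAlg p ≃+* ↥(heckeLatticeAlgebra p ∅),
      ∀ t, e t = (latticeRestrictHom p ∅).toRingHom t :=
    ⟨RingEquiv.ofBijective (latticeRestrictHom p ∅).toRingHom
      (latticeRestrictHom_bijective p ∅ (FA.Period.hasIntegralStructure p 2)), fun _ => rfl⟩
  obtain ⟨κ, hκ⟩ : ∃ κ : ↥(heckeLatticeAlgebra p ∅) →+* K,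
      ∀ x, κ (FA.Eis.latEval p x) = φ (χ (heckeEvalForms p 2 x)) :=
    ⟨(φ.comp χ).comp e.symm.toRingHom, fun x => by
      show φ (χ (e.symm (FA.Eis.latEval p x))) = _
      rw [show FA.Eis.latEval p x = e (heckeEvalForms p 2 x) from (he _).symm, e.symm_apply_apply]⟩
  obtain ⟨c, hc⟩ : ∃ c : ZMod p →+* K, c = ZMod.castHom (dvd_refl p) K := ⟨_, rfl⟩
  have hci : Function.Injective c := hc ▸ ZMod.castHom_injective K
  have hgen : ∀ r : Nat.Primes, κ (FA.Eis.latEval p (heckeGen r)) ∈ c.range ∧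
      ((r : ℕ) ≠ p → κ (FA.Eis.latEval p (heckeGen r)) =
        c (((r : ℕ) : ZMod p) ^ a + ((r : ℕ) : ZMod p) ^ b)) := fun r => by
    rw [hκ, show heckeEvalForms p 2 (heckeGen r) = FA.Mazur.tGen p r from rfl]
    by_cases hr : (r : ℕ) = p
    · refine ⟨?_, fun h => absurd hr h⟩
      have hv : (χ (FA.Mazur.tGen p r) : ℂ) = FA.Deform.qLin p g p := by
        rw [hχ, hr, FA.Deform.qLin_apply]
      rcases FA.PrimeLevelBasis.qLin_level_eq hg with h | h
      · rw [show χ (FA.Mazur.tGen p r) = 1 from Subtype.ext (by rw [hv, h]; rfl), map_one]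
        exact one_mem _
      · rw [show χ (FA.Mazur.tGen p r) = -1 from Subtype.ext (by rw [hv, h]; rfl), map_neg, map_one]
        exact neg_mem (one_mem _)
    · obtain ⟨d, hd, hde⟩ := hab r r.2 hr
      have h : φ (χ (FA.Mazur.tGen p r)) =
          c (((r : ℕ) : ZMod p) ^ a + ((r : ℕ) : ZMod p) ^ b) := by
        rw [show χ (FA.Mazur.tGen p r) = d from Subtype.ext (by
          rw [hχ, hd, FA.Deform.qLin_apply]), hde, map_add, map_pow, map_pow, map_natCast]
      exact ⟨⟨_, h.symm⟩, fun _ => h⟩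
  have hrange : ∀ t, κ t ∈ c.range := fun t => by
    obtain ⟨x, rfl⟩ := FA.Eis.latEval_surjective t
    induction x using MvPolynomial.induction_on with
    | C r => rw [FA.Eis.latEval_C, map_intCast]; exact intCast_mem _ r
    | add x y hx hy => rw [map_add, map_add]; exact add_mem hx hy
    | mul_X x r hx => rw [map_mul, map_mul]; exact mul_mem hx (hgen r).1
  choose θ hθ using hrange
  refine ⟨{ toFun := θ
            map_one' := hci (by rw [hθ, map_one, map_one])
            map_mul' := fun s t => hci (by rw [hθ, map_mul, map_mul, hθ, hθ])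
            map_zero' := hci (by rw [hθ, map_zero, map_zero])
            map_add' := fun s t => hci (by rw [hθ, map_add, map_add, hθ, hθ]) }, fun r hr => ?_⟩
  exact hci ((hθ _).trans ((hgen r).2 hr))

/-- A character into `ZMod p` is the system of a cusp form of weight `p + 1` modulo `p`. -/
theorem exists_modP_eigen (h5 : 5 ≤ p) (θ : ↥(heckeLatticeAlgebra p ∅) →+* ZMod p) :
    ∃ v : PowerSeries (ZMod p), IsFormModP p (p + 1) v ∧ coeff 0 v = 0 ∧ coeff 1 v = 1 ∧
      ∀ (r : Nat.Primes) (n : ℕ), (coeff (n * r) v +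
          if (r : ℕ) = p then 0 else
            if (r : ℕ) ∣ n then ((r : ℕ) : ZMod p) * coeff (n / r) v else 0) =
        θ (FA.Eis.latEval p (heckeGen r)) * coeff n v := by
  obtain ⟨f, hf⟩ := FA.Eis.exists_form_of_character θ
  have hact : ∀ t n, (FA.Eis.zCoeff n (FA.Eis.act t f) : ZMod p) =
      θ t * (FA.Eis.zCoeff n f : ZMod p) := fun t n => by
    have h := FA.Eis.zCoeff_dvd_of_pairing (p : ℤ) n (FA.Eis.act t f - ((θ t).val : ℤ) • f)
      fun s => by
        rw [map_sub, map_sub, map_zsmul, map_zsmul, ← ZMod.intCast_zmod_eq_zero_iff_dvd,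
          show FA.Eis.act s (FA.Eis.act t f) = FA.Eis.act (s * t) f from rfl, smul_eq_mul,
          Int.cast_sub, Int.cast_mul, Int.cast_natCast, hf, hf, map_mul, ZMod.natCast_zmod_val]
        ring
    rw [← ZMod.intCast_zmod_eq_zero_iff_dvd, map_sub, map_zsmul, smul_eq_mul] at h
    push_cast at h
    rwa [ZMod.natCast_zmod_val, sub_eq_zero] at h
  obtain ⟨hform, h0⟩ := ((redLattice_spec (p := p) h5).1 _).1 ⟨f, rfl⟩
  refine ⟨redLattice p f, hform, h0, ?_, fun r n => ?_⟩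
  · rw [coeff_redLattice, show FA.Eis.zCoeff 1 f = FA.Eis.zCoeff 1 (FA.Eis.act 1 f) from rfl, hf,
      map_one]
  · rw [coeff_redLattice, coeff_redLattice, coeff_redLattice, ← hact, FA.Eis.zCoeff_gen]
    push_cast
    rfl

open scoped ArithmeticFunction.sigma in
/-- `a_l ≡ lᵃ + lᵇ` with `a + b ≡ 1` is impossible. -/
theorem two_not_reducible (h5 : 5 ≤ p) (φ : ZB →+* K) {g : CuspForm (Gamma0 p) 2}
    (hg : g.IsNormalizedEigenform) {a b : ℕ} (hdet : a + b ≡ 1 [MOD p - 1]) :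
    ∃ l : ℕ, l.Prime ∧ l ≠ p ∧ ∀ c : ZB, (c : ℂ) = FA.Deform.qLin p g l →
      φ c ≠ (l : K) ^ a + (l : K) ^ b := by
  by_contra hall
  push Not at hall
  have hp : p.Prime := Fact.out
  obtain ⟨θ, hθ⟩ := exists_prime_field_character φ hg hall
  obtain ⟨v, hv, h0, h1, hrec⟩ := exists_modP_eigen h5 θ
  obtain ⟨ε, hε⟩ : ∃ ε, ε = θ (FA.Eis.latEval p (heckeGen (⟨p, hp⟩ : Nat.Primes))) := ⟨_, rfl⟩
  have hU : uOp p v = C ε * v := PowerSeries.ext fun m => by
    have h := hrec ⟨p, hp⟩ m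
    rw [if_pos rfl, add_zero, ← hε] at h
    rw [uOp, coeff_mk, coeff_C_mul]
    exact h
  obtain ⟨c, hc⟩ : ∃ c, c = b + a * (p - 2) := ⟨_, rfl⟩
  have hz : (p - 1) * a ≡ 0 [MOD p - 1] := Nat.modEq_zero_iff_dvd.2 (dvd_mul_right _ _)
  have hsum : a + c = b + (p - 1) * a := by
    rw [hc, show (p - 1) * a = a * (p - 2) + a by
      rw [show p - 1 = p - 2 + 1 by omega]; ring]
    omega
  have hac : a + c ≡ b [MOD p - 1] := by
    rw [hsum]
    exact hz.add_left b
  have h2ac : 2 * a + c ≡ 1 [MOD p - 1] := by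
    rw [show 2 * a + c = a + (a + c) by ring]
    exact (hac.add_left a).trans hdet
  have hodd : Odd c := by
    have hpo : p % 2 = 1 := Nat.odd_iff.1 (hp.odd_of_ne_two (by omega))
    have h := h2ac.of_dvd (show 2 ∣ p - 1 by omega)
    rw [Nat.ModEq] at h
    rw [Nat.odd_iff]
    omega
  have key : ∀ n : ℕ, 1 ≤ n → ¬p ∣ n →
      coeff n v = (n : ZMod p) ^ a * ((σ c n : ℕ) : ZMod p) := fun n hn => by
    refine prime_induction (Q := fun n => ¬p ∣ n →
      coeff n v = (n : ZMod p) ^ a * ((σ c n : ℕ) : ZMod p)) (fun _ => by simp [h1])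
      (fun l j hl hj hA hB => ?_) hn
    intro hlj
    have hlp : l ≠ p := fun e => hlj (e ▸ dvd_mul_left l j)
    have hjp : ¬p ∣ j := fun e => hlj (e.mul_right l)
    have hl0 : (l : ZMod p) ≠ 0 := fun e => hlp
      ((Nat.prime_dvd_prime_iff_eq hp hl).1 ((ZMod.natCast_eq_zero_iff l p).1 e)).symm
    have hpow : ∀ {i i' : ℕ}, i ≡ i' [MOD p - 1] → (l : ZMod p) ^ i = (l : ZMod p) ^ i' :=
      fun h => pow_eq_pow_of_modEq h (ZMod.pow_card_sub_one_eq_one hl0)
    have h := hrec ⟨l, hl⟩ j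
    rw [hθ ⟨l, hl⟩ hlp, hA hjp] at h
    simp only [if_neg hlp] at h
    have hs := congrArg (Int.cast : ℤ → ZMod p)
      (FA.EisCong.sigma_hecke hl c (show j ≠ 0 by omega))
    rw [← hpow hac, pow_add] at h
    by_cases hd : l ∣ j
    · rw [if_pos hd] at h hs
      push_cast at hs
      have hB' := hB hd fun e => hjp (e.trans (Nat.div_dvd_of_dvd hd))
      obtain ⟨i, rfl⟩ := hd
      rw [Nat.mul_div_cancel_left i hl.pos] at hB' h hs
      rw [hB'] at h
      push_cast at h ⊢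
      have e : (l : ZMod p) ^ a * (l : ZMod p) ^ a * (l : ZMod p) ^ c = (l : ZMod p) := by
        rw [← pow_add, ← pow_add, show a + a + c = 2 * a + c by ring, hpow h2ac, pow_one]
      simp only [mul_pow] at h hs ⊢
      linear_combination h - ((l : ZMod p) ^ a * (i : ZMod p) ^ a * (l : ZMod p) ^ a) * hs +
        ((i : ZMod p) ^ a * ((σ c i : ℕ) : ZMod p)) * e
    · rw [if_neg hd] at h hs
      push_cast at hs h ⊢
      simp only [mul_pow] at h hs ⊢
      linear_combination h - ((l : ZMod p) ^ a * (j : ZMod p) ^ a) * hs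
  exact false_of_twist h5 hv h0 h1 hU hodd fun n hn =>
    key n (Nat.pos_of_ne_zero fun e => hn (e ▸ dvd_zero p)) hn

/-- An eigenvalue of a `2 × 2` matrix is a root of its characteristic polynomial. -/
theorem eigen_two {M : Matrix (Fin 2) (Fin 2) K} {v : Fin 2 → K} (hv : v ≠ 0) {c : K}
    (h : M *ᵥ v = c • v) : c * M.trace = c ^ 2 + M.det := by
  have hz : (M - c • (1 : Matrix (Fin 2) (Fin 2) K)).det = 0 :=
    Matrix.exists_mulVec_eq_zero_iff.1 ⟨v, hv, by
      rw [Matrix.sub_mulVec, Matrix.smul_mulVec, Matrix.one_mulVec, h, sub_self]⟩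
  rw [Matrix.det_fin_two] at hz
  simp [Matrix.sub_apply, Matrix.smul_apply] at hz
  rw [Matrix.trace_fin_two, Matrix.det_fin_two]
  linear_combination -hz

/-- The character on a stable line. -/
theorem exists_line_character (ρ : GQ →* GL (Fin 2) K) {v : Fin 2 → K} (hv : v ≠ 0)
    (h : ∀ σ, ∃ c : K, (ρ σ).val *ᵥ v = c • v) :
    ∃ χ : GQ →* Kˣ, ∀ σ, (ρ σ).val *ᵥ v = (χ σ : K) • v := by
  choose c hc using h
  have hu : ∀ {x y : K}, x • v = y • v → x = y := fun e => smul_left_injective K hv e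
  have h1 : c 1 = 1 := hu (by rw [← hc, map_one, Units.val_one, one_mulVec, one_smul])
  have hm : ∀ σ τ, c (σ * τ) = c σ * c τ := fun σ τ => hu (by
    rw [← hc, map_mul, Units.val_mul, ← mulVec_mulVec, hc τ, mulVec_smul, hc σ, smul_smul,
      mul_comm])
  exact ⟨MonoidHom.toHomUnits ⟨⟨c, h1⟩, hm⟩, hc⟩

/-- **No representation attached to a weight two eigenform of level `p` has a stable line.** -/
theorem two_no_stable_line (h5 : 5 ≤ p) (φ : ZB →+* K) {g : CuspForm (Gamma0 p) 2}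
    (hg : g.IsNormalizedEigenform) (ρ : GQ →* GL (Fin 2) K) (hopen : IsOpen (ρ.ker : Set GQ))
    (hρ : ∀ l : ℕ, l.Prime → l ≠ p → ∀ A : ValuationSubring Qb, (l : Qb) ∈ A.nonunits →
      (∀ σ ∈ A.inertiaSubgroup ℚ, ρ σ = 1) ∧
      ∀ σ : A.decompositionSubgroup ℚ, (∀ x : ResidueField A, σ • x = x ^ l) →
        ∃ c : ZB, (c : ℂ) = FA.Deform.qLin p g l ∧
          (ρ σ).val.trace = φ c ∧ (ρ σ).val.det = (l : K))
    {v : Fin 2 → K} (hv : v ≠ 0) : ∃ σ, ∀ c : K, (ρ σ).val *ᵥ v ≠ c • v := by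
  by_contra hall
  push Not at hall
  have hp : p.Prime := Fact.out
  obtain ⟨χ, hχ⟩ := exists_line_character ρ hv hall
  have hker : ∀ σ, ρ σ = 1 → χ σ = 1 := fun σ hσ => Units.ext (smul_left_injective K hv (by
    show (χ σ : K) • v = ((1 : Kˣ) : K) • v
    rw [← hχ, hσ, Units.val_one, one_mulVec, Units.val_one, one_smul]))
  obtain ⟨a, ha⟩ := exists_pow_cycM χ
    (Subgroup.isOpen_mono (fun σ hσ => MonoidHom.mem_ker.2 (hker σ (MonoidHom.mem_ker.1 hσ))) hopen)
    fun l hl hlp A hA σ hσ => by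
      obtain ⟨τ, hτ, rfl⟩ := Subgroup.mem_map.1 hσ
      exact hker _ ((hρ l hl hlp A hA).1 τ hτ)
  obtain ⟨r, hr⟩ : ∃ r, r = a % (p - 1) := ⟨_, rfl⟩
  have hlt : r < p - 1 := hr ▸ Nat.mod_lt _ (by omega)
  have hrb : r + (p - r) ≡ 1 [MOD p - 1] := by
    rw [show r + (p - r) = p by omega]
    exact ((Nat.modEq_iff_dvd' hp.one_le).2 dvd_rfl).symm
  obtain ⟨l, hl, hlp, hne⟩ := two_not_reducible h5 φ hg hrb
  obtain ⟨A, hA⟩ := FA.Deform.exists_liesOverPrime hl
  obtain ⟨σ, hσ, hFr⟩ := FA.Deform.exists_isFrobeniusAt hl hA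
  obtain ⟨c, hc, htr, hdet⟩ := (hρ l hl hlp A hA).2 ⟨σ, hσ⟩ hFr
  refine hne c hc ?_
  have hl0 : (l : ZMod p) ≠ 0 := fun e => hlp
    ((Nat.prime_dvd_prime_iff_eq hp hl).1 ((ZMod.natCast_eq_zero_iff l p).1 e)).symm
  have hlK : (l : K) ^ (p - 1) = 1 := by
    rw [← map_natCast (ZMod.castHom (dvd_refl p) K), ← map_pow,
      ZMod.pow_card_sub_one_eq_one hl0, map_one]
  have hlK0 : (l : K) ≠ 0 := fun e => by
    rw [e, zero_pow (by omega)] at hlK
    exact zero_ne_one hlK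
  have hval : (χ σ : K) = (l : K) ^ r := by
    rw [ha, FA.Weight1.cycM_frobenius p hl
      (fun hd => hlp ((Nat.prime_dvd_prime_iff_eq hl hp).1 hd)) hA ⟨hσ, hFr⟩, map_natCast]
    exact pow_eq_pow_of_modEq (hr ▸ (Nat.mod_modEq a (p - 1)).symm) hlK
  have h := eigen_two hv (hχ σ)
  rw [htr, hdet, hval] at h
  refine mul_left_cancel₀ (pow_ne_zero r hlK0) ?_
  rw [h, mul_add, ← pow_add, ← pow_add, show r + r = r * 2 by ring, ← pow_mul,
    pow_eq_pow_of_modEq hrb hlK, pow_one]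

/-- The same for the ordinary cuspidal eigenforms of level one in the class of `2`. -/
theorem one_no_stable_line (h5 : 5 ≤ p) {k : ℕ} (hk : 3 ≤ k) (hev : Even k)
    (hk2 : (k : ZMod (p - 1)) = 2) {ι : ℚ_[p] →+* ℂ} (φ : ↥(intNums ι) →+* K)
    {F : ModularForm 𝒮ℒ (k : ℤ)} (hF : IsEigenForm F) (hu : IsUnitAt ι F)
    (h0 : (qExpansion 1 ⇑F).coeff 0 = 0) {ρ : GQ →* GL (Fin 2) K} (hρ : IsResidualRep φ F ρ)
    {v : Fin 2 → K} (hv : v ≠ 0) : ∃ σ, ∀ c : K, (ρ σ).val *ᵥ v ≠ c • v := by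
  have hP := RingHom.ker_isPrime φ
  obtain ⟨g, hg, hc⟩ := exists_two_of_one h5 hk hev hk2 ι (RingHom.ker φ) (natCast_mem_ker φ)
    hF hu h0
  refine two_no_stable_line h5 (φ.comp (algEmb ι)) hg ρ hρ.1 (fun l hl hlp A hA => ?_) hv
  obtain ⟨hI, hFr⟩ := hρ.2 l hl hlp A hA
  refine ⟨hI, fun σ hσ => ?_⟩
  obtain ⟨b, hb, htr, hdet⟩ := hFr σ hσ
  obtain ⟨u, hu', hue⟩ := hc l hl.one_le
  obtain ⟨c, hc'⟩ : ∃ c : ZB, (c : ℂ) = FA.Deform.qLin p g l :=
    ⟨⟨_, FA.Root.isIntegral_qCoeff_eigenform hg l⟩, rfl⟩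
  refine ⟨c, hc', ?_, ?_⟩
  · have e : b = algEmb ι c + u := Subtype.ext (by
      rw [Subring.coe_add, hue, hb, show ((algEmb ι c : ↥(intNums ι)) : ℂ) = (c : ℂ) from rfl, hc',
        add_sub_cancel])
    rw [htr, RingHom.comp_apply, e, map_add, RingHom.mem_ker.1 hu', add_zero]
  · rw [hdet, ← map_natCast (ZMod.castHom (dvd_refl p) K) l, ← map_pow,
      pow_congr l (by omega : 2 ≤ k) le_rfl (by rw [hk2, Nat.cast_two]), pow_one]

end FA.WeightTwoOrdinary

end
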