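import Fermat.Agent.WeightTwoOrdinary.Unique
import Fermat.Agent.Root.SummaryPrimeLevelTorsion
import Fermat.Agent.Root.SummaryPrimeLevelRepresentations

/-!
# Mazur's theorem at residue characteristic `p`

A representation with the traces of a system modulo `p` of the Hecke algebra of level `p` is
conjugate to an irreducible one, so it has no stable line; so `J₀(p)` has no Galois-stable cyclic
subgroup of order `p`.
-/

set_option autoImplicit false
set_option linter.style.haveILetI false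
set_option linter.unusedSectionVars false
set_option synthInstance.maxHeartbeats 400000
set_option maxHeartbeats 2000000

noncomputable section

open ModularCurve FA.Mazur FA.JTorsion
open scoped Matrix

local notation "Qb" => AlgebraicClosure ℚ
local notation "GQ" => AlgebraicClosure ℚ ≃ₐ[ℚ] AlgebraicClosure ℚ

namespace FA.WeightTwoOrdinary

variable {p : ℕ} [Fact p.Prime] {k : Type} [Field k] [CharP k p]

/-- **No stable line at residue characteristic `p`.** -/
theorem no_line_of_system (h5 : 5 ≤ p) (θ : TAlg p →+* k) (r : GQ →* Matrix (Fin 2) (Fin 2) k)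
    (hopen : IsOpen (r.ker : Set GQ)) (S : Finset ℕ)
    (hr : ∀ q : Nat.Primes, (q : ℕ) ∉ S → (q : ℕ) ≠ p →
      ∀ A : ValuationSubring Qb, A.LiesOverPrime q → ∀ σ : GQ, A.IsFrobeniusAt σ q →
        (r σ).trace = θ (tGen p q) ∧ (r σ).det = ((q : ℕ) : k))
    (v : Fin 2 → k) (hv : v ≠ 0) : ∃ σ, ∀ c : k, r σ *ᵥ v ≠ c • v := by
  classical
  by_contra hall
  push Not at hall
  obtain ⟨e, he⟩ : ∃ e : k →+* AlgebraicClosure k, e = algebraMap k (AlgebraicClosure k) := ⟨_, rfl⟩
  have : CharP (AlgebraicClosure k) p :=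
    charP_of_injective_algebraMap (algebraMap k (AlgebraicClosure k)).injective p
  obtain ⟨f, hf, φ, hφ⟩ := FA.Summary.prime_level_reduction (l := p) (e.comp θ)
  obtain ⟨ρ, hρ⟩ := exists_isTwoRep φ hf
  obtain ⟨r', hr'⟩ : ∃ r' : GQ →* Matrix (Fin 2) (Fin 2) (AlgebraicClosure k),
      ∀ σ, r' σ = (r σ).map e := ⟨e.mapMatrix.toMonoidHom.comp r, fun _ => rfl⟩
  have hopen' : IsOpen (r'.ker : Set GQ) := Subgroup.isOpen_mono (fun σ hσ => MonoidHom.mem_ker.2 (by
    rw [hr', MonoidHom.mem_ker.1 hσ]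
    exact e.mapMatrix.map_one)) hopen
  have htr := fun s => (FA.Density.trace_det_eq_of_frobenius ((Units.coeHom _).comp ρ) r'
    (Subgroup.isOpen_mono (fun σ hσ => MonoidHom.mem_ker.2 (by
      rw [MonoidHom.comp_apply, MonoidHom.mem_ker.1 hσ, map_one])) hρ.1) hopen' (insert p S)
    (fun q hq hqS A hA σ hσ => by
      rw [Finset.mem_insert, not_or] at hqS
      obtain ⟨t, d⟩ := hr ⟨q, hq⟩ hqS.2 hqS.1 A hA σ hσ
      obtain ⟨hσd, hσf⟩ := hσ
      obtain ⟨c, hc, ht, hd⟩ := (hρ.2 q hq hqS.1 A hA).2 ⟨σ, hσd⟩ hσf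
      obtain ⟨c', hc', hc''⟩ := hφ q
      refine ⟨ht.trans ?_, hd.trans ?_⟩
      · rw [show c = c' from Subtype.ext (hc.trans ((FA.Deform.qLin_apply _ _).trans hc'.symm)),
          hc'', show FA.Mazur.hCoeff p q = tGen p ⟨q, hq⟩ from hCoeff_prime p ⟨q, hq⟩,
          RingHom.comp_apply, ← t, hr']
        exact AddMonoidHom.map_trace e.toAddMonoidHom _
      · rw [hr', ← map_natCast e, ← d]
        exact e.map_det _) s).1
  obtain ⟨P, hP, hcomm⟩ := FA.Density.exists_conj_of_trace_eq ((Units.coeHom _).comp ρ) r'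
    (FA.Density.span_range_eq_top _ (AlgebraicClosure (AlgebraicClosure k)) fun w hw =>
      two_no_stable_line_ext h5 hf hρ _ hw) htr
  have hw : P⁻¹ *ᵥ (e ∘ v) ≠ 0 := fun h => hv (by
    have h' := congrArg (fun w => P *ᵥ w) h
    simp only [Matrix.mulVec_mulVec, Matrix.mul_nonsing_inv P hP, Matrix.one_mulVec,
      Matrix.mulVec_zero] at h'
    exact funext fun i => e.injective (by rw [Pi.zero_apply, map_zero]; exact congrFun h' i))
  obtain ⟨σ, hσ⟩ := two_no_stable_line h5 φ hf ρ hρ.1 hρ.2 hw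
  obtain ⟨c, hc⟩ := hall σ
  refine hσ (e c) ?_
  have e1 : (ρ σ).val = P⁻¹ * (r' σ * P) := by
    rw [hcomm, ← Matrix.mul_assoc, Matrix.nonsing_inv_mul P hP, Matrix.one_mul]
    rfl
  have e2 : r' σ *ᵥ (e ∘ v) = e c • (e ∘ v) := funext fun i => by
    rw [hr', ← RingHom.map_mulVec, hc, Pi.smul_apply, Pi.smul_apply, smul_eq_mul, smul_eq_mul,
      map_mul]
    rfl
  rw [e1, Matrix.mulVec_mulVec, Matrix.mul_assoc, Matrix.mul_assoc,
    Matrix.mul_nonsing_inv P hP, Matrix.mul_one, ← Matrix.mulVec_mulVec, e2, Matrix.mulVec_smul]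

/-- **`J₀(p)` has no Galois-stable cyclic subgroup of order `p`.** -/
theorem eq_zero_of_stable (h5 : 5 ≤ p) (x : JZero p) (hpx : p • x = 0)
    (hstab : ∀ σ : GQ, σ • x ∈ AddSubgroup.zmultiples x) : x = 0 := by
  classical
  by_contra hx0
  obtain ⟨alg⟩ := exists_algebra_qbar
  letI := alg
  have hl : p.Prime := Fact.out
  haveI : NeZero p := ⟨hl.ne_zero⟩
  obtain ⟨q₀, hq₀⟩ := FA.EisReducible.exists_toTors_eq_of_nsmul p p x hpx
  set γ := galMod p (∅ : Set ℕ) p
  have hq0 : q₀ ≠ 0 := fun h => hx0 (by rw [← hq₀, h, map_zero])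
  have hlq : (p : ℤ) • q₀ = 0 := toTors_injective p (∅ : Set ℕ) p (by
    rw [map_zsmul, hq₀, map_zero, natCast_zsmul, hpx])
  -- the character of the subgroup
  have hgen : ∀ σ : GQ, ∃ z : ℤ, γ σ q₀ = z • q₀ := fun σ => by
    obtain ⟨z, hz⟩ := AddSubgroup.mem_zmultiples_iff.1 (hstab σ)
    refine ⟨z, toTors_injective p (∅ : Set ℕ) p ?_⟩
    rw [toTors_galMod, map_zsmul, hq₀, hz]
  choose z hz using hgen
  have hord : ∀ {u v : ℤ}, u • q₀ = v • q₀ → (u : ZMod p) = v := fun {u v} h => by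
    rw [ZMod.intCast_eq_intCast_iff_dvd_sub]
    by_contra hd
    obtain ⟨s, t, hst⟩ :=
      ((Nat.prime_iff_prime_int.1 hl).coprime_iff_not_dvd.2 hd)
    refine hq0 ?_
    rw [← one_smul ℤ q₀, ← hst, add_smul, mul_smul, mul_smul, hlq, sub_smul, h, sub_self,
      smul_zero, smul_zero, add_zero]
  let a : GQ →* ZMod p :=
    { toFun := fun σ => (z σ : ZMod p)
      map_one' := by
        have h : z 1 • q₀ = (1 : ℤ) • q₀ := by rw [← hz, map_one, Module.End.one_apply, one_smul]
        rw [hord h, Int.cast_one]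
      map_mul' := fun σ τ => by
        have h : z (σ * τ) • q₀ = (z σ * z τ) • q₀ := by
          rw [← hz, map_mul, Module.End.mul_apply, hz, map_zsmul, hz, smul_smul, mul_comm]
        rw [hord h, Int.cast_mul] }
  -- a maximal ideal containing the annihilator
  let I : Ideal (TAlg p) :=
    { carrier := {t | t • q₀ = 0}
      add_mem' := fun {s t} (hs : s • q₀ = 0) (ht : t • q₀ = 0) =>
        show (s + t) • q₀ = 0 by rw [add_smul, hs, ht, add_zero]
      zero_mem' := zero_smul _ q₀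
      smul_mem' := fun s t (ht : t • q₀ = 0) =>
        show (s * t) • q₀ = 0 by rw [mul_smul, ht, smul_zero] }
  have hI : I ≠ ⊤ := fun h => hq0 (by
    have h1 : (1 : TAlg p) • q₀ = 0 := (h.symm ▸ Submodule.mem_top : (1 : TAlg p) ∈ I)
    rwa [one_smul] at h1)
  obtain ⟨m, hm, hIm⟩ := Ideal.exists_le_maximal I hI
  letI := Ideal.Quotient.field m
  set θ : TAlg p →+* TAlg p ⧸ m := Ideal.Quotient.mk m
  have hkill : ∀ t : TAlg p, t • q₀ = 0 → θ t = 0 := fun t ht =>
    Ideal.Quotient.eq_zero_iff_mem.2 (hIm ht)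
  haveI : CharP (TAlg p ⧸ m) p := (CharP.charP_iff_prime_eq_zero hl).2 (by
    rw [← map_natCast θ]
    refine hkill _ ?_
    rw [Nat.cast_smul_eq_nsmul, ← natCast_zsmul]
    exact hlq)
  let c := ZMod.castHom (dvd_refl p) (TAlg p ⧸ m)
  let χ := cycK p (ZMod p)
  let r : GQ →* Matrix (Fin 2) (Fin 2) (TAlg p ⧸ m) :=
    { toFun := fun σ => Matrix.diagonal ![c (a σ), c ((χ σ : ZMod p) * a σ⁻¹)]
      map_one' := by
        rw [inv_one, map_one a, map_one χ, Units.val_one, mul_one, map_one, ← Matrix.diagonal_one]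
        congr 1
        ext i; fin_cases i <;> rfl
      map_mul' := fun σ τ => by
        rw [Matrix.diagonal_mul_diagonal, map_mul a, map_mul χ, Units.val_mul, mul_inv_rev,
          map_mul a]
        congr 1
        ext i
        fin_cases i
        · simp
        · simp
          ring }
  obtain ⟨L, hL, hLγ⟩ := exists_field_galMod p (∅ : Set ℕ) p
  obtain ⟨L', hL', hLχ⟩ := exists_field_cycK p (ZMod p)
  have hopen : IsOpen (r.ker : Set GQ) := isOpen_ker_of_field r
      ⟨L ⊔ L', inferInstance, fun σ hσ => by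
    have hfix : ∀ τ : GQ, (∀ b ∈ L, τ b = b) → a τ = 1 := fun τ hτ => by
      have h : z τ • q₀ = (1 : ℤ) • q₀ := by
        rw [← hz, show γ τ = 1 from hLγ τ hτ, Module.End.one_apply, one_smul]
      rw [← Int.cast_one (R := ZMod p), ← hord h]
      rfl
    have hσL : ∀ b ∈ L, σ b = b := fun b hb => hσ b ((le_sup_left : L ≤ L ⊔ L') hb)
    have hσi : ∀ b ∈ L, σ⁻¹ b = b := fun b hb => by
      conv_lhs => rw [← hσL b hb, ← AlgEquiv.mul_apply, inv_mul_cancel]
      rfl
    show Matrix.diagonal ![c (a σ), c ((χ σ : ZMod p) * a σ⁻¹)] = 1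
    rw [hfix σ hσL, hfix σ⁻¹ hσi,
      show χ σ = 1 from hLχ σ fun b hb => hσ b ((le_sup_right : L' ≤ L ⊔ L') hb), Units.val_one,
      mul_one, map_one, ← Matrix.diagonal_one]
    congr 1
    ext i; fin_cases i <;> rfl⟩
  obtain ⟨σ, hσ⟩ := no_line_of_system h5 θ r hopen ∅ (fun q _ hqp A hA σ hσ => by
      have hqN : ¬ (q : ℕ) ∣ p := fun h => hqp ((Nat.prime_dvd_prime_iff_eq q.2 hl).1 h)
      haveI : NeZero (q : ℕ) := ⟨q.2.ne_zero⟩
      have hχ : (χ σ : ZMod p) = (q : ℕ) := cycK_frobenius p _ q.2 hqp hA hσ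
      have hai : a σ * a σ⁻¹ = 1 := by rw [← map_mul, mul_inv_cancel, map_one]
      have hf := galMod_frobenius p (∅ : Set ℕ) p (goodRed_all p) q.2 hqN hqN hA
        (Set.notMem_empty _) hσ q₀
      rw [hz, hz, ← natCast_zsmul, smul_smul, ← add_smul,
        ← CuspForm.heckeEvalForms_heckeGen_of_not_dvd (ℓ := q) hqN,
        ← Int.cast_smul_eq_zsmul (TAlg p), ← sub_eq_zero, ← sub_smul] at hf
      have hθ := hkill _ hf
      rw [map_sub, sub_eq_zero, map_intCast, ← map_intCast c, Int.cast_add, Int.cast_mul,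
        Int.cast_natCast] at hθ
      show (Matrix.diagonal _).trace = _ ∧ (Matrix.diagonal _).det = _
      rw [Matrix.trace_diagonal, Matrix.det_diagonal, Fin.sum_univ_two, Fin.prod_univ_two]
      simp only [Matrix.cons_val_zero, Matrix.cons_val_one, Matrix.cons_val_fin_one, hχ]
      refine ⟨?_, ?_⟩
      · rw [← map_add]
        exact hθ
      · rw [← map_mul, ← map_natCast c, mul_left_comm, hai, mul_one])
    ![1, 0] (fun h => by simpa using congrFun h 0)
  refine hσ (c (a σ)) ?_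
  show Matrix.diagonal _ *ᵥ _ = _
  ext i
  fin_cases i <;> simp [Matrix.mulVec_diagonal]

end FA.WeightTwoOrdinary

end
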