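import Fermat.Agent.ModField.Semistable.AtP.LowerAny
import Fermat.Agent.CuspClass.LogDerivHecke
import Fermat.Agent.EisReducible.TorsionLattice
import Fermat.Agent.EisReducible.Simple
import Fermat.Agent.WeightTwoOrdinary.Mazur

/-!
# The local shape of `J₀(p)[p]` at `p`

The classes of `J₀(p)[p]` with zero reductions are acted on by inertia through the cyclotomic
character, as level one has no nonzero torsion. Inertia moves every class by such a class, and the
relation passes to the representation of every system modulo `p` of the Hecke algebra.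
-/

set_option autoImplicit false
set_option linter.style.haveILetI false
set_option linter.unusedSectionVars false
set_option synthInstance.maxHeartbeats 400000
set_option maxHeartbeats 3200000

noncomputable section

open ModularCurve AlgebraicCurve FA.Mazur FA.JTorsion FA.ModField FA.LocalDef
open scoped Matrix

local notation "Qb" => AlgebraicClosure ℚ
local notation "GQ" => AlgebraicClosure ℚ ≃ₐ[ℚ] AlgebraicClosure ℚ

namespace FA.WeightTwoOrdinary

section Jacobian

open FA.ModField.AtP FA.Curve FA.CurveRed FA.Level FA.Local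

variable [Algebra Qb ℂ] {p : ℕ} [hp : Fact p.Prime] [NeZero p] [NeZero (1 * p)]
  (A : ValuationSubring Qb) [IsAlgClosed (IsLocalRing.ResidueField A)]
  [CharP (IsLocalRing.ResidueField A) p]

local notation "kA" => IsLocalRing.ResidueField A
local notation "πA" => IsLocalRing.residue A
local notation "Fl" => levelField (1 * p) Qb

/-- **Inertia at `p` acts on its displacements in `J₀(p)[p]` by the cyclotomic character.** -/
theorem smul_displacement_mul (hA : A.LiesOverPrime p) {ζ : Qb}
    (hζ : IsPrimitiveRoot ζ p) {σ τ : GQ} (hσ : σ ∈ A.inertiaSubgroupIn ℚ)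
    (hτ : τ ∈ A.inertiaSubgroupIn ℚ) {m : ℕ} (hm : σ ζ = ζ ^ m) {x : JZero (1 * p)}
    (hx : p • x = 0) : σ • (τ • x - x) = m • (τ • x - x) := by
  classical
  haveI : Algebra.IsAlgebraic ℚ Qb := AlgebraicClosure.isAlgebraic ℚ
  have harch : ∀ c : Qb, c ≠ 0 → ∃ m : ℕ, A.valuation ((p : Qb) ^ m) < A.valuation c :=
    fun c hc => exists_pow_lt_valuation hp.out hA c hc
  have hpM : ¬ p ∣ 1 := hp.out.not_dvd_one
  have hFl := isFunctionField_level Qb (1 * p)
  set X := theSemi 1 p A hpM harch
  set D₀ := fibreData 1 p A πA IsLocalRing.residue_surjective residueAt_eq_zero hpM harch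
  let V := X.toricKer hFl p
  let ι : V →+ Pic0 Qb Fl := (Pic0.torsion Qb Fl p).subtype.comp V.subtype
  have hι : Function.Injective ι := fun a b h => Subtype.ext (Subtype.ext h)
  have hpV : ∀ v : V, p • v = 0 := fun v => hι (by
    rw [map_nsmul, map_zero, ← natCast_zsmul]
    exact Pic0.mem_torsion.1 v.1.2)
  let xt : Pic0.torsion Qb Fl p :=
    ⟨x, Pic0.mem_torsion.2 ((natCast_zsmul x p).trans hx)⟩
  have hy : galAut (1 * p) Qb τ • xt - xt ∈ V := D₀.smul_sub_mem_toricKer_inertia p hτ xt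
  have hsy : galAut (1 * p) Qb σ • (galAut (1 * p) Qb τ • xt - xt) ∈ V :=
    D₀.smul_mem_toricKer_decomposition p (inertia_le_decomposition hσ) hy
  rcases (galFibre 1 p A hA hpM harch).dichotomy_connected hFl
      (fun _ => isFunctionField_fullC kA 1) hA hζ
      (fun g hg hclean hpush => FibreHyp.exists_red_one _ hg
        (fun s P hP => by
          rw [← divOf_apply hFl]
          exact hclean P ((theFibre 1 p A hpM harch).tubeAt_iff_none.2 ⟨s, hP⟩))
        (fun i Q _ => by
          show X.push (divOf hFl g) i Q = 0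
          rw [hpush]
          rfl))
      hpV ι hι (fun v => ⟨v, rfl⟩) with
    ⟨v, D, g, d, rr, hD, hg, hgD, hd0, hd1, hpd, hrr, i, hi⟩ | hscal
  · exfalso
    have hzero : ∀ y : JZero (1 * p), p • y = 0 → pushLvl 1 p y = 0 := fun y hy =>
      FA.CuspClass.eq_zero_level_one (l := p) (by rw [← map_nsmul, hy, map_zero])
    have hιp : p • ι v = 0 := by rw [← map_nsmul, hpV, map_zero]
    have hCI := hrr 0
    have hCZ := hrr 1
    change (cInf 1 p A πA IsLocalRing.residue_surjective residueAt_eq_zero hpM harch).Red _ _ at hCI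
    change (cZero 1 p A πA IsLocalRing.residue_surjective residueAt_eq_zero hpM harch).Red _ _ at hCZ
    rw [cZero_red, map_mul, AlgEquiv.commutes, map_sub, map_one] at hCZ
    revert i
    refine Fin.forall_fin_two.2 ⟨fun hi => ?_, fun hi => ?_⟩
    · obtain ⟨u, hu⟩ := exists_pow_of_pushLvl_eq_zero 1 p A hpM harch hg hgD
        (hzero _ (by rw [hD]; exact hιp)) hd0 hd1 hpd hCI hCZ
      exact hi u hu
    · obtain ⟨u, hu⟩ := exists_pow_of_pushLvl_eq_zero 1 p A hpM harch
        (D := SemilinearAut.degZeroSMulHom (wAut 1 p Qb hpM) D) (g := wLvl 1 p Qb hpM g)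
        ((map_ne_zero_iff _ (wLvl 1 p Qb hpM).injective).2 hg)
        (fun P => by
          rw [SemilinearAut.coe_degZeroSMulHom, SemilinearAut.divisor_smul_apply, ← hgD]
          have := SemilinearAut.ord_smul (wAut 1 p Qb hpM) ((wAut 1 p Qb hpM)⁻¹ • P) g
          rw [smul_inv_smul] at this
          exact this)
        (hzero _ (by
          rw [← SemilinearAut.pic0_smul_mk, hD]
          refine (map_nsmul (DistribSMul.toAddMonoidHom (JZero (1 * p)) (wAut 1 p Qb hpM))
            p (ι v)).symm.trans ?_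
          rw [hιp]
          exact map_zero _))
        hd0 hd1 hpd hCZ (by rw [wLvl_wLvl]; exact hCI)
      exact hi u hu
  · have h := hscal σ hσ m hm ⟨_, hy⟩ ⟨_, hsy⟩ (SemilinearAut.coe_torsion_smul _ _)
    have e := congrArg ι h
    rw [map_nsmul] at e
    have e1 : ι ⟨_, hy⟩ = τ • x - x := by
      show ((galAut (1 * p) Qb τ • xt - xt : Pic0.torsion Qb Fl p) : Pic0 Qb Fl) = _
      rw [AddSubgroupClass.coe_sub, SemilinearAut.coe_torsion_smul, galois_smul_pic0_def]
      rfl
    have e2 : ι ⟨_, hsy⟩ = σ • (τ • x - x) := by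
      show ((galAut (1 * p) Qb σ • (galAut (1 * p) Qb τ • xt - xt) :
        Pic0.torsion Qb Fl p) : Pic0 Qb Fl) = _
      rw [SemilinearAut.coe_torsion_smul, ← e1, galois_smul_pic0_def]
      rfl
    rw [e1, e2] at e
    exact e

end Jacobian

variable {p : ℕ} [hp : Fact p.Prime]

/-- **The displacements by inertia at `p` in `J₀(p)[p]` carry the cyclotomic character.** -/
theorem smul_displacement {A : ValuationSubring Qb} (hA : A.LiesOverPrime p) {ζ : Qb}
    (hζ : IsPrimitiveRoot ζ p) {σ τ : GQ} (hσ : σ ∈ A.inertiaSubgroupIn ℚ)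
    (hτ : τ ∈ A.inertiaSubgroupIn ℚ) {m : ℕ} (hm : σ ζ = ζ ^ m) {x : JZero p} (hx : p • x = 0) :
    σ • (τ • x - x) = m • (τ • x - x) := by
  obtain ⟨alg⟩ := exists_algebra_qbar
  letI := alg
  haveI : Algebra.IsAlgebraic ℚ Qb := AlgebraicClosure.isAlgebraic ℚ
  haveI : IsAlgClosed (IsLocalRing.ResidueField A) := FA.Frob.residueField_isAlgClosed A
  haveI : CharP (IsLocalRing.ResidueField A) p := residueAt_charP hA
  have key : ∀ (N : ℕ) [NeZero N], 1 * p = N → ∀ y : JZero N, p • y = 0 →
      σ • (τ • y - y) = m • (τ • y - y) := by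
    intro N _ h
    subst h
    haveI : NeZero p := ⟨hp.out.ne_zero⟩
    exact fun y hy => smul_displacement_mul A hA hζ hσ hτ hm hy
  haveI : NeZero p := ⟨hp.out.ne_zero⟩
  exact key p (one_mul p) x hx

section System

variable {k : Type} [Field k] [CharP k p] [Algebra Qb ℂ] [NeZero p]

/-- The functionals on the lattice modulo `p` which are compatible with a system. -/
def systemDual (θ : TAlg p →+* k) : Submodule k (ModN p (∅ : Set ℕ) p → k) where
  carrier := {φ | (∀ x y, φ (x + y) = φ x + φ y) ∧ ∀ (t : TAlg p) y, φ (t • y) = θ t * φ y}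
  add_mem' {a b} ha hb := ⟨fun x y => by
    simp only [Pi.add_apply, ha.1, hb.1]
    abel, fun t y => by rw [Pi.add_apply, Pi.add_apply, ha.2, hb.2, mul_add]⟩
  zero_mem' := ⟨fun x y => (add_zero 0).symm, fun t y => (mul_zero _).symm⟩
  smul_mem' c a ha := ⟨fun x y => by simp only [Pi.smul_apply, ha.1, smul_add], fun t y => by
    rw [Pi.smul_apply, Pi.smul_apply, ha.2, smul_eq_mul, smul_eq_mul]
    ring⟩

/-- A compatible functional as a homomorphism. -/
def systemHom {θ : TAlg p →+* k} (φ : systemDual θ) : ModN p (∅ : Set ℕ) p →+ k :=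
  AddMonoidHom.mk' φ.1 φ.2.1

/-- The action on the compatible functionals. -/
def systemAct (θ : TAlg p →+* k) : GQ →* Module.End k (systemDual θ) where
  toFun g :=
    { toFun := fun φ => ⟨fun y => φ.1 (galMod p (∅ : Set ℕ) p g⁻¹ y), fun x y => by
        show φ.1 (galMod p (∅ : Set ℕ) p g⁻¹ (x + y)) = _
        rw [map_add]
        exact φ.2.1 _ _, fun t y => by
        show φ.1 (galMod p (∅ : Set ℕ) p g⁻¹ (t • y)) = _
        rw [map_smul]
        exact φ.2.2 t _⟩
      map_add' := fun φ ψ => rfl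
      map_smul' := fun c φ => rfl }
  map_one' := LinearMap.ext fun φ => Subtype.ext (funext fun y => by
    show φ.1 (galMod p (∅ : Set ℕ) p 1⁻¹ y) = φ.1 y
    rw [inv_one, map_one, Module.End.one_apply])
  map_mul' g h := LinearMap.ext fun φ => Subtype.ext (funext fun y => by
    show φ.1 (galMod p (∅ : Set ℕ) p (g * h)⁻¹ y) =
      φ.1 (galMod p (∅ : Set ℕ) p h⁻¹ (galMod p (∅ : Set ℕ) p g⁻¹ y))
    rw [_root_.mul_inv_rev, map_mul, Module.End.mul_apply])

theorem systemAct_apply (θ : TAlg p →+* k) (g : GQ) (φ : systemDual θ)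
    (y : ModN p (∅ : Set ℕ) p) :
    (systemAct θ g φ).1 y = φ.1 (galMod p (∅ : Set ℕ) p g⁻¹ y) := rfl

theorem systemDual_nontrivial (θ : TAlg p →+* k) : Nontrivial (systemDual θ) := by
  letI : Algebra (TAlg p) k := θ.toAlgebra
  haveI : Module.Finite ℤ (TAlg p) := FA.Period.moduleFinite_heckeAlgebra p 2 (∅ : Set ℕ)
  haveI : Module.Finite (TAlg p) (LatMod p (∅ : Set ℕ)) := inferInstance
  obtain ⟨g₀, x₀, hx₀, hg₀⟩ := exists_functional_of_faithful (T := TAlg p) p (k := k)
    (X := LatMod p (∅ : Set ℕ)) fun t h => latMod_faithful p (∅ : Set ℕ) h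
  let g : ModN p (∅ : Set ℕ) p →ₗ[TAlg p] k := Submodule.liftQ _ g₀ fun z hz => by
    obtain ⟨z', rfl⟩ := (mem_nMultiples p _).1 hz
    exact hg₀ z'
  refine ⟨⟨⟨fun y => g y, fun x y => map_add g x y, fun t y => ?_⟩, 0, fun h => hx₀ ?_⟩⟩
  · show g (t • y) = θ t * g y
    rw [map_smul, Algebra.smul_def]
    rfl
  · exact congrFun (congrArg Subtype.val h)
      (Submodule.Quotient.mk x₀ : ModN p (∅ : Set ℕ) p)

/-- A system representation spanning the matrices satisfies the relation of the displacements. -/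
theorem relation_of_span (h5 : 5 ≤ p) (θ : TAlg p →+* k) (r : GQ →* Matrix (Fin 2) (Fin 2) k)
    (hopen : IsOpen (r.ker : Set GQ)) (S : Finset ℕ)
    (hr : ∀ q : Nat.Primes, (q : ℕ) ∉ S → (q : ℕ) ≠ p →
      ∀ A : ValuationSubring Qb, A.LiesOverPrime q → ∀ σ : GQ, A.IsFrobeniusAt σ q →
        (r σ).trace = θ (tGen p q) ∧ (r σ).det = ((q : ℕ) : k))
    (hspan : Submodule.span k (Set.range r) = ⊤) {A : ValuationSubring Qb}
    (hA : A.LiesOverPrime p) {ζ : Qb} (hζ : IsPrimitiveRoot ζ p) {σ τ : GQ}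
    (hσ : σ ∈ A.inertiaSubgroupIn ℚ) (hτ : τ ∈ A.inertiaSubgroupIn ℚ) {m : ℕ}
    (hm : σ ζ = ζ ^ m) : (r σ - (m : k) • 1) * (r τ - 1) = 0 := by
  classical
  let r' : GQ →* Matrix (Fin 2) (Fin 2) k :=
    { toFun := fun g => (r g⁻¹)ᵀ
      map_one' := by rw [inv_one, map_one, Matrix.transpose_one]
      map_mul' := fun g h => by rw [_root_.mul_inv_rev, map_mul, Matrix.transpose_mul] }
  set act := systemAct θ
  haveI := systemDual_nontrivial θ
  have hinv : ∀ {M : Type} [Monoid M] (f : GQ →* M) {η : GQ}, f η = 1 → f η⁻¹ = 1 :=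
    fun f η h => by
      have h4 : f η⁻¹ * f η = 1 := by rw [← map_mul, inv_mul_cancel, map_one]
      rwa [h, mul_one] at h4
  have hrel0 : ∀ g, act g⁻¹ + (r g).det • act g = (r g).trace • 1 := by
    obtain ⟨L, hL, hLγ⟩ := exists_field_galMod p (∅ : Set ℕ) p
    have hact : IsOpen (act.ker : Set GQ) := isOpen_ker_of_field act ⟨L, hL, fun s hs =>
      LinearMap.ext fun φ => Subtype.ext (funext fun y => by
        rw [systemAct_apply, hinv (galMod p (∅ : Set ℕ) p) (hLγ s hs)]
        rfl)⟩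
    have hK : IsOpen (((act.prod r).ker : Subgroup GQ) : Set GQ) := by
      rw [MonoidHom.ker_prod, Subgroup.coe_inf]
      exact hact.inter hopen
    refine fun g => FA.Density.forall_of_frobenius_pow _ hK
      (fun g => act g⁻¹ + (r g).det • act g = (r g).trace • 1) ?_ (insert p S) ?_ g
    · intro g η hη hg
      obtain ⟨e1, e2⟩ := Prod.ext_iff.1 (MonoidHom.mem_ker.1 hη)
      change act η = 1 at e1
      change r η = 1 at e2
      rw [_root_.mul_inv_rev, map_mul, map_mul, map_mul, e1, e2, hinv act e1, one_mul, mul_one,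
        mul_one]
      exact hg
    · intro q hq hqS B hB g hg e
      rw [Finset.mem_insert, not_or] at hqS
      obtain ⟨htr, hdet⟩ := hr ⟨q, hq⟩ hqS.2 hqS.1 B hB g hg
      have hqN : ¬ q ∣ p := fun h => hqS.1 ((Nat.prime_dvd_prime_iff_eq hq hp.out).1 h)
      haveI : NeZero q := ⟨hq.ne_zero⟩
      have h1 : act g⁻¹ + (r g).det • act g = (r g).trace • 1 :=
        LinearMap.ext fun φ => Subtype.ext (funext fun y => by
          have hf := congrArg (systemHom φ) (galMod_frobenius p (∅ : Set ℕ) p (goodRed_all p) hq hqN hqN hB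
            (Set.notMem_empty _) hg y)
          rw [map_add, map_nsmul, show ∀ z, systemHom φ z = φ.1 z from fun _ => rfl,
            show ∀ z, systemHom φ z = φ.1 z from fun _ => rfl,
            show ∀ z, systemHom φ z = φ.1 z from fun _ => rfl, φ.2.2, nsmul_eq_mul,
            ← CuspForm.heckeEvalForms_heckeGen_of_not_dvd (ℓ := ⟨q, hq⟩) hqN] at hf
          show φ.1 (galMod p (∅ : Set ℕ) p g⁻¹⁻¹ y) +
            (r g).det • φ.1 (galMod p (∅ : Set ℕ) p g⁻¹ y) = (r g).trace • φ.1 y
          rw [inv_inv, htr, hdet, smul_eq_mul, smul_eq_mul]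
          exact hf)
      have hpow := pow_add_smul_pow (u := act g⁻¹) (v := act g)
        (by rw [← map_mul, inv_mul_cancel, map_one]) (by rw [← map_mul, mul_inv_cancel, map_one])
        h1 e
      rw [← map_pow, ← map_pow, inv_pow] at hpow
      rw [show r (g ^ e) = r g ^ e from map_pow r g e, trace_pow_fin_two, Matrix.det_pow]
      exact hpow
  have hrel : ∀ g, act g + (r' g).det • act g⁻¹ = (r' g).trace • 1 := fun g => by
    show act g + ((r g⁻¹)ᵀ).det • act g⁻¹ = ((r g⁻¹)ᵀ).trace • 1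
    rw [Matrix.det_transpose, Matrix.trace_transpose]
    simpa only [inv_inv] using hrel0 g⁻¹
  have hspan' : Submodule.span k (Set.range r') = ⊤ := by
    refine eq_top_iff.2 fun M _ => ?_
    have hmem : Mᵀ ∈ Submodule.span k (Set.range r) := hspan ▸ Submodule.mem_top
    have h := Submodule.mem_map_of_mem
      (f := (Matrix.transposeLinearEquiv (Fin 2) (Fin 2) k k).toLinearMap) hmem
    rw [Submodule.map_span] at h
    refine Submodule.span_mono ?_ (by simpa using h)
    rintro _ ⟨_, ⟨g, rfl⟩, rfl⟩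
    exact ⟨g⁻¹, by show (r g⁻¹⁻¹)ᵀ = _; rw [inv_inv]⟩
  have h2 : IsUnit (2 : k) := isUnit_iff_ne_zero.2 fun h => by
    have := Nat.le_of_dvd two_pos ((CharP.cast_eq_zero_iff k p 2).1 (by exact_mod_cast h))
    omega
  obtain ⟨Ψ, hΨ⟩ := FA.FlatModel.exists_matrix_action r' act hspan' h2 hrel
  have hzero : Ψ ((r' τ⁻¹ - 1) * (r' σ⁻¹ - (m : k) • 1)) = 0 := by
    rw [map_mul, map_sub, map_sub, map_smul, hΨ, hΨ, map_one]
    refine LinearMap.ext fun φ => Subtype.ext (funext fun y => ?_)
    show φ.1 (galMod p (∅ : Set ℕ) p σ⁻¹⁻¹ (galMod p (∅ : Set ℕ) p τ⁻¹⁻¹ y)) -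
        (m : k) • φ.1 (galMod p (∅ : Set ℕ) p τ⁻¹⁻¹ y) -
        (φ.1 (galMod p (∅ : Set ℕ) p σ⁻¹⁻¹ y) - (m : k) • φ.1 y) = 0
    simp only [inv_inv, Nat.cast_smul_eq_nsmul]
    show systemHom φ _ - m • systemHom φ _ - (systemHom φ _ - m • systemHom φ y) = 0
    rw [← map_nsmul (systemHom φ), ← map_nsmul (systemHom φ), ← map_sub (systemHom φ),
      ← map_sub (systemHom φ), ← map_sub (systemHom φ)]
    refine (congrArg (systemHom φ) (toTors_injective p (∅ : Set ℕ) p ?_)).trans
      (map_zero (systemHom φ))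
    have h := smul_displacement hA hζ hσ hτ hm
      (nsmul_toTors p (∅ : Set ℕ) p y)
    rw [smul_sub, nsmul_sub] at h
    rw [map_zero, map_sub, map_sub, map_sub, map_nsmul, map_nsmul, toTors_galMod, toTors_galMod,
      toTors_galMod, sub_eq_zero, sub_eq_sub_iff_sub_eq_sub]
    exact h
  have hker : (r' τ⁻¹ - 1) * (r' σ⁻¹ - (m : k) • 1) = 0 :=
    (map_eq_zero_iff Ψ (RingHom.injective Ψ.toRingHom)).1 hzero
  have ht := congrArg Matrix.transpose hker
  simpa [r'] using ht

end System

end FA.WeightTwoOrdinary
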