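import Fermat.Agent.WeightTwoOrdinary.LocalShapeLine
import Mathlib.GroupTheory.SpecificGroups.Alternating

/-!
# Eigenforms, exceptional groups and finite flatness

Representations attached to eigenforms are system representations; their projective images have
an element of order `p - 1 ≥ 6`, which none of `A₄`, `S₄`, `A₅` has; over the prime field a system
representation is not finite flat at `p`, as it does not come from level one.
-/

set_option autoImplicit false
set_option linter.style.haveILetI false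
set_option linter.unusedSectionVars false
set_option synthInstance.maxHeartbeats 400000
set_option maxHeartbeats 2000000

noncomputable section

open ModularCurve FA.Mazur FA.JTorsion FA.ModField FA.LocalDef
open scoped Matrix

local notation "Qb" => AlgebraicClosure ℚ
local notation "GQ" => AlgebraicClosure ℚ ≃ₐ[ℚ] AlgebraicClosure ℚ

namespace FA.WeightTwoOrdinary

variable {p : ℕ} [hp : Fact p.Prime] {k : Type} [Field k] [CharP k p]

/-- A representation attached to an eigenform is one of a system. -/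
theorem exists_system_of_isTwoRep (φ : integralClosure ℤ ℂ →+* k)
    {g : CuspForm (CongruenceSubgroup.Gamma0 p) 2} (hg : g.IsNormalizedEigenform)
    {ρ : GQ →* GL (Fin 2) k} (hρ : IsTwoRep φ g ρ) :
    ∃ θ : TAlg p →+* k, IsSystemRep θ ((Units.coeHom _).comp ρ) ∅ := by
  obtain ⟨χ, hχ⟩ := exists_charZB hg
  refine ⟨φ.comp χ, Subgroup.isOpen_mono (fun σ hσ => MonoidHom.mem_ker.2 (by
    rw [MonoidHom.comp_apply, MonoidHom.mem_ker.1 hσ, map_one])) hρ.1,
    fun q _ hqp A hA σ hσ => ?_⟩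
  obtain ⟨hσd, hσf⟩ := hσ
  obtain ⟨c, hc, ht, hd⟩ := (hρ.2 q q.2 hqp A hA).2 ⟨σ, hσd⟩ hσf
  refine ⟨ht.trans ?_, hd⟩
  rw [RingHom.comp_apply, show c = χ (hCoeff p q) from Subtype.ext (hc.trans (hχ q).symm),
    show hCoeff p q = tGen p q from hCoeff_prime p q]

/-- Every element of the symmetric group of degree four has order at most four. -/
theorem exists_small_pow_perm (x : Equiv.Perm (Fin 4)) :
    x ^ 1 = 1 ∨ x ^ 2 = 1 ∨ x ^ 3 = 1 ∨ x ^ 4 = 1 := by
  revert x; decide +kernel

/-- Every element of the alternating group of degree five has order at most five. -/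
theorem exists_small_pow_alt (x : alternatingGroup (Fin 5)) :
    x ^ 1 = 1 ∨ x ^ 2 = 1 ∨ x ^ 3 = 1 ∨ x ^ 5 = 1 := by
  revert x; decide +kernel

/-- A transvection over any field. -/
theorem IsSystemRep.exists_order_p {θ : TAlg p →+* k} {r : GQ →* Matrix (Fin 2) (Fin 2) k}
    {S : Finset ℕ} (h : IsSystemRep θ r S) (h5 : 5 ≤ p) :
    ∃ g, r g ≠ 1 ∧ r g ^ p = 1 ∧ (r g - 1) * (r g - 1) = 0 := by
  haveI : CharP (AlgebraicClosure k) p :=
    charP_of_injective_algebraMap (algebraMap k (AlgebraicClosure k)).injective p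
  obtain ⟨e, he⟩ : ∃ e : k →+* AlgebraicClosure k, e = algebraMap k (AlgebraicClosure k) :=
    ⟨_, rfl⟩
  obtain ⟨g, hne, hsq⟩ := (h.map e).exists_transvection h5
  have hinj : Function.Injective (e.mapMatrix (m := Fin 2)) := Matrix.map_injective e.injective
  have hsq' : (r g - 1) * (r g - 1) = 0 := hinj (by
    rw [map_mul, map_sub, map_one, map_zero]
    exact hsq)
  refine ⟨g, fun e1 => hne (by show e.mapMatrix (r g) = 1; rw [e1, map_one]), ?_, hsq'⟩
  have h1 : (r g - 1) ^ p = 0 := pow_eq_zero_of_le hp.out.two_le (by rw [pow_two, hsq'])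
  rwa [sub_pow_char_of_commute p (Commute.one_right _), one_pow, sub_eq_zero] at h1

/-- **The projective image is none of `A₄`, `S₄`, `A₅`.** -/
theorem IsSystemRep.not_exceptional {θ : TAlg p →+* k} {ρ : GQ →* GL (Fin 2) k} {S : Finset ℕ}
    (h : IsSystemRep θ ((Units.coeHom _).comp ρ) S) (h5 : 5 ≤ p) :
    IsEmpty (((QuotientGroup.mk' (Subgroup.center (GL (Fin 2) k))).comp ρ).range ≃*
      alternatingGroup (Fin 4)) ∧
    IsEmpty (((QuotientGroup.mk' (Subgroup.center (GL (Fin 2) k))).comp ρ).range ≃*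
      Equiv.Perm (Fin 4)) ∧
    IsEmpty (((QuotientGroup.mk' (Subgroup.center (GL (Fin 2) k))).comp ρ).range ≃*
      alternatingGroup (Fin 5)) := by
  classical
  have h7 := seven_le_of_system h5 θ
  obtain ⟨A, hA⟩ := FA.Deform.exists_liesOverPrime hp.out
  obtain ⟨σ, -, hord⟩ := h.exists_inertia_order h5 hA
  obtain ⟨f, hf⟩ : ∃ f : GQ →* GL (Fin 2) k ⧸ Subgroup.center (GL (Fin 2) k),
      f = (QuotientGroup.mk' (Subgroup.center (GL (Fin 2) k))).comp ρ := ⟨_, rfl⟩
  have key : ∀ {G : Type} [Group G] (_ : f.range ≃* G),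
      ¬ (∀ x : G, ∃ n, 0 < n ∧ n < 6 ∧ x ^ n = 1) := by
    intro G _ e hG
    obtain ⟨n, h0, h6, hn⟩ := hG (e ⟨f σ, σ, rfl⟩)
    rw [← map_pow, ← map_one e] at hn
    have h1 : (f σ) ^ n = 1 := congrArg Subtype.val (e.injective hn)
    rw [← map_pow, hf, MonoidHom.comp_apply, QuotientGroup.mk'_apply,
      QuotientGroup.eq_one_iff, map_pow, Matrix.GeneralLinearGroup.mem_center_iff_val_mem_range_scalar] at h1
    obtain ⟨c, hc⟩ := h1
    have h2 : ((Units.coeHom _).comp ρ) σ ^ n = c • 1 := by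
      rw [MonoidHom.comp_apply, Units.coeHom_apply, ← Units.val_pow_eq_pow_val, ← hc,
        Matrix.scalar_apply, Matrix.smul_one_eq_diagonal]
    have := Nat.le_of_dvd h0 ((hord n).2 c h2)
    omega
  subst hf
  refine ⟨⟨fun e => key e fun x => ?_⟩, ⟨fun e => key e fun x => ?_⟩, ⟨fun e => key e fun x => ?_⟩⟩
  · rcases exists_small_pow_perm x.1 with h | h | h | h <;>
      [exact ⟨1, one_pos, by norm_num, Subtype.ext h⟩; exact ⟨2, two_pos, by norm_num, Subtype.ext h⟩;
       exact ⟨3, three_pos, by norm_num, Subtype.ext h⟩; exact ⟨4, four_pos, by norm_num, Subtype.ext h⟩]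
  · rcases exists_small_pow_perm x with h | h | h | h <;>
      [exact ⟨1, one_pos, by norm_num, h⟩; exact ⟨2, two_pos, by norm_num, h⟩;
       exact ⟨3, three_pos, by norm_num, h⟩; exact ⟨4, four_pos, by norm_num, h⟩]
  · rcases exists_small_pow_alt x with h | h | h | h <;>
      [exact ⟨1, one_pos, by norm_num, h⟩; exact ⟨2, two_pos, by norm_num, h⟩;
       exact ⟨3, three_pos, by norm_num, h⟩; exact ⟨5, by norm_num, by norm_num, h⟩]

/-- No system of level one. -/
theorem false_of_level_one {S : Set ℕ} {R : Type} [CommRing R] [Nontrivial R]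
    (χ : CuspForm.heckeAlgebra 1 2 S →+* R) : False := by
  have h0 : ∀ f : CuspForm (CongruenceSubgroup.Gamma0 1) 2, f = 0 :=
    FA.Ribet.cuspForm_eq_zero_of_genusFormula
      (FA.Ribet.genusFormula_eq_zero (m := 10) (Or.inr rfl) (one_dvd _))
  have h1 : (1 : CuspForm.heckeAlgebra 1 2 S) = 0 := Subtype.ext (LinearMap.ext fun f => by
    rw [h0 f, map_zero, map_zero])
  exact one_ne_zero ((map_one χ).symm.trans (by rw [h1, map_zero]))

/-- **Over the prime field a system representation is not finite flat at `p`.** -/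
theorem IsSystemRep.not_flat {θ : TAlg p →+* ZMod p}
    {r : GQ →* Matrix (Fin 2) (Fin 2) (ZMod p)} {S : Finset ℕ} (h : IsSystemRep θ r S)
    (h5 : 5 ≤ p) {A : ValuationSubring Qb} (hA : A.LiesOverPrime p) : ¬ IsFlatRes A r := by
  classical
  intro hflat
  obtain ⟨alg⟩ := exists_algebra_qbar
  letI := alg
  haveI : NeZero p := ⟨hp.out.ne_zero⟩
  haveI : Algebra.IsAlgebraic ℚ Qb := AlgebraicClosure.isAlgebraic ℚ
  haveI : IsAlgClosed (IsLocalRing.ResidueField A) := FA.Frob.residueField_isAlgClosed A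
  haveI : CharP (IsLocalRing.ResidueField A) p := residueAt_charP hA
  set S' := insert p S
  let a : ℕ → ZMod p := fun ℓ => if hℓ : ℓ.Prime then θ (tGen p ⟨ℓ, hℓ⟩) else 0
  have hfrob : ∀ ℓ : ℕ, ℓ.Prime → ℓ ∉ S' → ∀ B : ValuationSubring Qb, B.LiesOverPrime ℓ →
      ∀ τ : GQ, B.IsFrobeniusAt τ ℓ → (r τ).trace = a ℓ ∧ (r τ).det = (ℓ : ZMod p) := by
    intro ℓ hℓ hℓS B hB τ hτ
    rw [Finset.mem_insert, not_or] at hℓS
    simp only [a, dif_pos hℓ]
    exact h.2 ⟨ℓ, hℓ⟩ hℓS.2 hℓS.1 B hB τ hτ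
  have hdet : DetOmega A p r := fun σ _ m hm => by
    obtain ⟨ζ, hζ⟩ := FA.LocalDef.exists_zeta hp.out
    exact h.det_eq hζ σ (hm ζ hζ.pow_eq_one)
  have hne : ∃ ℓ : ℕ, ℓ.Prime ∧ ℓ ∉ S' ∧ a ℓ ≠ (ℓ : ZMod p) + 1 := by
    by_contra hcon
    push Not at hcon
    let r₂ : GQ →* Matrix (Fin 2) (Fin 2) (ZMod p) :=
      { toFun := fun g => Matrix.diagonal ![1, (r g).det]
        map_one' := by
          rw [map_one, Matrix.det_one, ← Matrix.diagonal_one]
          congr 1
          ext i; fin_cases i <;> rfl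
        map_mul' := fun g g' => by
          rw [Matrix.diagonal_mul_diagonal, map_mul, Matrix.det_mul]
          congr 1
          ext i; fin_cases i <;> simp }
    have hopen₂ : IsOpen (r₂.ker : Set GQ) := Subgroup.isOpen_mono (fun g hg => MonoidHom.mem_ker.2 (by
      show Matrix.diagonal ![1, (r g).det] = 1
      rw [MonoidHom.mem_ker.1 hg, Matrix.det_one, ← Matrix.diagonal_one]
      congr 1
      ext i; fin_cases i <;> rfl)) h.1
    obtain ⟨g, hg⟩ := h.surjective h5 (X := (2 : ZMod p) • 1) (by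
      rw [Matrix.det_smul, Matrix.det_one, mul_one]
      refine pow_ne_zero _ fun e => ?_
      have := Nat.le_of_dvd two_pos ((CharP.cast_eq_zero_iff (ZMod p) p 2).1 (by exact_mod_cast e))
      omega)
    have htr := (FA.Density.trace_det_eq_of_frobenius r r₂ h.1 hopen₂ S' (fun q hq hqS B hB τ hτ => by
      obtain ⟨ht, hd⟩ := hfrob q hq hqS B hB τ hτ
      show _ = (Matrix.diagonal _).trace ∧ _ = (Matrix.diagonal _).det
      rw [Matrix.trace_diagonal, Matrix.det_diagonal, Fin.sum_univ_two, Fin.prod_univ_two]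
      simp only [Matrix.cons_val_zero, Matrix.cons_val_one, Matrix.cons_val_fin_one, one_mul, hd]
      exact ⟨by rw [ht, hcon q hq hqS, add_comm], trivial⟩) g).1
    rw [hg, show r₂ g = Matrix.diagonal ![1, (r g).det] from rfl, hg, Matrix.trace_smul,
      Matrix.trace_one, Matrix.det_smul, Matrix.det_one, Matrix.trace_diagonal, Fin.sum_univ_two]
      at htr
    simp at htr
    exact one_ne_zero (by linear_combination -htr : (1 : ZMod p) = 0)
  have key : ∀ (N : ℕ) [NeZero N], 1 * p = N →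
      ∀ χ : CuspForm.heckeAlgebra N 2 (↑S' : Set ℕ) →+* ZMod p,
      (∀ (ℓ : ℕ) (hℓ : ℓ.Prime) (hℓN : ¬ ℓ ∣ N) (hℓS : ℓ ∉ (↑S' : Set ℕ)),
        χ (CuspForm.heckeAlgebra.T hℓ hℓN hℓS) = a ℓ) → False := by
    intro N _ hN
    subst hN
    intro χ hχ
    obtain ⟨χ', -⟩ := FA.ModField.AtP.exists_chi_lowerAtP_any (p := p) 1 A hA hp.out.not_dvd_one
      (by omega) (fun h3 => by omega) S' (by simp) (Finset.mem_insert_self p S) a r h.1
      (h.span h5) hfrob hne hflat hdet χ hχ
    exact false_of_level_one χ'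
  refine key p (one_mul p) (θ.comp (Subalgebra.inclusion
    (CuspForm.heckeAlgebra_mono (N := p) (k := 2) (Set.empty_subset (↑S' : Set ℕ)))).toRingHom)
    fun ℓ hℓ hℓN hℓS => ?_
  simp only [a, dif_pos hℓ, RingHom.comp_apply]
  refine congrArg θ ?_
  haveI : NeZero ℓ := ⟨hℓ.ne_zero⟩
  rw [show tGen p ⟨ℓ, hℓ⟩ = CuspForm.heckeAlgebra.T hℓ hℓN (Set.notMem_empty _) from
    CuspForm.heckeEvalForms_heckeGen_of_not_dvd (ℓ := ⟨ℓ, hℓ⟩) hℓN]
  exact Subtype.ext rfl

end FA.WeightTwoOrdinary
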