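import Fermat.Agent.WeightTwoOrdinary.Unique
import Fermat.Agent.WeightTwoOrdinary.TwoDimTwist
import Fermat.Agent.Tau.PrimeLevelDuality
import Fermat.Agent.OpenImageAll.Traces

/-!
# No self-twist at `l = p`

A functional of a system modulo `p` gives a cusp form `v` of weight `p + 1`; a self-twist by `ωʲ`
makes `θʲ v = θ^(p-1) v`, against the filtrations `(j + 1)(p + 1)` and `p (p + 1)`.
-/

set_option autoImplicit false
set_option linter.unusedSectionVars false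
set_option synthInstance.maxHeartbeats 400000

noncomputable section

open UpperHalfPlane hiding I
open PowerSeries CongruenceSubgroup ModularCurve CuspForm IsLocalRing Matrix
open scoped MatrixGroups ModularForm

namespace FA.WeightTwoOrdinary

open FA.OrdinaryCount FA.OrdinaryCongruence FA.SwinnertonDyer FA.LevelPModP

local notation "ZB" => integralClosure ℤ ℂ
local notation "Qb" => AlgebraicClosure ℚ
local notation "GQ" => AlgebraicClosure ℚ ≃ₐ[ℚ] AlgebraicClosure ℚ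

variable {p : ℕ} [Fact p.Prime] {K : Type} [Field K] [CharP K p]

theorem IsTwoRep.map {φ : ZB →+* K} {g : CuspForm (Gamma0 p) 2} {ρ : GQ →* GL (Fin 2) K}
    (hρ : IsTwoRep φ g ρ) (L : Type) [Field L] [Algebra K L] :
    ∃ ρ' : GQ →* GL (Fin 2) L, IsTwoRep ((algebraMap K L).comp φ) g ρ' ∧
      ∀ σ, (ρ' σ).val = (ρ σ).val.map (algebraMap K L) := by
  obtain ⟨ρ', hρ'⟩ : ∃ ρ' : GQ →* GL (Fin 2) L,
      ∀ σ, (ρ' σ).val = (ρ σ).val.map (algebraMap K L) :=
    ⟨(Units.map (algebraMap K L).mapMatrix.toMonoidHom).comp ρ, fun σ => rfl⟩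
  have h1 : ∀ σ, ρ σ = 1 → ρ' σ = 1 := fun σ hσ => Units.ext (by
    rw [hρ', hσ, Units.val_one]
    exact (algebraMap K L).mapMatrix.map_one)
  refine ⟨ρ', ⟨Subgroup.isOpen_mono (fun σ hσ => MonoidHom.mem_ker.2
    (h1 σ (MonoidHom.mem_ker.1 hσ))) hρ.1, fun l hl hlp A hA =>
      ⟨fun σ hσ => h1 _ ((hρ.2 l hl hlp A hA).1 σ hσ), fun σ hσ => ?_⟩⟩, hρ'⟩
  obtain ⟨c, hc, ht, hd⟩ := (hρ.2 l hl hlp A hA).2 σ hσ
  refine ⟨c, hc, ?_, ?_⟩
  · rw [hρ', RingHom.comp_apply, ← ht]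
    exact (AddMonoidHom.map_trace (algebraMap K L).toAddMonoidHom _).symm
  · rw [hρ', ← map_natCast (algebraMap K L), ← hd]
    exact ((algebraMap K L).map_det _).symm

/-- **Chebotarev for the trace and a finite character**: where the character is not one and the
trace not zero, there are Frobenius elements. -/
theorem exists_prime_of_trace_ne (φ : ZB →+* K) {g : CuspForm (Gamma0 p) 2}
    {ρ : GQ →* GL (Fin 2) K} (hρ : IsTwoRep φ g ρ) {M : Type} [CommGroup M] (χ : GQ →* M)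
    (hχ : IsOpen (χ.ker : Set GQ)) (σ : GQ) (hσ : χ σ ≠ 1) (ht : (ρ σ).val.trace ≠ 0)
    (S : Finset ℕ) :
    ∃ l : ℕ, l.Prime ∧ l ∉ S ∧ l ≠ p ∧ (∃ c : ZB, (c : ℂ) = FA.Deform.qLin p g l ∧ φ c ≠ 0) ∧
      ∀ A : ValuationSubring Qb, A.LiesOverPrime l → ∀ τ : GQ, A.IsFrobeniusAt τ l → χ τ ≠ 1 := by
  classical
  have hopen := hρ.1
  have : Finite (GQ ⧸ ρ.ker) := Subgroup.quotient_finite_of_isOpen _ hopen
  have : Finite ρ.range := Finite.of_equiv _ (QuotientGroup.quotientKerEquivRange ρ).toEquiv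
  have : Finite (GQ ⧸ χ.ker) := Subgroup.quotient_finite_of_isOpen _ hχ
  have : Finite χ.range := Finite.of_equiv _ (QuotientGroup.quotientKerEquivRange χ).toEquiv
  obtain ⟨l, hl, hlS, h⟩ := FA.OpenImageAll.exists_frobenius_mem_of_mem
    (ρ.rangeRestrict.prod χ.rangeRestrict) (by
      rw [MonoidHom.ker_prod, MonoidHom.ker_rangeRestrict, MonoidHom.ker_rangeRestrict,
        Subgroup.coe_inf]
      exact hopen.inter hχ)
    (X := {x | x.1.1.val.trace ≠ 0 ∧ x.2 ≠ 1}) (fun x hx y => by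
      refine ⟨?_, ?_⟩
      · show (y.1.1 * x.1.1 * y.1.1⁻¹).val.trace ≠ 0
        rw [Units.val_mul, Units.val_mul, Matrix.trace_units_conj]
        exact hx.1
      · show y.2 * x.2 * y.2⁻¹ ≠ 1
        rw [mul_comm y.2, mul_inv_cancel_right]
        exact hx.2)
    (σ := σ) ⟨ht, fun e => hσ (congrArg Subtype.val e)⟩ (insert p S)
  rw [Finset.mem_insert, not_or] at hlS
  refine ⟨l, hl, hlS.2, hlS.1, ?_, fun A hA τ hτ e => (h A hA τ hτ).2 (Subtype.ext e)⟩
  obtain ⟨A, hA⟩ := FA.Deform.exists_liesOverPrime hl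
  obtain ⟨τ, hτ⟩ := FA.Deform.exists_isFrobeniusAt hl hA
  obtain ⟨hτd, hτf⟩ := hτ
  obtain ⟨c, hc, htr, -⟩ := (hρ.2 l hl hlS.1 A hA).2 ⟨τ, hτd⟩ hτf
  exact ⟨c, hc, htr ▸ (h A hA τ ⟨hτd, hτf⟩).1⟩

/-- No cusp form of weight `p + 1` is fixed by `θʲ` away from `p`, `0 < j < p - 1`. -/
theorem false_of_theta_fixed (h5 : 5 ≤ p) {v : PowerSeries (ZMod p)}
    (hv : IsFormModP p (p + 1) v) (h0 : coeff 0 v = 0) (h1 : coeff 1 v = 1) {j : ℕ} (hj0 : 0 < j)
    (hj : j < p - 1) (h : ∀ n : ℕ, ¬p ∣ n → (n : ZMod p) ^ j * coeff n v = coeff n v) : False := by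
  have e : (thetaP p)^[j] v = (thetaP p)^[p - 1] v := PowerSeries.ext fun n => by
    rw [FA.Partition.coeff_thetaP_iterate, FA.Partition.coeff_thetaP_iterate]
    by_cases hn : p ∣ n
    · rw [(ZMod.natCast_eq_zero_iff n p).2 hn, zero_pow (by omega), zero_pow (by omega)]
    · rw [h n hn, ZMod.pow_card_sub_one_eq_one
        (fun e => hn ((ZMod.natCast_eq_zero_iff n p).1 e)), one_mul]
  have hvl := isLeast_succ h5 hv h0 (ne_zero_of_coeff_one h1)
  have hdrop : ∀ i < p - 1, ¬p ∣ p + 1 + i := fun i hi hd => by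
    rw [show p + 1 + i = i + 1 + p by ring, Nat.dvd_add_self_right] at hd
    exact absurd (Nat.le_of_dvd (by omega) hd) (by omega)
  have hA := isLeast_theta_iterate h5 h1 hvl j fun i hi => hdrop i (by omega)
  rw [e] at hA
  have := hA.unique (isLeast_theta_iterate h5 h1 hvl (p - 1) hdrop)
  have h' : j * (p + 1) = (p - 1) * (p + 1) := by omega
  exact absurd (Nat.eq_of_mul_eq_mul_right (by omega) h') hj.ne

/-- A functional of a system is a cusp form of weight `p + 1` modulo `p`. -/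
theorem exists_modP_functional (h5 : 5 ≤ p) (ψ : FA.Mazur.TAlg p →+ ZMod p) :
    ∃ v : PowerSeries (ZMod p), IsFormModP p (p + 1) v ∧ coeff 0 v = 0 ∧
      ∀ n, coeff n v = ψ (FA.Mazur.hCoeff p n) := by
  obtain ⟨f, hf⟩ := FA.PrimeLevelDuality.exists_form_mod p ψ
  obtain ⟨hform, h0⟩ := ((redLattice_spec (p := p) h5).1 _).1 ⟨f, rfl⟩
  exact ⟨_, hform, h0, fun n => by rw [coeff_redLattice, ← FA.Mazur.pairT_hCoeff, hf]⟩

/-- **No twist of the system.** -/
theorem two_twist_values (h5 : 5 ≤ p) (φ : ZB →+* K) {g : CuspForm (Gamma0 p) 2}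
    (hg : g.IsNormalizedEigenform) {j : ℕ} (hj : ¬p - 1 ∣ j) :
    ∃ l : ℕ, l.Prime ∧ l ≠ p ∧ ∀ c : ZB, (c : ℂ) = FA.Deform.qLin p g l →
      (l : K) ^ j * φ c ≠ φ c := by
  classical
  by_contra hall
  push Not at hall
  have hp : p.Prime := Fact.out
  have hpo : p % 2 = 1 := Nat.odd_iff.1 (hp.odd_of_ne_two (by omega))
  obtain ⟨ρ, hρ⟩ := exists_isTwoRep φ hg
  -- where the power of the character is not one the trace vanishes
  obtain ⟨χj, hχj⟩ : ∃ χj : GQ →* (ZMod p)ˣ, ∀ σ, χj σ = FA.Weight1.cycM p σ ^ j :=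
    ⟨(powMonoidHom j).comp (FA.Weight1.cycM p), fun _ => rfl⟩
  have hopen : IsOpen (χj.ker : Set GQ) := by
    obtain ⟨F, hF, hFc⟩ := FA.Weight1.exists_field_cycM p
    exact Subgroup.isOpen_mono (fun τ hτ => MonoidHom.mem_ker.2 (by
      rw [hχj, hFc τ ((IntermediateField.mem_fixingSubgroup_iff _ _).1 hτ), one_pow]))
      F.fixingSubgroup_isOpen
  have hzero : ∀ σ, χj σ ≠ 1 → (ρ σ).val.trace = 0 := fun σ hσ => by
    by_contra ht
    obtain ⟨l, hl, -, hlp, ⟨c, hc, hc0⟩, hne⟩ :=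
      exists_prime_of_trace_ne φ hρ χj hopen σ hσ ht ∅
    obtain ⟨c', hc', he⟩ := hall l hl hlp
    rw [show c' = c from Subtype.ext (hc'.trans hc.symm)] at he
    obtain ⟨A, hA⟩ := FA.Deform.exists_liesOverPrime hl
    obtain ⟨τ, hτ⟩ := FA.Deform.exists_isFrobeniusAt hl hA
    refine hne A hA τ hτ (Units.ext (ZMod.castHom_injective K ?_))
    rw [hχj, Units.val_pow_eq_pow_val, FA.Weight1.cycM_frobenius p hl
      (fun hd => hlp ((Nat.prime_dvd_prime_iff_eq hl hp).1 hd)) hA hτ, Units.val_one, map_pow,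
      map_natCast, map_one]
    exact mul_right_cancel₀ hc0 (by rw [he, one_mul])
  -- so its square is one
  have h2K : (2 : K) ≠ 0 := fun e => by
    have := (CharP.cast_eq_zero_iff K p 2).1 (by exact_mod_cast e)
    have := Nat.le_of_dvd two_pos this
    omega
  have hsq : ∀ σ, χj σ * χj σ = 1 := fun σ => by
    by_contra hσ2
    have hσ : χj σ ≠ 1 := fun e => hσ2 (by rw [e, one_mul])
    have t1 := hzero σ hσ
    have t2 := hzero (σ * σ) (by rwa [map_mul])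
    rw [map_mul, Units.val_mul, Matrix.trace_fin_two] at t2
    rw [Matrix.trace_fin_two] at t1
    simp only [Matrix.mul_apply, Fin.sum_univ_two] at t2
    have hdet : (ρ σ).val.det = 0 := by
      rw [Matrix.det_fin_two]
      refine mul_left_cancel₀ h2K ?_
      linear_combination ((ρ σ).val 0 0 + (ρ σ).val 1 1) * t1 - t2
    exact (Matrix.isUnit_iff_isUnit_det _).1 (ρ σ).isUnit |>.ne_zero hdet
  have hl2 : ∀ n : ℕ, ¬p ∣ n → (n : ZMod p) ^ (2 * j) = 1 := fun n hn => by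
    obtain ⟨σ, hσ⟩ := FA.AbelianInverseGalois.cycM_surjective p
      (ZMod.unitOfCoprime n ((hp.coprime_iff_not_dvd.2 hn).symm))
    have := congrArg Units.val (hsq σ)
    rwa [hχj, hσ, ← pow_add, ← two_mul, Units.val_pow_eq_pow_val, ZMod.coe_unitOfCoprime,
      Units.val_one] at this
  -- the values at all indices prime to `p`
  obtain ⟨χ, hχ⟩ := exists_charZB hg
  have key : ∀ n : ℕ, 1 ≤ n → ¬p ∣ n → (n : K) ^ j * φ (χ (FA.Mazur.hCoeff p n)) =
      φ (χ (FA.Mazur.hCoeff p n)) := fun n hn => by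
    refine prime_induction (Q := fun n => ¬p ∣ n → (n : K) ^ j * φ (χ (FA.Mazur.hCoeff p n)) =
      φ (χ (FA.Mazur.hCoeff p n))) (fun _ => by rw [Nat.cast_one, one_pow, one_mul])
      (fun l i hl hi hA hB => ?_) hn
    intro hli
    have hlp : l ≠ p := fun e => hli (e ▸ dvd_mul_left l i)
    have hip : ¬p ∣ i := fun e => hli (e.mul_right l)
    obtain ⟨r, hr⟩ : ∃ r : Nat.Primes, (r : ℕ) = l := ⟨⟨l, hl⟩, rfl⟩
    obtain ⟨c, hc, he⟩ := hall l hl hlp
    rw [show c = χ (FA.Mazur.tGen p r) from Subtype.ext (by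
      rw [hc, ← FA.Mazur.hCoeff_prime, hχ, hr])] at he
    rw [show FA.Mazur.hCoeff p (i * l) = _ from hr ▸ eq_sub_of_add_eq
      (FA.Mazur.tGen_mul_hCoeff p r i).symm, if_neg hlp]
    have hAe := hA hip
    by_cases hd : l ∣ i
    · have hBe := hB hd fun e => hip (e.trans (Nat.div_dvd_of_dvd hd))
      rw [if_pos hd, map_sub, map_sub, map_mul, map_mul, map_mul, map_mul, map_natCast,
        map_natCast]
      obtain ⟨s, rfl⟩ := hd
      rw [Nat.mul_div_cancel_left s hl.pos] at hBe ⊢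
      have hll : ((l : K) ^ j) ^ 2 = 1 := by
        rw [← pow_mul, mul_comm, ← map_natCast (ZMod.castHom (dvd_refl p) K), ← map_pow,
          hl2 l (fun e => hlp ((Nat.prime_dvd_prime_iff_eq hp hl).1 e).symm), map_one]
      push_cast at hAe hBe ⊢
      rw [mul_pow] at hAe
      rw [mul_pow, mul_pow]
      linear_combination ((l : K) ^ j * (s : K) ^ j * φ (χ (FA.Mazur.hCoeff p (l * s)))) * he +
        φ (χ (FA.Mazur.tGen p r)) * hAe -
        ((l : K) * (s : K) ^ j * φ (χ (FA.Mazur.hCoeff p s))) * hll - (l : K) * hBe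
    · rw [if_neg hd, sub_zero, map_mul, map_mul, Nat.cast_mul, mul_pow]
      linear_combination ((i : K) ^ j * φ (χ (FA.Mazur.hCoeff p i))) * he +
        φ (χ (FA.Mazur.tGen p r)) * hAe
  -- a functional
  let : Algebra (ZMod p) K := ZMod.algebra K p
  obtain ⟨lam, hlam⟩ := (Algebra.linearMap (ZMod p) K).exists_leftInverse_of_injective
    (LinearMap.ker_eq_bot.2 (algebraMap (ZMod p) K).injective)
  obtain ⟨ψ, hψ⟩ : ∃ ψ : FA.Mazur.TAlg p →+ ZMod p, ∀ t, ψ t = lam (φ (χ t)) :=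
    ⟨lam.toAddMonoidHom.comp (φ.comp χ).toAddMonoidHom, fun _ => rfl⟩
  obtain ⟨v, hv, h0, hvn⟩ := exists_modP_functional h5 ψ
  have h1 : coeff 1 v = 1 := by
    rw [hvn, hψ, FA.Mazur.hCoeff_one, map_one, map_one, ← map_one (algebraMap (ZMod p) K)]
    exact LinearMap.congr_fun hlam 1
  refine false_of_theta_fixed h5 hv h0 h1 (j := j % (p - 1))
    (Nat.pos_of_ne_zero fun e => hj (Nat.dvd_of_mod_eq_zero e)) (Nat.mod_lt _ (by omega))
    fun n hn => ?_
  rw [pow_eq_pow_of_modEq (Nat.mod_modEq j (p - 1)) (ZMod.pow_card_sub_one_eq_one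
    fun e => hn ((ZMod.natCast_eq_zero_iff n p).1 e)), hvn, hψ, ← smul_eq_mul, ← map_smul,
    Algebra.smul_def, map_pow, map_natCast,
    key n (Nat.pos_of_ne_zero fun e => hn (e ▸ dvd_zero p)) hn]

/-- **No character fixes the trace.** -/
theorem two_no_selfTwist (h5 : 5 ≤ p) (φ : ZB →+* K) {g : CuspForm (Gamma0 p) 2}
    (hg : g.IsNormalizedEigenform) {ρ : GQ →* GL (Fin 2) K} (hρ : IsTwoRep φ g ρ)
    (χ : GQ →* Kˣ) (h : ∀ σ, (χ σ : K) * (ρ σ).val.trace = (ρ σ).val.trace) : χ = 1 := by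
  have hp : p.Prime := Fact.out
  have h2K : (2 : K) ≠ 0 := fun e => by
    have := Nat.le_of_dvd two_pos ((CharP.cast_eq_zero_iff K p 2).1 (by exact_mod_cast e))
    omega
  have hker : ∀ σ, ρ σ = 1 → χ σ = 1 := fun σ hσ => Units.ext (by
    have := h σ
    rw [hσ, Units.val_one, Matrix.trace_one, Fintype.card_fin] at this
    push_cast at this
    rw [Units.val_one]
    exact mul_right_cancel₀ h2K (by rw [this, one_mul]))
  obtain ⟨a, ha⟩ := exists_pow_cycM χ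
    (Subgroup.isOpen_mono (fun σ hσ => MonoidHom.mem_ker.2 (hker σ (MonoidHom.mem_ker.1 hσ))) hρ.1)
    fun l hl hlp A hA σ hσ => by
      obtain ⟨τ, hτ, rfl⟩ := Subgroup.mem_map.1 hσ
      exact hker _ ((hρ.2 l hl hlp A hA).1 τ hτ)
  have hdvd : p - 1 ∣ a := by
    by_contra hne
    obtain ⟨l, hl, hlp, hl'⟩ := two_twist_values h5 φ hg hne
    obtain ⟨A, hA⟩ := FA.Deform.exists_liesOverPrime hl
    obtain ⟨σ, hσd, hσf⟩ := FA.Deform.exists_isFrobeniusAt hl hA
    obtain ⟨c, hc, ht, -⟩ := (hρ.2 l hl hlp A hA).2 ⟨σ, hσd⟩ hσf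
    refine hl' c hc ?_
    have := h σ
    rwa [ha, FA.Weight1.cycM_frobenius p hl
      (fun hd => hlp ((Nat.prime_dvd_prime_iff_eq hl hp).1 hd)) hA ⟨hσd, hσf⟩, map_natCast,
      ht] at this
  obtain ⟨b, rfl⟩ := hdvd
  refine MonoidHom.ext fun σ => Units.ext ?_
  rw [ha, pow_mul, ← map_pow, ← Units.val_pow_eq_pow_val, ZMod.units_pow_card_sub_one_eq_one,
    Units.val_one, map_one, one_pow]
  rfl

/-- **No stable line on a subgroup with abelian quotient.** -/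
theorem two_no_line_abelian (h5 : 5 ≤ p) (φ : ZB →+* K) {g : CuspForm (Gamma0 p) 2}
    (hg : g.IsNormalizedEigenform) {ρ : GQ →* GL (Fin 2) K} (hρ : IsTwoRep φ g ρ)
    (H : Subgroup GQ) [H.Normal] (hab : ∀ σ τ : GQ, σ * τ * σ⁻¹ * τ⁻¹ ∈ H) (L : Type) [Field L]
    [Algebra K L] {v : Fin 2 → L} (hv : v ≠ 0) :
    ∃ σ ∈ H, ∀ c : L, (ρ σ).val.map (algebraMap K L) *ᵥ v ≠ c • v := by
  by_contra hall
  push Not at hall
  have : CharP L p := charP_of_injective_algebraMap (algebraMap K L).injective p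
  have : CharP (AlgebraicClosure L) p :=
    charP_of_injective_algebraMap (algebraMap L (AlgebraicClosure L)).injective p
  obtain ⟨ρ₁, hρ₁, hval₁⟩ := hρ.map L
  obtain ⟨ρ₂, hρ₂, hval₂⟩ := hρ₁.map (AlgebraicClosure L)
  obtain ⟨e, he⟩ : ∃ e : L →+* AlgebraicClosure L, e = algebraMap L (AlgebraicClosure L) := ⟨_, rfl⟩
  have h2 : (2 : AlgebraicClosure L) ≠ 0 := fun h => by
    have := Nat.le_of_dvd two_pos
      ((CharP.cast_eq_zero_iff (AlgebraicClosure L) p 2).1 (by exact_mod_cast h))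
    omega
  obtain ⟨χ, hχ1, hχ⟩ := exists_selfTwist h2 ρ₂
    (fun w hw => two_no_stable_line h5 _ hg ρ₂ hρ₂.1 hρ₂.2 hw) H hab (v := e ∘ v)
    (fun h0 => hv (funext fun i => e.injective (by rw [Pi.zero_apply, map_zero]; exact congrFun h0 i)))
    fun σ hσ => by
      obtain ⟨c, hc⟩ := hall σ hσ
      refine ⟨e c, funext fun i => ?_⟩
      rw [hval₂, hval₁, ← he, ← RingHom.map_mulVec, hc, Pi.smul_apply, Pi.smul_apply, smul_eq_mul,
        smul_eq_mul, map_mul]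
      rfl
  exact hχ1 (two_no_selfTwist h5 _ hg hρ₂ χ hχ)

/-- The image of such a subgroup is not commutative. -/
theorem two_not_comm (h5 : 5 ≤ p) (φ : ZB →+* K) {g : CuspForm (Gamma0 p) 2}
    (hg : g.IsNormalizedEigenform) {ρ : GQ →* GL (Fin 2) K} (hρ : IsTwoRep φ g ρ)
    (H : Subgroup GQ) [H.Normal] (hab : ∀ σ τ : GQ, σ * τ * σ⁻¹ * τ⁻¹ ∈ H) :
    ∃ σ ∈ H, ∃ τ ∈ H, ρ σ * ρ τ ≠ ρ τ * ρ σ := by
  by_contra hall
  push Not at hall
  obtain ⟨ρ', -, hval⟩ := hρ.map (AlgebraicClosure K)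
  obtain ⟨v, hv, hst⟩ := exists_line_of_comm (ρ'.comp H.subtype) fun a b => by
    show (ρ' a.1).val * (ρ' b.1).val = (ρ' b.1).val * (ρ' a.1).val
    simp only [hval]
    rw [← Matrix.map_mul, ← Matrix.map_mul, ← Units.val_mul, ← Units.val_mul,
      hall a.1 a.2 b.1 b.2]
  obtain ⟨σ, hσ, h⟩ := two_no_line_abelian h5 φ hg hρ H hab (AlgebraicClosure K) hv
  obtain ⟨c, hc⟩ := hst ⟨σ, hσ⟩
  exact h c (by rw [← hval]; exact hc)

/-- The image is not abelian modulo the scalars. -/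
theorem two_projective_not_comm (h5 : 5 ≤ p) (φ : ZB →+* K) {g : CuspForm (Gamma0 p) 2}
    (hg : g.IsNormalizedEigenform) {ρ : GQ →* GL (Fin 2) K} (hρ : IsTwoRep φ g ρ) :
    ∃ σ τ : GQ, ∀ c : K, (ρ σ).val * (ρ τ).val ≠ c • ((ρ τ).val * (ρ σ).val) := by
  by_contra hall
  push Not at hall
  obtain ⟨H, hH⟩ : ∃ H : Subgroup GQ,
      H = (Subgroup.center (GL (Fin 2) K)).comap ρ := ⟨_, rfl⟩
  have : H.Normal := hH ▸ inferInstance
  obtain ⟨σ, hσ, τ, hτ, hne⟩ := two_not_comm h5 φ hg hρ H fun σ τ => by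
    rw [hH, Subgroup.mem_comap, Subgroup.mem_center_iff]
    intro x
    obtain ⟨c, hc⟩ := hall σ τ
    have e : (ρ (σ * τ * σ⁻¹ * τ⁻¹)).val = c • 1 := by
      rw [show σ * τ * σ⁻¹ * τ⁻¹ = σ * τ * (τ * σ)⁻¹ by group, map_mul, map_mul, map_inv, map_mul,
        Units.val_mul, Units.val_mul, hc, smul_mul_assoc, ← Units.val_mul, ← Units.val_mul,
        mul_inv_cancel, Units.val_one]
    refine Units.ext ?_
    rw [Units.val_mul, Units.val_mul, e, mul_smul_comm, smul_mul_assoc, mul_one, one_mul]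
  rw [hH, Subgroup.mem_comap, Subgroup.mem_center_iff] at hσ
  exact hne (hσ (ρ τ)).symm

/-- **Nonvanishing where a character is not trivial.** -/
theorem two_trace_ne_zero (h5 : 5 ≤ p) (φ : ZB →+* K) {g : CuspForm (Gamma0 p) 2}
    (hg : g.IsNormalizedEigenform) {M : Type} [CommGroup M] (χ : GQ →* M)
    (hχ : IsOpen (χ.ker : Set GQ)) (hne : χ ≠ 1) (S : Finset ℕ) :
    ∃ l : ℕ, l.Prime ∧ l ∉ S ∧ l ≠ p ∧ (∃ c : ZB, (c : ℂ) = FA.Deform.qLin p g l ∧ φ c ≠ 0) ∧
      ∀ A : ValuationSubring Qb, A.LiesOverPrime l → ∀ τ : GQ, A.IsFrobeniusAt τ l → χ τ ≠ 1 := by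
  obtain ⟨ρ, hρ⟩ := exists_isTwoRep φ hg
  by_contra hcon
  -- the trace vanishes off the kernel, whose image spans all matrices
  have hz : ∀ σ, χ σ ≠ 1 → (ρ σ).val.trace = 0 := fun σ hσ => by_contra fun ht =>
    hcon (exists_prime_of_trace_ne φ hρ χ hχ σ hσ ht S)
  obtain ⟨σ₀, hσ₀⟩ : ∃ σ, χ σ ≠ 1 := by
    by_contra! h
    exact hne (MonoidHom.ext h)
  have hspan := FA.Density.span_range_eq_top (((Units.coeHom _).comp ρ).comp χ.ker.subtype)
    (AlgebraicClosure K) fun v hv => by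
      obtain ⟨σ, hσ, h⟩ := two_no_line_abelian h5 φ hg hρ χ.ker (fun σ τ => by
        rw [MonoidHom.mem_ker, map_mul, map_mul, map_mul, map_inv, map_inv, mul_comm (χ σ),
          mul_inv_cancel_right, mul_inv_cancel]) (AlgebraicClosure K) hv
      exact ⟨⟨σ, hσ⟩, h⟩
  have hall : ∀ X : Matrix (Fin 2) (Fin 2) K, ((ρ σ₀).val * X).trace = 0 := fun X => by
    have hX : X ∈ Submodule.span K (Set.range (((Units.coeHom _).comp ρ).comp χ.ker.subtype)) :=
      hspan ▸ Submodule.mem_top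
    induction hX using Submodule.span_induction with
    | mem Y hY =>
      obtain ⟨⟨τ, hτ⟩, rfl⟩ := hY
      show ((ρ σ₀).val * (ρ τ).val).trace = 0
      rw [← Units.val_mul, ← map_mul]
      exact hz _ (by rwa [map_mul, MonoidHom.mem_ker.1 hτ, mul_one])
    | zero => rw [mul_zero, Matrix.trace_zero]
    | add Y Z _ _ hY hZ => rw [mul_add, Matrix.trace_add, hY, hZ, add_zero]
    | smul c Y _ hY => rw [mul_smul_comm, Matrix.trace_smul, hY, smul_zero]
  refine (ρ σ₀).ne_zero (Matrix.ext fun i j => ?_)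
  have h := hall (Matrix.single j i 1)
  fin_cases i <;> fin_cases j <;>
    simpa [Matrix.trace_fin_two, Matrix.mul_apply, Fin.sum_univ_two, Matrix.single] using h

end FA.WeightTwoOrdinary

end
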