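import Fermat.Agent.WeightTwoOrdinary.LocalShape
import Fermat.Agent.WeightTwoOrdinary.Twist
import Fermat.Agent.SerreLarge.Klein
import Fermat.Agent.Ribet.SerreSurjective
import Fermat.Agent.Ribet.Serre

/-!
# The ordinary line and the image of a system modulo `p`

A representation attached to a system modulo `p` of the Hecke algebra of level `p` is ordinary at
`p`, some element of inertia has projective order `p - 1`, and so, as it is irreducible on
subgroups with abelian quotient, its image has elements of order `p`.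
-/

set_option autoImplicit false
set_option linter.style.haveILetI false
set_option linter.unusedSectionVars false
set_option synthInstance.maxHeartbeats 400000
set_option maxHeartbeats 2000000

noncomputable section

open ModularCurve FA.Mazur FA.JTorsion FA.ModField FA.LocalDef
open scoped Matrix

local notation "Qb" => AlgebraicClosure ℚ
local notation "GQ" => AlgebraicClosure ℚ ≃ₐ[ℚ] AlgebraicClosure ℚ

namespace FA.WeightTwoOrdinary

variable {p : ℕ} [hp : Fact p.Prime] {k : Type} [Field k] [CharP k p]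

variable (θ : TAlg p →+* k) (r : GQ →* Matrix (Fin 2) (Fin 2) k)

/-- A representation with open kernel and the traces and determinants of a system outside `S`. -/
def IsSystemRep (S : Finset ℕ) : Prop :=
  IsOpen (r.ker : Set GQ) ∧ ∀ q : Nat.Primes, (q : ℕ) ∉ S → (q : ℕ) ≠ p →
    ∀ A : ValuationSubring Qb, A.LiesOverPrime q → ∀ σ : GQ, A.IsFrobeniusAt σ q →
      (r σ).trace = θ (tGen p q) ∧ (r σ).det = ((q : ℕ) : k)

variable {θ r} {S : Finset ℕ}

theorem IsSystemRep.map (h : IsSystemRep θ r S) {K : Type} [Field K] (e : k →+* K) :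
    IsSystemRep (e.comp θ) (e.mapMatrix.toMonoidHom.comp r) S := by
  refine ⟨Subgroup.isOpen_mono (fun σ hσ => MonoidHom.mem_ker.2 ?_) h.1,
    fun q hqS hqp A hA σ hσ => ?_⟩
  · show e.mapMatrix (r σ) = 1
    rw [MonoidHom.mem_ker.1 hσ, map_one]
  · obtain ⟨ht, hd⟩ := h.2 q hqS hqp A hA σ hσ
    refine ⟨?_, ?_⟩
    · show ((r σ).map e).trace = e (θ (tGen p q))
      rw [← ht]
      exact (AddMonoidHom.map_trace e.toAddMonoidHom _).symm
    · show ((r σ).map e).det = _
      rw [← map_natCast e, ← hd]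
      exact (e.map_det _).symm

/-- The determinant is the cyclotomic character. -/
theorem IsSystemRep.det_eq (h : IsSystemRep θ r S) {ζ : Qb} (hζ : IsPrimitiveRoot ζ p) (σ : GQ)
    {m : ℕ} (hm : σ ζ = ζ ^ m) : (r σ).det = (m : k) := by
  classical
  obtain ⟨L, hL, hLχ⟩ := exists_field_cycK p k
  have hcyc : IsOpen ((cycK p k).ker : Set GQ) := isOpen_ker_of_field (cycK p k) ⟨L, hL, hLχ⟩
  have hN : IsOpen ((r.ker ⊓ (cycK p k).ker : Subgroup GQ) : Set GQ) := by
    rw [Subgroup.coe_inf]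
    exact h.1.inter hcyc
  have hall := FA.Density.forall_of_frobenius_pow _ hN
    (fun g => (r g).det = ((cycK p k g : kˣ) : k)) (fun g n hn hg => by
      rw [map_mul, map_mul, MonoidHom.mem_ker.1 hn.1, MonoidHom.mem_ker.1 hn.2, mul_one, mul_one]
      exact hg) (insert p S) (fun q hq hqS A hA τ hτ j => by
      rw [Finset.mem_insert, not_or] at hqS
      rw [map_pow, map_pow, Matrix.det_pow, Units.val_pow_eq_pow_val,
        cycK_frobenius p k hq hqS.1 hA hτ, (h.2 ⟨q, hq⟩ hqS.2 hqS.1 A hA τ hτ).2]) σ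
  rw [hall, ← map_natCast (ZMod.castHom (dvd_refl p) k), ← FA.EisReducible.cycK_eq hζ hm,
    cycK_val, cycK_val, ← RingHom.comp_apply]
  show _ = ((ZMod.castHom (dvd_refl p) k).comp (ZMod.castHom (dvd_pow_self p one_ne_zero) (ZMod p)))
    (((cycP p σ : ℤ_[p]ˣ) : ℤ_[p]).toZModPow 1)
  rw [Subsingleton.elim ((ZMod.castHom (dvd_refl p) k).comp
    (ZMod.castHom (dvd_pow_self p one_ne_zero) (ZMod p))) (ZMod.castHom (dvd_pow_self p one_ne_zero) k)]
  rfl

/-- No stable line, over every extension. -/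
theorem IsSystemRep.span (h : IsSystemRep θ r S) (h5 : 5 ≤ p) :
    Submodule.span k (Set.range r) = ⊤ := by
  haveI : CharP (AlgebraicClosure k) p :=
    charP_of_injective_algebraMap (algebraMap k (AlgebraicClosure k)).injective p
  have h' := h.map (algebraMap k (AlgebraicClosure k))
  exact FA.Density.span_range_eq_top r (AlgebraicClosure k) fun v hv =>
    no_line_of_system h5 _ _ h'.1 S h'.2 v hv

/-- **The relation of the displacements at `p`.** -/
theorem IsSystemRep.inertia_relation (h : IsSystemRep θ r S) (h5 : 5 ≤ p)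
    {A : ValuationSubring Qb} (hA : A.LiesOverPrime p) {ζ : Qb} (hζ : IsPrimitiveRoot ζ p)
    {σ τ : GQ} (hσ : σ ∈ A.inertiaSubgroupIn ℚ) (hτ : τ ∈ A.inertiaSubgroupIn ℚ) {m : ℕ}
    (hm : σ ζ = ζ ^ m) : (r σ - (m : k) • 1) * (r τ - 1) = 0 := by
  obtain ⟨alg⟩ := exists_algebra_qbar
  letI := alg
  haveI : NeZero p := ⟨hp.out.ne_zero⟩
  exact relation_of_span h5 θ r h.1 S h.2 (h.span h5) hA hζ hσ hτ hm

/-- A matrix with the eigenvalues `a` and `1`: its powers. -/
theorem smul_pow_of_roots {M : Matrix (Fin 2) (Fin 2) k} {a : k}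
    (hM : (M - a • 1) * (M - 1) = 0) (n : ℕ) :
    (1 - a) • M ^ n = (M - a • 1) - a ^ n • (M - 1) := by
  induction n with
  | zero => rw [pow_zero, pow_zero, one_smul, sub_smul, one_smul]; abel
  | succ n ih =>
    have h1 : M * (M - a • 1) = M - a • 1 := by
      rw [← sub_eq_zero, show M * (M - a • 1) - (M - a • 1) = (M - a • 1) * (M - 1) by
        simp only [mul_sub, sub_mul, smul_mul_assoc, mul_smul_comm, one_mul, mul_one]
        , hM]
    have h2 : M * (M - 1) = a • (M - 1) := by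
      rw [sub_mul, sub_eq_zero, smul_mul_assoc, one_mul] at hM
      exact hM
    rw [pow_succ', ← mul_smul_comm, ih, mul_sub, h1, mul_smul_comm, h2, smul_smul, pow_succ]

/-- **Ordinary at `p`**: a line on which inertia acts by the cyclotomic character, stable under
the decomposition group, with unramified quotient. -/
theorem IsSystemRep.exists_ordinary_line (h : IsSystemRep θ r S) (h5 : 5 ≤ p)
    {A : ValuationSubring Qb} (hA : A.LiesOverPrime p) {ζ : Qb} (hζ : IsPrimitiveRoot ζ p) :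
    ∃ v : Fin 2 → k, v ≠ 0 ∧ (∀ δ ∈ A.decompositionSubgroup ℚ, ∃ c : k, r δ *ᵥ v = c • v) ∧
      (∀ σ ∈ A.inertiaSubgroupIn ℚ, ∀ m : ℕ, σ ζ = ζ ^ m → r σ *ᵥ v = (m : k) • v) ∧
      ∀ σ ∈ A.inertiaSubgroupIn ℚ, ∀ w, ∃ c : k, r σ *ᵥ w - w = c • v := by
  classical
  obtain ⟨σ₀, hσ₀, hσ₀ζ⟩ := exists_inertia_zeta hp.out hA hζ (m := 2)
    (fun hd => by have := Nat.le_of_dvd two_pos hd; omega)
  have h2 : (2 : k) ≠ 0 := fun e => by
    have := Nat.le_of_dvd two_pos ((CharP.cast_eq_zero_iff k p 2).1 (by exact_mod_cast e))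
    omega
  have hd := h.det_eq hζ σ₀ hσ₀ζ
  have hrel := fun σ hσ τ hτ m hm => h.inertia_relation h5 hA hζ (σ := σ) (τ := τ) hσ hτ (m := m) hm
  have heig : ∀ σ ∈ A.inertiaSubgroupIn ℚ, ∀ τ ∈ A.inertiaSubgroupIn ℚ, ∀ m : ℕ, σ ζ = ζ ^ m →
      ∀ w, r σ *ᵥ (r τ *ᵥ w - w) = (m : k) • (r τ *ᵥ w - w) := by
    intro σ hσ τ hτ m hm w
    have e := congrArg (· *ᵥ w) (hrel σ hσ τ hτ m hm)
    simp only [← Matrix.mulVec_mulVec, Matrix.sub_mulVec, Matrix.smul_mulVec, Matrix.one_mulVec,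
      Matrix.zero_mulVec] at e
    exact sub_eq_zero.1 e
  obtain ⟨w₀, hw₀⟩ : ∃ w, r σ₀ *ᵥ w - w ≠ 0 := by
    by_contra hcon
    push Not at hcon
    have h1 : r σ₀ = 1 := Matrix.ext_of_mulVec_single fun i => by
      rw [sub_eq_zero.1 (hcon _), Matrix.one_mulVec]
    rw [h1, Matrix.det_one] at hd
    push_cast at hd
    exact one_ne_zero (by linear_combination -hd : (1 : k) = 0)
  set v := r σ₀ *ᵥ w₀ - w₀
  have hmem : ∀ u : Fin 2 → k, r σ₀ *ᵥ u = (2 : k) • u → ∃ c : k, u = c • v := by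
    intro u hu
    by_contra hcon
    push Not at hcon
    have hv2 : r σ₀ *ᵥ v = (2 : k) • v := by
      have := heig σ₀ hσ₀ σ₀ hσ₀ 2 hσ₀ζ w₀
      rwa [Nat.cast_ofNat] at this
    rw [eq_scalar_of_two hw₀ hcon hv2 hu, Matrix.det_smul, Matrix.det_one, Fintype.card_fin,
      mul_one] at hd
    push_cast at hd
    exact h2 (by linear_combination hd)
  refine ⟨v, hw₀, fun δ hδ => hmem _ ?_, fun σ hσ m hm => heig σ hσ σ₀ hσ₀ m hm w₀,
    fun σ hσ w => hmem _ (by
      have := heig σ₀ hσ₀ σ hσ 2 hσ₀ζ w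
      rwa [Nat.cast_ofNat] at this)⟩
  have hconj := conj_inv_mem_inertia hp.out hA hδ hσ₀
  obtain ⟨a, -, ha⟩ := exists_zeta_pow hζ δ
  have hcζ : (δ⁻¹ * σ₀ * δ) ζ = ζ ^ 2 := by
    have hδi : δ⁻¹ (δ ζ) = ζ := by rw [← AlgEquiv.mul_apply, inv_mul_cancel]; rfl
    rw [AlgEquiv.mul_apply, AlgEquiv.mul_apply, ha, map_pow, hσ₀ζ, ← pow_mul, mul_comm, pow_mul,
      ← ha, map_pow, hδi]
  have e : r δ * r (δ⁻¹ * σ₀ * δ) = r σ₀ * r δ := by
    rw [← map_mul, ← map_mul]
    congr 1
    group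
  have := heig _ hconj σ₀ hσ₀ 2 hcζ w₀
  rw [Matrix.mulVec_mulVec, ← e, ← Matrix.mulVec_mulVec, this, Matrix.mulVec_smul, Nat.cast_ofNat]

/-- **An element of inertia at `p` of projective order `p - 1`.** -/
theorem IsSystemRep.exists_inertia_order (h : IsSystemRep θ r S) (h5 : 5 ≤ p)
    {A : ValuationSubring Qb} (hA : A.LiesOverPrime p) :
    ∃ σ ∈ A.inertiaSubgroupIn ℚ, ∀ n : ℕ,
      (p - 1 ∣ n → r σ ^ n = 1) ∧ ∀ c : k, r σ ^ n = c • 1 → p - 1 ∣ n := by
  classical
  obtain ⟨ζ, hζ⟩ := FA.LocalDef.exists_zeta hp.out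
  obtain ⟨g, hg⟩ := IsCyclic.exists_generator (α := (ZMod p)ˣ)
  have hord : orderOf (g : ZMod p) = p - 1 := by
    rw [orderOf_units, orderOf_eq_card_of_forall_mem_zpowers hg, Nat.card_units, Nat.card_zmod]
  obtain ⟨σ, hσ, hm⟩ := exists_inertia_zeta hp.out hA hζ (m := (g : ZMod p).val) fun hd => by
    exact g.ne_zero ((ZMod.natCast_zmod_val (g : ZMod p)).symm.trans
      ((ZMod.natCast_eq_zero_iff _ p).2 hd))
  set a : k := ((g : ZMod p).val : k) with ha
  have hcast : a = ZMod.castHom (dvd_refl p) k (g : ZMod p) := by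
    rw [ha, ← map_natCast (ZMod.castHom (dvd_refl p) k), ZMod.natCast_zmod_val]
  have hpow : ∀ n : ℕ, a ^ n = 1 ↔ p - 1 ∣ n := fun n => by
    rw [← hord, orderOf_dvd_iff_pow_eq_one, hcast, ← map_pow,
      ← map_one (ZMod.castHom (dvd_refl p) k)]
    exact (ZMod.castHom (dvd_refl p) k).injective.eq_iff
  have hrel := h.inertia_relation h5 hA hζ hσ hσ hm
  have ha1 : 1 - a ≠ 0 := fun e => by
    have h1 : p - 1 ∣ 1 := (hpow 1).1 (by rw [pow_one]; exact (sub_eq_zero.1 e).symm)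
    have := Nat.le_of_dvd one_pos h1
    omega
  refine ⟨σ, hσ, fun n => ⟨fun hn => ?_, fun c hc => ?_⟩⟩
  · refine smul_right_injective _ ha1 ?_
    show (1 - a) • r σ ^ n = (1 - a) • 1
    rw [smul_pow_of_roots hrel, (hpow n).2 hn, one_smul, sub_smul, one_smul]
    abel
  · obtain ⟨v, hv, -, hline, -⟩ := h.exists_ordinary_line h5 hA hζ
    have hvn : ∀ n : ℕ, r σ ^ n *ᵥ v = a ^ n • v := fun n => by
      induction n with
      | zero => rw [pow_zero, pow_zero, Matrix.one_mulVec, one_smul]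
      | succ n ih => rw [pow_succ', ← Matrix.mulVec_mulVec, ih, Matrix.mulVec_smul,
          hline σ hσ _ hm, smul_smul, pow_succ]
    have hca : c = a ^ n := smul_left_injective k hv (by
      show c • v = a ^ n • v
      rw [← hvn, hc, Matrix.smul_mulVec, Matrix.one_mulVec])
    have hdn := congrArg Matrix.det hc
    rw [Matrix.det_pow, h.det_eq hζ σ hm, Matrix.det_smul, Matrix.det_one, Fintype.card_fin,
      mul_one, ← ha, hca] at hdn
    have hne : a ^ n ≠ 0 := pow_ne_zero _ (by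
      rw [hcast]
      exact (map_ne_zero _).2 g.ne_zero)
    exact (hpow n).1 (mul_left_cancel₀ hne (by rw [mul_one, ← pow_two, ← hdn]))

/-- The representation is conjugate to one attached to an eigenform. -/
theorem IsSystemRep.exists_conj_two [IsAlgClosed k] (h : IsSystemRep θ r S) (h5 : 5 ≤ p) :
    ∃ (f : CuspForm (CongruenceSubgroup.Gamma0 p) 2) (_ : f.IsNormalizedEigenform)
      (φ : integralClosure ℤ ℂ →+* k) (ρ : GQ →* GL (Fin 2) k) (P : Matrix (Fin 2) (Fin 2) k),
      IsTwoRep φ f ρ ∧ IsUnit P.det ∧ ∀ σ, r σ * P = P * (ρ σ).val := by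
  classical
  obtain ⟨f, hf, φ, hφ⟩ := FA.Summary.prime_level_reduction (l := p) θ
  obtain ⟨ρ, hρ⟩ := exists_isTwoRep φ hf
  have htr := fun s => (FA.Density.trace_det_eq_of_frobenius ((Units.coeHom _).comp ρ) r
    (Subgroup.isOpen_mono (fun σ hσ => MonoidHom.mem_ker.2 (by
      rw [MonoidHom.comp_apply, MonoidHom.mem_ker.1 hσ, map_one])) hρ.1) h.1 (insert p S)
    (fun q hq hqS A hA σ hσ => by
      rw [Finset.mem_insert, not_or] at hqS
      obtain ⟨t, d⟩ := h.2 ⟨q, hq⟩ hqS.2 hqS.1 A hA σ hσ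
      obtain ⟨hσd, hσf⟩ := hσ
      obtain ⟨c, hc, ht, hd⟩ := (hρ.2 q hq hqS.1 A hA).2 ⟨σ, hσd⟩ hσf
      obtain ⟨c', hc', hc''⟩ := hφ q
      refine ⟨ht.trans ?_, hd.trans d.symm⟩
      rw [show c = c' from Subtype.ext (hc.trans ((FA.Deform.qLin_apply _ _).trans hc'.symm)),
        hc'', show FA.Mazur.hCoeff p q = tGen p ⟨q, hq⟩ from hCoeff_prime p ⟨q, hq⟩, t]) s).1
  obtain ⟨P, hP, hcomm⟩ := FA.Density.exists_conj_of_trace_eq ((Units.coeHom _).comp ρ) r
    (FA.Density.span_range_eq_top _ (AlgebraicClosure k) fun w hw =>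
      two_no_stable_line_ext h5 hf hρ _ hw) htr
  exact ⟨f, hf, φ, ρ, P, hρ, hP, hcomm⟩

/-- **No stable line on subgroups with abelian quotient.** -/
theorem IsSystemRep.no_line_abelian (h : IsSystemRep θ r S) (h5 : 5 ≤ p) (H : Subgroup GQ)
    [H.Normal] (hab : ∀ σ τ : GQ, σ * τ * σ⁻¹ * τ⁻¹ ∈ H) {v : Fin 2 → k} (hv : v ≠ 0) :
    ∃ σ ∈ H, ∀ c : k, r σ *ᵥ v ≠ c • v := by
  classical
  by_contra hall
  push Not at hall
  haveI : CharP (AlgebraicClosure k) p :=
    charP_of_injective_algebraMap (algebraMap k (AlgebraicClosure k)).injective p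
  obtain ⟨e, he⟩ : ∃ e : k →+* AlgebraicClosure k, e = algebraMap k (AlgebraicClosure k) :=
    ⟨_, rfl⟩
  obtain ⟨f, hf, φ, ρ, P, hρ, hP, hcomm⟩ := (h.map e).exists_conj_two h5
  have hw : P⁻¹ *ᵥ (e ∘ v) ≠ 0 := fun h' => hv (by
    have h'' := congrArg (fun w => P *ᵥ w) h'
    simp only [Matrix.mulVec_mulVec, Matrix.mul_nonsing_inv P hP, Matrix.one_mulVec,
      Matrix.mulVec_zero] at h''
    exact funext fun i => e.injective (by rw [Pi.zero_apply, map_zero]; exact congrFun h'' i))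
  obtain ⟨σ, hσH, hσ⟩ := two_no_line_abelian h5 φ hf hρ H hab (AlgebraicClosure k) hw
  obtain ⟨c, hc⟩ := hall σ hσH
  refine hσ (e c) ?_
  rw [Algebra.algebraMap_self, RingHom.coe_id, Matrix.map_id]
  have e1 : (ρ σ).val = P⁻¹ * ((r σ).map e * P) := by
    rw [show (r σ).map e * P = P * (ρ σ).val from hcomm σ, ← Matrix.mul_assoc,
      Matrix.nonsing_inv_mul P hP, Matrix.one_mul]
  have e2 : (r σ).map e *ᵥ (e ∘ v) = e c • (e ∘ v) := funext fun i => by
    rw [← RingHom.map_mulVec, hc, Pi.smul_apply, Pi.smul_apply, smul_eq_mul, smul_eq_mul, map_mul]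
    rfl
  rw [e1, Matrix.mulVec_mulVec, Matrix.mul_assoc, Matrix.mul_assoc,
    Matrix.mul_nonsing_inv P hP, Matrix.mul_one, ← Matrix.mulVec_mulVec, e2, Matrix.mulVec_smul]

/-- A system exists only for `p ≥ 7`, as level five has no cusp forms of weight two. -/
theorem seven_le_of_system (h5 : 5 ≤ p) (θ : TAlg p →+* k) : 7 ≤ p := by
  rcases Nat.lt_or_ge p 7 with h7 | h7
  swap
  · exact h7
  exfalso
  have hp5 : p = 5 := by
    interval_cases p
    · rfl
    · exact absurd hp.out (by norm_num)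
  subst hp5
  haveI : CharP (AlgebraicClosure k) 5 :=
    charP_of_injective_algebraMap (algebraMap k (AlgebraicClosure k)).injective 5
  obtain ⟨f, hf, -⟩ :=
    FA.Summary.prime_level_reduction (l := 5) ((algebraMap k (AlgebraicClosure k)).comp θ)
  have h0 : f = 0 := FA.Ribet.cuspForm_eq_zero_of_genusFormula
    (FA.Ribet.genusFormula_eq_zero (m := 10) (Or.inr rfl) (by norm_num)) f
  have h1 := hf.qCoeff_one
  rw [h0] at h1
  simp [ModularFormClass.qCoeff, UpperHalfPlane.qExpansion_zero] at h1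

/-- **The image has elements of order `p`.** -/
theorem IsSystemRep.exists_transvection [IsAlgClosed k] (h : IsSystemRep θ r S) (h5 : 5 ≤ p) :
    ∃ g, r g ≠ 1 ∧ (r g - 1) * (r g - 1) = 0 := by
  classical
  by_contra hcon
  push Not at hcon
  have hunip : ∀ g, (r g - 1) * (r g - 1) = 0 → r g = 1 := fun g hg => by_contra fun hne =>
    hcon g hne hg
  let u := r.toHomUnits
  let i : u.range →* Matrix (Fin 2) (Fin 2) k := (Units.coeHom _).comp u.range.subtype
  have hi : Function.Injective i := Units.val_injective.comp Subtype.val_injective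
  have hker : u.ker = r.ker := by
    ext g
    rw [MonoidHom.mem_ker, MonoidHom.mem_ker, Units.ext_iff]
    rfl
  haveI : Finite (GQ ⧸ u.ker) := by
    rw [hker]
    exact Subgroup.quotient_finite_of_isOpen _ h.1
  haveI : Finite u.range := Finite.of_equiv _ (QuotientGroup.quotientKerEquivRange u).toEquiv
  have h2 : (2 : k) ≠ 0 := fun e => by
    have := Nat.le_of_dvd two_pos ((CharP.cast_eq_zero_iff k p 2).1 (by exact_mod_cast e))
    omega
  have hcard : (Nat.card u.range : k) ≠ 0 := by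
    intro hc
    obtain ⟨g, hg⟩ := exists_prime_orderOf_dvd_card' p ((CharP.cast_eq_zero_iff k p _).mp hc)
    obtain ⟨_, g₀, rfl⟩ := g
    have hpow : r g₀ ^ p = 1 := congrArg i (hg ▸ pow_orderOf_eq_one (⟨u g₀, g₀, rfl⟩ : u.range))
    have hN : (r g₀ - 1) ^ p = 0 := by
      rw [sub_pow_char_of_commute p (Commute.one_right _), one_pow, hpow, sub_self]
    have h1 := hunip g₀ (FA.SerreLarge.mul_self_eq_zero_of_pow hp.out.ne_zero hN)
    refine hp.out.ne_one (hg ▸ orderOf_eq_one_iff.mpr (hi ?_))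
    rw [map_one]
    exact h1
  have h7 := seven_le_of_system h5 θ
  obtain ⟨A, hA⟩ := FA.Deform.exists_liesOverPrime hp.out
  obtain ⟨σ, -, hord⟩ := h.exists_inertia_order h5 hA
  have hns : ∀ n, 0 < n → n < 6 → ∀ c : k, r σ ^ n ≠ c • 1 := fun n h0 h6 c e => by
    have := Nat.le_of_dvd h0 ((hord n).2 c e)
    omega
  obtain ⟨C, hidx, hC, hcomm, -⟩ := FA.SerreLarge.dihedral_of_order_prime_to_char i hi h2 hcard
    (s := u.rangeRestrict σ) fun n h0 h6 e => hns n h0 h6 ((r (σ ^ n)) 0 0) (by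
      rw [← map_pow r]
      obtain ⟨a, b, c⟩ : FA.SerreLarge.IsScalarMat (r (σ ^ n)) := by
        rw [show r (σ ^ n) = i ((u.rangeRestrict σ) ^ n) by rw [← map_pow]; rfl]
        exact e
      ext i j; fin_cases i <;> fin_cases j <;> simp [a, b, ← c])
  obtain ⟨H, hH⟩ : ∃ H : Subgroup GQ, H = C.comap u.rangeRestrict := ⟨_, rfl⟩
  have hHidx : H.index = C.index := by
    rw [hH]
    exact Subgroup.index_comap_of_surjective C u.rangeRestrict_surjective
  have hne : C.index ≠ 0 := Subgroup.index_ne_zero_of_finite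
  have hab : ∀ a b : GQ, a * b * a⁻¹ * b⁻¹ ∈ H := by
    rcases (show H.index = 1 ∨ H.index = 2 by omega) with h1 | h2'
    · exact fun a b => Subgroup.index_eq_one.1 h1 ▸ Subgroup.mem_top _
    · intro a b
      rw [Subgroup.mul_mem_iff_of_index_two h2', Subgroup.mul_mem_iff_of_index_two h2',
        Subgroup.mul_mem_iff_of_index_two h2', H.inv_mem_iff, H.inv_mem_iff]
      tauto
  haveI : H.Normal := ⟨fun x hx y => by
    have := H.mul_mem (hab y x) hx
    rwa [inv_mul_cancel_right] at this⟩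
  have hσH : σ ∈ H := by
    rw [hH, Subgroup.mem_comap, hC, Subgroup.mem_centralizer_singleton_iff]
  obtain ⟨a, v, hv, hav⟩ := exists_eigenvector_two (r σ)
  obtain ⟨g, hgH, hg⟩ := h.no_line_abelian h5 H hab hv
  have hscal : r σ = a • 1 := by
    refine eq_scalar_of_two hv hg hav ?_
    have e := congrArg i (hcomm _ (hH ▸ hgH) _ (hH ▸ hσH))
    rw [map_mul, map_mul] at e
    rw [Matrix.mulVec_mulVec, show r σ * r g = r g * r σ from e.symm, ← Matrix.mulVec_mulVec, hav,
      Matrix.mulVec_smul]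
  exact hns 1 one_pos (by norm_num) a (by rw [pow_one, hscal])

/-- **Over the prime field the image is everything.** -/
theorem IsSystemRep.surjective {θ : TAlg p →+* ZMod p}
    {r : GQ →* Matrix (Fin 2) (Fin 2) (ZMod p)} (h : IsSystemRep θ r S) (h5 : 5 ≤ p)
    {X : Matrix (Fin 2) (Fin 2) (ZMod p)} (hX : X.det ≠ 0) : ∃ g, r g = X := by
  classical
  haveI : CharP (AlgebraicClosure (ZMod p)) p :=
    charP_of_injective_algebraMap (algebraMap (ZMod p) (AlgebraicClosure (ZMod p))).injective p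
  obtain ⟨e, he⟩ : ∃ e : ZMod p →+* AlgebraicClosure (ZMod p),
      e = algebraMap (ZMod p) (AlgebraicClosure (ZMod p)) := ⟨_, rfl⟩
  obtain ⟨g, hne, hsq⟩ := (h.map e).exists_transvection h5
  obtain ⟨ζ, hζ⟩ := FA.LocalDef.exists_zeta hp.out
  refine FA.Ribet.exists_eq_of_transvection r
    (fun v hv => no_line_of_system h5 θ r h.1 S h.2 v hv) (fun a ha => ?_) (σ := g)
    (fun e1 => hne ?_) ?_ hX
  · obtain ⟨A, hA⟩ := FA.Deform.exists_liesOverPrime hp.out
    obtain ⟨τ, -, hτ⟩ := exists_inertia_zeta hp.out hA hζ (m := a.val) fun hd => ha (by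
      rw [← ZMod.natCast_zmod_val a, (ZMod.natCast_eq_zero_iff _ p).2 hd])
    exact ⟨τ, by rw [h.det_eq hζ τ hτ, ZMod.natCast_zmod_val]⟩
  · show (r g).map e = 1
    rw [e1]
    exact e.mapMatrix.map_one
  · have hinj : Function.Injective (e.mapMatrix (m := Fin 2)) := Matrix.map_injective e.injective
    refine hinj ?_
    rw [map_mul, map_sub, map_one, map_zero]
    exact hsq

end FA.WeightTwoOrdinary
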