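import Fermat.Agent.WeightTwoOrdinary.Constant
import Fermat.Agent.Tau.PrimeLevelBasis
import Fermat.Agent.Root.Integral.Main
import Fermat.Agent.Root.SummaryRibet

/-!
# Weight two of level `p` inside the ordinary forms of weight `k`

For `k ≡ 2` modulo `p - 1` the reductions of the integral cusp forms of weight two and level `p`
are the ordinary forms of weight `k` modulo `p` with constant term `0`, the polynomials in the
operators acting in the same way.
-/

set_option autoImplicit false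
set_option linter.unusedSectionVars false

noncomputable section

open PowerSeries CongruenceSubgroup ModularCurve CuspForm

namespace FA.WeightTwoOrdinary

open FA.PadicForms FA.OrdinaryProj FA.LambdaHecke FA.LevelOneControl FA.SwinnertonDyer
  FA.OrdinaryCount FA.OrdinaryCongruence FA.LevelPModP

variable {p : ℕ} [Fact p.Prime] {k : ℕ}

/-- The polynomials in the operators of weight two. -/
def formsEval (p : ℕ) [Fact p.Prime] : HeckePoly →+* ↥(heckeAlgebra p 2 ∅) :=
  heckeEvalForms p 2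

/-- The polynomials on the lattice. -/
def latTwo (p : ℕ) [Fact p.Prime] : HeckePoly →+* ↥(heckeLatticeAlgebra p ∅) :=
  FA.Eis.latEval p

/-- The action of a polynomial on the integral cusp forms. -/
def twoAct (p : ℕ) [Fact p.Prime] (r : HeckePoly) : Module.End ℤ ↥(intLattice p 2) :=
  FA.Eis.act (latTwo p r)

theorem twoAct_add (r s : HeckePoly) (f : ↥(intLattice p 2)) :
    twoAct p (r + s) f = twoAct p r f + twoAct p s f := by
  rw [twoAct, map_add (latTwo p)]
  rfl

theorem twoAct_mul (r s : HeckePoly) (f : ↥(intLattice p 2)) :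
    twoAct p (r * s) f = twoAct p r (twoAct p s f) := by
  rw [twoAct, map_mul (latTwo p)]
  rfl

theorem twoAct_C (a : ℤ) (f : ↥(intLattice p 2)) : twoAct p (MvPolynomial.C a) f = a • f :=
  (congrArg (fun t => FA.Eis.act t f) (FA.Eis.latEval_C (p := p) a)).trans (by simp [FA.Eis.act])

/-- The operators on the reductions. -/
theorem red_gen (h5 : 5 ≤ p) (hk : 3 ≤ k) (hk2 : (k : ZMod (p - 1)) = 2)
    (l : {l : ℕ // l.Prime}) (f : ↥(intLattice p 2)) :
    redLattice p (twoAct p (MvPolynomial.X l) f) =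
      tSer ((l.1 : ZMod p) ^ (k - 1)) l.1 (redLattice p f) := by
  refine PowerSeries.ext fun n => ?_
  rw [coeff_redLattice, coeff_tSer, coeff_redLattice, coeff_redLattice,
    show FA.Eis.zCoeff n (twoAct p (MvPolynomial.X l) f) = _ from FA.Eis.zCoeff_gen l f n]
  push_cast
  congr 1
  obtain ⟨l, hl⟩ := l
  by_cases hlp : l = p
  · subst hlp
    rw [if_pos rfl, ZMod.natCast_self, zero_pow (by omega)]
    simp only [zero_mul, ite_self]
  · rw [if_neg hlp, pow_congr l (m := 2) (by omega) le_rfl (by rw [hk2, Nat.cast_two]), pow_one]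

theorem class_succ (h5 : 5 ≤ p) : ((p + 1 : ℕ) : ZMod (p - 1)) = 2 := by
  rw [show p + 1 = p - 1 + 2 by omega, Nat.cast_add, ZMod.natCast_self, zero_add, Nat.cast_two]

/-- The reductions are ordinary. -/
theorem red_mem (h5 : 5 ≤ p) (hk : 3 ≤ k) (hk2 : (k : ZMod (p - 1)) = 2)
    (f : ↥(intLattice p 2)) :
    redLattice p f ∈ ordModP p k ∧ coeff 0 (redLattice p f) = 0 := by
  obtain ⟨h1, h2⟩ := ((redLattice_spec h5).1 _).1 ⟨f, rfl⟩
  refine ⟨mem_ordModP_of_class h5 h1 ((class_succ h5).trans hk2.symm) hk two_pos ?_, h2⟩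
  rw [← uPow_eq_iterate]
  exact uOp_uOp h5 h1

/-- Every ordinary series with constant term `0` is a reduction. -/
theorem exists_of_coeff_zero (h5 : 5 ≤ p) (hk2 : (k : ZMod (p - 1)) = 2)
    {v : PowerSeries (ZMod p)} (hv : v ∈ ordModP p k) (h0 : coeff 0 v = 0) :
    ∃ f : ↥(intLattice p 2), redLattice p f = v := by
  obtain ⟨hv', d, hd, hvd⟩ := (mem_ordModP h5).1 hv
  exact ((redLattice_spec h5).1 v).2 ⟨((mem_ordModP h5).1 (mem_ordModP_of_class (k := p + 1) h5 hv'
    (hk2.trans (class_succ h5).symm) (by omega) hd hvd)).1, h0⟩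

/-- **Equivariance.** -/
theorem redOrd_two (h5 : 5 ≤ p) (hk : 3 ≤ k) (hk2 : (k : ZMod (p - 1)) = 2) (r : HeckePoly)
    {x : ↥(qpSpace p k)} (hx : SupLe (x : PowerSeries ℚ_[p]) 1) {f : ↥(intLattice p 2)}
    (h : redOrd x = redLattice p f) :
    redOrd (act (heckeHom p hk r) x) = redLattice p (twoAct p r f) := by
  induction r using MvPolynomial.induction_on generalizing x f with
  | C a =>
    rw [act_heckeHom_C, redOrd_smul h5 hx, h, twoAct_C, map_zsmul, map_intCast,
      ← Int.cast_smul_eq_zsmul (ZMod p), PowerSeries.smul_eq_C_mul]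
  | add r s hr hs =>
    rw [map_add, show act (heckeHom p hk r + heckeHom p hk s) x =
        act (heckeHom p hk r) x + act (heckeHom p hk s) x from rfl,
      redOrd_add h5 (supLe_heckeHom hk r hx) (supLe_heckeHom hk s hx), hr hx h, hs hx h,
      twoAct_add, map_add]
  | mul_X r l hr =>
    rw [map_mul, show act (heckeHom p hk r * heckeHom p hk (MvPolynomial.X l)) x =
        act (heckeHom p hk r) (act (heckeHom p hk (MvPolynomial.X l)) x) from rfl, twoAct_mul]
    refine hr (supLe_heckeHom hk _ hx) ?_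
    rw [redOrd_tSer h5 (by omega) l.2 (act_heckeHom_X hk l x) hx, h, red_gen h5 hk hk2]

/-- An algebraic integer is integral over `ℤ_p`. -/
theorem mem_intNums_of_isIntegral {ι : ℚ_[p] →+* ℂ} {z : ℂ} (hz : IsIntegral ℤ z) :
    z ∈ intNums ι := by
  obtain ⟨Q, hQ, h⟩ := hz
  refine ⟨Q.map (Int.castRingHom ℤ_[p]), hQ.map _, ?_⟩
  rw [Polynomial.eval₂_map]
  exact (RingHom.ext_int ((iotaInt ι).comp (Int.castRingHom ℤ_[p])) (algebraMap ℤ ℂ)).symm ▸ h

/-- **The system of an eigenform of weight two.** -/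
theorem exists_twoSys (h5 : 5 ≤ p) (ι : ℚ_[p] →+* ℂ) {g : CuspForm (Gamma0 p) 2}
    (hg : g.IsNormalizedEigenform) :
    ∃ ξ : HeckePoly →+* ↥(intNums ι),
      (∀ l : {l : ℕ // l.Prime}, (ξ (MvPolynomial.X l) : ℂ) = FA.Deform.qLin p g l.1) ∧
      (∀ r, (formsEval p r : Module.End ℂ (CuspForm (Gamma0 p) 2)) g = (ξ r : ℂ) • g) ∧
      ∀ r, (∀ f, redLattice p (twoAct p r f) = 0) → ∃ c, ξ r = (p : ↥(intNums ι)) * c := by
  obtain ⟨ξ, hξ⟩ : ∃ ξ : HeckePoly →+* ↥(intNums ι), ∀ l : {l : ℕ // l.Prime},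
      (ξ (MvPolynomial.X l) : ℂ) = FA.Deform.qLin p g l.1 :=
    ⟨MvPolynomial.eval₂Hom (Int.castRingHom _) fun l =>
        ⟨_, mem_intNums_of_isIntegral (ι := ι) (FA.Root.isIntegral_qCoeff_eigenform hg l.1)⟩,
      fun l => by rw [MvPolynomial.eval₂Hom_X']⟩
  -- on every eigenform
  have hev : ∀ (g' : CuspForm (Gamma0 p) 2), g'.IsNormalizedEigenform → ∀ r : HeckePoly,
      ∃ c : ℂ, (formsEval p r : Module.End ℂ (CuspForm (Gamma0 p) 2)) g' = c • g' :=
    fun g' hg' r => FA.JTorsion.exists_eigenvalue ∅ hg' _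
  have heval : ∀ r, (formsEval p r : Module.End ℂ (CuspForm (Gamma0 p) 2)) g =
      (ξ r : ℂ) • g := fun r => by
    induction r using MvPolynomial.induction_on with
    | C a =>
      rw [show ξ (MvPolynomial.C a) = (a : ↥(intNums ι)) by simp, Subring.coe_intCast,
        Int.cast_smul_eq_zsmul]
      refine (congrArg (fun t : ↥(heckeAlgebra p 2 ∅) =>
        (t : Module.End ℂ (CuspForm (Gamma0 p) 2)) g) (heckeEvalForms_C p 2 a)).trans ?_
      simp
    | add r s hr hs =>
      rw [map_add ξ, Subring.coe_add, add_smul, ← hr, ← hs, map_add (formsEval p)]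
      rfl
    | mul_X r l hr =>
      by_cases hlp : l.1 ∣ p
      · rw [map_mul ξ, Subring.coe_mul, hξ, map_mul (formsEval p),
          show formsEval p (MvPolynomial.X l) = _ from
            heckeEvalForms_heckeGen_of_dvd (q := l) hlp, MulMemClass.coe_mul,
          Module.End.mul_apply, heckeAlgebra.coe_U, FA.JTorsion.heckeU_eigen hg l.2 hlp, map_smul,
          hr, smul_smul, mul_comm]
      · rw [map_mul ξ, Subring.coe_mul, hξ, map_mul (formsEval p),
          show formsEval p (MvPolynomial.X l) = _ from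
            heckeEvalForms_heckeGen_of_not_dvd (ℓ := l) hlp, MulMemClass.coe_mul,
          Module.End.mul_apply, heckeAlgebra.coe_T, FA.JTorsion.heckeT_eigen hg l.2 hlp, map_smul,
          hr, smul_smul, mul_comm]
  refine ⟨ξ, hξ, heval, fun r hr => ?_⟩
  -- the coordinate of `g`
  obtain ⟨i, hi⟩ : ∃ i : FA.PrimeLevelBasis.Eigenforms p, i = ⟨g, hg⟩ := ⟨_, rfl⟩
  obtain ⟨lam, hlam⟩ : ∃ lam : CuspForm (Gamma0 p) 2 →ₗ[ℂ] ℂ,
      lam = FA.PrimeLevelBasis.eigenBasis.coord i := ⟨_, rfl⟩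
  have hb : ∀ j : FA.PrimeLevelBasis.Eigenforms p, FA.PrimeLevelBasis.eigenBasis j = j.1 := fun j =>
    Module.Basis.mk_apply _ _ j
  have hlg : lam g = 1 := by
    rw [hlam, show g = FA.PrimeLevelBasis.eigenBasis i by rw [hb, hi],
      Module.Basis.coord_apply, Module.Basis.repr_self, Finsupp.single_eq_same]
  have hcomm : ∀ h, lam ((formsEval p r : Module.End ℂ (CuspForm (Gamma0 p) 2)) h) =
      (ξ r : ℂ) * lam h := fun h => by
    refine LinearMap.congr_fun (f := lam ∘ₗ (formsEval p r :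
      Module.End ℂ (CuspForm (Gamma0 p) 2))) (g := (ξ r : ℂ) • lam)
      (FA.PrimeLevelBasis.eigenBasis.ext fun j => ?_) h
    rw [LinearMap.comp_apply, LinearMap.smul_apply, smul_eq_mul]
    rcases eq_or_ne j i with rfl | hji
    · rw [hb, hi, heval, map_smul, smul_eq_mul]
    · obtain ⟨c, hc⟩ := hev j.1 j.2 r
      have h0 : lam j.1 = 0 := by
        rw [hlam, ← hb, Module.Basis.coord_apply, Module.Basis.repr_self,
          Finsupp.single_eq_of_ne hji.symm]
      rw [hb, hc, map_smul, h0, smul_zero, mul_zero]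
  obtain ⟨M, hM⟩ : ∃ M : Submodule ℤ ℂ, M = (intLattice p 2).map (lam.restrictScalars ℤ) :=
    ⟨_, rfl⟩
  have hp0 : (p : ℂ) ≠ 0 := Nat.cast_ne_zero.2 (Fact.out : p.Prime).ne_zero
  have hne : M ≠ ⊥ := fun e => by
    refine one_ne_zero (α := ℂ) (hlg.symm.trans (LinearMap.congr_fun (f := lam) (g := 0)
      (LinearMap.ext_on (FA.Deform.span_intLattice_eq_top (FA.LTInt.hasIntegralBasis p))
        fun f hf => ?_) g))
    have h : lam f ∈ M := hM ▸ Submodule.mem_map_of_mem hf
    rw [e, Submodule.mem_bot] at h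
    rw [h, LinearMap.zero_apply]
  have hint : IsIntegral ℤ ((ξ r : ℂ) / p) := by
    refine isIntegral_of_smul_mem_submodule M hne (hM ▸ (intLattice_fg p 2).map _) _ fun m hm => ?_
    rw [hM] at hm ⊢
    obtain ⟨f, hf, rfl⟩ := hm
    obtain ⟨G, hG⟩ := (redLattice_spec h5).2 _ (hr ⟨f, hf⟩)
    refine ⟨G, G.2, ?_⟩
    have e : lam ((formsEval p r : Module.End ℂ (CuspForm (Gamma0 p) 2)) f) =
        lam (((p : ℤ) • G : ↥(intLattice p 2)) : CuspForm (Gamma0 p) 2) :=
      congrArg lam (congrArg Subtype.val hG)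
    rw [hcomm, Submodule.coe_smul, map_zsmul, zsmul_eq_mul, Int.cast_natCast] at e
    show lam _ = _ • lam f
    rw [smul_eq_mul, div_mul_eq_mul_div, e, mul_div_cancel_left₀ _ hp0]
  exact ⟨⟨_, mem_intNums_of_isIntegral hint⟩, Subtype.ext (by
    rw [Subring.coe_mul, Subring.coe_natCast]
    exact (mul_div_cancel₀ _ hp0).symm)⟩

end FA.WeightTwoOrdinary

end
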