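import Fermat.Agent.WeightTwoOrdinary.Irreducible
import Fermat.Agent.Density.Traces
import Fermat.Agent.Density.BrauerNesbitt
import Fermat.Agent.Root.SummarySturmModL
import Fermat.Agent.Tau.PrimeLevelOrbits

/-!
# Multiplicity one modulo `p` and uniqueness of the representations

The systems of weight two and level `p` modulo `p` are determined by almost all primes: two
representations have the same traces by Chebotarev, and the Hecke algebra is generated by the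
operators at the small primes. An absolutely irreducible representation is determined by its traces.
-/

set_option autoImplicit false
set_option linter.unusedSectionVars false
set_option synthInstance.maxHeartbeats 400000

noncomputable section

open UpperHalfPlane hiding I
open PowerSeries CongruenceSubgroup ModularCurve CuspForm IsLocalRing Matrix
open scoped MatrixGroups ModularForm

namespace FA.WeightTwoOrdinary

open FA.OrdinaryCount FA.OrdinaryCongruence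

local notation "ZB" => integralClosure ℤ ℂ
local notation "Qb" => AlgebraicClosure ℚ
local notation "GQ" => AlgebraicClosure ℚ ≃ₐ[ℚ] AlgebraicClosure ℚ

variable {p : ℕ} [Fact p.Prime] {K : Type} [Field K] [CharP K p]

/-- `ρ` is attached modulo `p` to `g`: open kernel, unramified outside `p`, at a Frobenius over
`l ≠ p` the trace is the image of `a_l` and the determinant `l`. -/
def IsTwoRep (φ : ZB →+* K) (g : CuspForm (Gamma0 p) 2) (ρ : GQ →* GL (Fin 2) K) : Prop :=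
  IsOpen (ρ.ker : Set GQ) ∧ ∀ l : ℕ, l.Prime → l ≠ p →
    ∀ A : ValuationSubring Qb, (l : Qb) ∈ A.nonunits →
      (∀ σ ∈ A.inertiaSubgroup ℚ, ρ σ = 1) ∧
      ∀ σ : A.decompositionSubgroup ℚ, (∀ x : ResidueField A, σ • x = x ^ l) →
        ∃ c : ZB, (c : ℂ) = FA.Deform.qLin p g l ∧
          (ρ σ).val.trace = φ c ∧ (ρ σ).val.det = (l : K)

theorem exists_isTwoRep (φ : ZB →+* K) {g : CuspForm (Gamma0 p) 2}
    (hg : g.IsNormalizedEigenform) : ∃ ρ, IsTwoRep φ g ρ := by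
  have hp : p.Prime := Fact.out
  obtain ⟨ρ, hopen, hρ⟩ := FA.Summary.eigenform_residual_representation g hg.qCoeff_one
    hg.qCoeff_mul_of_coprime hg.qCoeff_prime_pow_of_not_dvd hg.qCoeff_prime_pow_of_dvd hp φ
  exact ⟨ρ, hopen, fun l hl hlp A hA => hρ l hl (fun hd => hlp (by
    rcases hl.dvd_mul.1 hd with h | h <;> exact (Nat.prime_dvd_prime_iff_eq hl hp).1 h)) A hA⟩

/-- The representation of a form of level one is one of each congruent form of weight two. -/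
theorem isTwoRep_of_isResidualRep {k : ℕ} (hk : 2 ≤ k) (hk2 : (k : ZMod (p - 1)) = 2)
    {ι : ℚ_[p] →+* ℂ} (φ : ↥(intNums ι) →+* K) {F : ModularForm 𝒮ℒ (k : ℤ)}
    {g : CuspForm (Gamma0 p) 2} (hg : g.IsNormalizedEigenform)
    (hc : ∀ l : ℕ, l.Prime → ∃ u : ↥(intNums ι), φ u = 0 ∧
      (u : ℂ) = (qExpansion 1 ⇑F).coeff l - FA.Deform.qLin p g l)
    {ρ : GQ →* GL (Fin 2) K} (hρ : IsResidualRep φ F ρ) : IsTwoRep (φ.comp (algEmb ι)) g ρ := by
  refine ⟨hρ.1, fun l hl hlp A hA => ?_⟩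
  obtain ⟨hI, hFr⟩ := hρ.2 l hl hlp A hA
  refine ⟨hI, fun σ hσ => ?_⟩
  obtain ⟨b, hb, htr, hdet⟩ := hFr σ hσ
  obtain ⟨u, hu', hue⟩ := hc l hl
  obtain ⟨c, hc'⟩ : ∃ c : ZB, (c : ℂ) = FA.Deform.qLin p g l :=
    ⟨⟨_, FA.Root.isIntegral_qCoeff_eigenform hg l⟩, rfl⟩
  refine ⟨c, hc', ?_, ?_⟩
  · have e : b = algEmb ι c + u := Subtype.ext (by
      rw [Subring.coe_add, hue, hb, show ((algEmb ι c : ↥(intNums ι)) : ℂ) = (c : ℂ) from rfl, hc',
        add_sub_cancel])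
    rw [htr, RingHom.comp_apply, e, map_add, hu', add_zero]
  · rw [hdet, ← map_natCast (ZMod.castHom (dvd_refl p) K) l, ← map_pow,
      pow_congr l hk le_rfl (by rw [hk2, Nat.cast_two]), pow_one]

/-- Agreement at almost all Frobenius elements spreads to all elements. -/
theorem trace_eq_of_frobenius (ρ ρ' : GQ →* GL (Fin 2) K) (ho : IsOpen (ρ.ker : Set GQ))
    (ho' : IsOpen (ρ'.ker : Set GQ)) (S : Finset ℕ)
    (h : ∀ q : ℕ, q.Prime → q ∉ S → ∀ A : ValuationSubring Qb, A.LiesOverPrime q →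
      ∀ σ : GQ, A.IsFrobeniusAt σ q →
        (ρ σ).val.trace = (ρ' σ).val.trace ∧ (ρ σ).val.det = (ρ' σ).val.det) (s : GQ) :
    (ρ s).val.trace = (ρ' s).val.trace :=
  (FA.Density.trace_det_eq_of_frobenius ((Units.coeHom _).comp ρ) ((Units.coeHom _).comp ρ')
    (Subgroup.isOpen_mono (fun σ hσ => MonoidHom.mem_ker.2 (by
      rw [MonoidHom.comp_apply, MonoidHom.mem_ker.1 hσ, map_one])) ho)
    (Subgroup.isOpen_mono (fun σ hσ => MonoidHom.mem_ker.2 (by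
      rw [MonoidHom.comp_apply, MonoidHom.mem_ker.1 hσ, map_one])) ho') S h s).1

/-- The values of two systems agree away from `p` once they do at almost all primes. -/
theorem values_eq_of_almost_all (φ : ZB →+* K) {g g' : CuspForm (Gamma0 p) 2}
    {ρ ρ' : GQ →* GL (Fin 2) K} (hρ : IsTwoRep φ g ρ) (hρ' : IsTwoRep φ g' ρ') (S : Finset ℕ)
    (h : ∀ l : ℕ, l.Prime → l ∉ S → ∀ c c' : ZB, (c : ℂ) = FA.Deform.qLin p g l →
      (c' : ℂ) = FA.Deform.qLin p g' l → φ c = φ c') :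
    (∀ s, (ρ s).val.trace = (ρ' s).val.trace) ∧
    ∀ l : ℕ, l.Prime → l ≠ p → ∀ c c' : ZB, (c : ℂ) = FA.Deform.qLin p g l →
      (c' : ℂ) = FA.Deform.qLin p g' l → φ c = φ c' := by
  classical
  have htr : ∀ s, (ρ s).val.trace = (ρ' s).val.trace :=
    trace_eq_of_frobenius ρ ρ' hρ.1 hρ'.1 (insert p S) fun q hq hqS A hA σ hσ => by
      rw [Finset.mem_insert, not_or] at hqS
      obtain ⟨hσd, hσf⟩ := hσ
      obtain ⟨c, hc, ht, hd⟩ := (hρ.2 q hq hqS.1 A hA).2 ⟨σ, hσd⟩ hσf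
      obtain ⟨c', hc', ht', hd'⟩ := (hρ'.2 q hq hqS.1 A hA).2 ⟨σ, hσd⟩ hσf
      exact ⟨ht.trans ((h q hq hqS.2 c c' hc hc').trans ht'.symm), hd.trans hd'.symm⟩
  refine ⟨htr, fun l hl hlp c c' hc hc' => ?_⟩
  obtain ⟨A, hA⟩ := FA.Deform.exists_liesOverPrime hl
  obtain ⟨σ, hσd, hσf⟩ := FA.Deform.exists_isFrobeniusAt hl hA
  obtain ⟨d, hd, ht, -⟩ := (hρ.2 l hl hlp A hA).2 ⟨σ, hσd⟩ hσf
  obtain ⟨d', hd', ht', -⟩ := (hρ'.2 l hl hlp A hA).2 ⟨σ, hσd⟩ hσf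
  rw [show c = d from Subtype.ext (hc.trans hd.symm),
    show c' = d' from Subtype.ext (hc'.trans hd'.symm)]
  exact ht.symm.trans ((htr σ).trans ht')

/-- The character of an eigenform with values in the algebraic integers. -/
theorem exists_charZB {g : CuspForm (Gamma0 p) 2} (hg : g.IsNormalizedEigenform) :
    ∃ χ : FA.Mazur.TAlg p →+* ZB, ∀ n,
      (χ (FA.Mazur.hCoeff p n) : ℂ) = FA.Deform.qLin p g n := by
  have : Module.Finite ℤ (FA.Mazur.TAlg p) := FA.Period.moduleFinite_heckeAlgebra p 2 ∅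
  exact ⟨(FA.PrimeLevelOrbits.charOf ⟨g, hg⟩).codRestrict (integralClosure ℤ ℂ) fun t =>
    (Algebra.IsIntegral.isIntegral (R := ℤ) t).map
      (FA.PrimeLevelOrbits.charOf ⟨g, hg⟩).toIntAlgHom,
    fun n => (FA.PrimeLevelOrbits.charOf_hCoeff ⟨g, hg⟩ n).trans (FA.Deform.qLin_apply _ _).symm⟩

/-- **Multiplicity one modulo `p`.** -/
theorem two_eq_of_almost_all (φ : ZB →+* K) {g g' : CuspForm (Gamma0 p) 2}
    (hg : g.IsNormalizedEigenform) (hg' : g'.IsNormalizedEigenform) (S : Finset ℕ)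
    (h : ∀ l : ℕ, l.Prime → l ∉ S → ∀ c c' : ZB, (c : ℂ) = FA.Deform.qLin p g l →
      (c' : ℂ) = FA.Deform.qLin p g' l → φ c = φ c') (n : ℕ) (c c' : ZB)
    (hc : (c : ℂ) = FA.Deform.qLin p g n) (hc' : (c' : ℂ) = FA.Deform.qLin p g' n) :
    φ c = φ c' := by
  obtain ⟨ρ, hρ⟩ := exists_isTwoRep φ hg
  obtain ⟨ρ', hρ'⟩ := exists_isTwoRep φ hg'
  obtain ⟨-, hl⟩ := values_eq_of_almost_all φ hρ hρ' S h
  obtain ⟨χ, hχ⟩ := exists_charZB hg
  obtain ⟨χ', hχ'⟩ := exists_charZB hg'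
  have e : φ.comp χ = φ.comp χ' := FA.Summary.prime_level_character_ext fun q hq => by
    rw [RingHom.comp_apply, RingHom.comp_apply, ← FA.Mazur.hCoeff_prime]
    exact hl q q.2 (by have := q.2.two_le; omega) _ _ (hχ q) (hχ' q)
  rw [show c = χ (FA.Mazur.hCoeff p n) from Subtype.ext (hc.trans (hχ n).symm),
    show c' = χ' (FA.Mazur.hCoeff p n) from Subtype.ext (hc'.trans (hχ' n).symm)]
  exact RingHom.congr_fun e _

/-- No stable line after any extension of the field. -/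
theorem two_no_stable_line_ext (h5 : 5 ≤ p) {φ : ZB →+* K} {g : CuspForm (Gamma0 p) 2}
    (hg : g.IsNormalizedEigenform) {ρ : GQ →* GL (Fin 2) K} (hρ : IsTwoRep φ g ρ) (L : Type)
    [Field L] [Algebra K L] {v : Fin 2 → L} (hv : v ≠ 0) :
    ∃ σ, ∀ c : L, (ρ σ).val.map (algebraMap K L) *ᵥ v ≠ c • v := by
  have : CharP L p := charP_of_injective_algebraMap (algebraMap K L).injective p
  obtain ⟨ρ', hρ'⟩ : ∃ ρ' : GQ →* GL (Fin 2) L,
      ∀ σ, (ρ' σ).val = (ρ σ).val.map (algebraMap K L) :=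
    ⟨(Units.map (algebraMap K L).mapMatrix.toMonoidHom).comp ρ, fun σ => rfl⟩
  have h1 : ∀ σ, ρ σ = 1 → ρ' σ = 1 := fun σ hσ => Units.ext (by
    rw [hρ', hσ, Units.val_one]
    exact (algebraMap K L).mapMatrix.map_one)
  obtain ⟨σ, hσ⟩ := two_no_stable_line h5 ((algebraMap K L).comp φ) hg ρ'
    (Subgroup.isOpen_mono (fun σ hσ => MonoidHom.mem_ker.2 (h1 σ (MonoidHom.mem_ker.1 hσ))) hρ.1)
    (fun l hl hlp A hA => ⟨fun σ hσ => h1 _ ((hρ.2 l hl hlp A hA).1 σ hσ), fun σ hσ => by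
      obtain ⟨c, hc, ht, hd⟩ := (hρ.2 l hl hlp A hA).2 σ hσ
      refine ⟨c, hc, ?_, ?_⟩
      · rw [hρ', RingHom.comp_apply, ← ht]
        exact (AddMonoidHom.map_trace (algebraMap K L).toAddMonoidHom _).symm
      · rw [hρ', ← map_natCast (algebraMap K L), ← hd]
        exact ((algebraMap K L).map_det _).symm⟩) hv
  exact ⟨σ, fun c => hρ' σ ▸ hσ c⟩

/-- Conjugate representations. -/
def IsConjRep (ρ ρ' : GQ →* GL (Fin 2) K) : Prop :=
  ∃ Q : GL (Fin 2) K, ∀ σ, ρ' σ = Q * ρ σ * Q⁻¹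

theorem IsConjRep.trace {ρ ρ' : GQ →* GL (Fin 2) K} (h : IsConjRep ρ ρ') (σ : GQ) :
    (ρ σ).val.trace = (ρ' σ).val.trace ∧ (ρ σ).val.det = (ρ' σ).val.det := by
  obtain ⟨Q, hQ⟩ := h
  rw [hQ, Units.val_mul, Units.val_mul, Matrix.trace_units_conj, Matrix.det_units_conj]
  exact ⟨rfl, rfl⟩

/-- **Representations of congruent forms are conjugate.** -/
theorem two_conj (h5 : 5 ≤ p) (φ : ZB →+* K) {g g' : CuspForm (Gamma0 p) 2}
    (hg : g.IsNormalizedEigenform) {ρ ρ' : GQ →* GL (Fin 2) K} (hρ : IsTwoRep φ g ρ)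
    (hρ' : IsTwoRep φ g' ρ') (S : Finset ℕ)
    (h : ∀ l : ℕ, l.Prime → l ∉ S → ∀ c c' : ZB, (c : ℂ) = FA.Deform.qLin p g l →
      (c' : ℂ) = FA.Deform.qLin p g' l → φ c = φ c') : IsConjRep ρ ρ' := by
  obtain ⟨htr, -⟩ := values_eq_of_almost_all φ hρ hρ' S h
  obtain ⟨P, hP, hcomm⟩ := FA.Density.exists_conj_of_trace_eq ((Units.coeHom _).comp ρ)
    ((Units.coeHom _).comp ρ')
    (FA.Density.span_range_eq_top _ (AlgebraicClosure K) fun v hv =>
      two_no_stable_line_ext h5 hg hρ (AlgebraicClosure K) hv) htr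
  obtain ⟨Q, rfl⟩ := (Matrix.isUnit_iff_isUnit_det P).2 hP
  exact ⟨Q, fun σ => eq_mul_inv_iff_mul_eq.2 (Units.ext (hcomm σ))⟩

/-- Conjugate representations come from congruent forms only. -/
theorem values_eq_of_conj (φ : ZB →+* K) {g g' : CuspForm (Gamma0 p) 2}
    (hg : g.IsNormalizedEigenform) (hg' : g'.IsNormalizedEigenform)
    {ρ ρ' : GQ →* GL (Fin 2) K} (hρ : IsTwoRep φ g ρ) (hρ' : IsTwoRep φ g' ρ')
    (h : IsConjRep ρ ρ') (n : ℕ) (c c' : ZB) (hc : (c : ℂ) = FA.Deform.qLin p g n)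
    (hc' : (c' : ℂ) = FA.Deform.qLin p g' n) : φ c = φ c' := by
  refine two_eq_of_almost_all φ hg hg' {p} (fun l hl hlp d d' hd hd' => ?_) n c c' hc hc'
  rw [Finset.mem_singleton] at hlp
  obtain ⟨A, hA⟩ := FA.Deform.exists_liesOverPrime hl
  obtain ⟨σ, hσd, hσf⟩ := FA.Deform.exists_isFrobeniusAt hl hA
  obtain ⟨e, he, ht, -⟩ := (hρ.2 l hl hlp A hA).2 ⟨σ, hσd⟩ hσf
  obtain ⟨e', he', ht', -⟩ := (hρ'.2 l hl hlp A hA).2 ⟨σ, hσd⟩ hσf
  rw [show d = e from Subtype.ext (hd.trans he.symm),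
    show d' = e' from Subtype.ext (hd'.trans he'.symm)]
  exact ht.symm.trans ((h.trace σ).1.trans ht')

/-- **Multiplicity one in the class of `2`.** -/
theorem one_eq_of_almost_all (h5 : 5 ≤ p) {k m : ℕ} (hk : 3 ≤ k) (hm : 3 ≤ m) (hev : Even k)
    (hev' : Even m) (hk2 : (k : ZMod (p - 1)) = 2) (hm2 : (m : ZMod (p - 1)) = 2)
    {ι : ℚ_[p] →+* ℂ} (φ : ↥(intNums ι) →+* K) {F : ModularForm 𝒮ℒ (k : ℤ)}
    {G : ModularForm 𝒮ℒ (m : ℤ)} (hF : IsEigenForm F) (hFu : IsUnitAt ι F)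
    (hF0 : (qExpansion 1 ⇑F).coeff 0 = 0) (hG : IsEigenForm G) (hGu : IsUnitAt ι G)
    (hG0 : (qExpansion 1 ⇑G).coeff 0 = 0) (S : Finset ℕ)
    (h : ∀ l : ℕ, l.Prime → l ∉ S → ∃ u : ↥(intNums ι), φ u = 0 ∧
      (u : ℂ) = (qExpansion 1 ⇑F).coeff l - (qExpansion 1 ⇑G).coeff l) (n : ℕ) :
    ∃ u : ↥(intNums ι), φ u = 0 ∧
      (u : ℂ) = (qExpansion 1 ⇑F).coeff n - (qExpansion 1 ⇑G).coeff n := by
  have hP := RingHom.ker_isPrime φ
  obtain ⟨g, hg, hc⟩ := exists_two_of_one h5 hk hev hk2 ι (RingHom.ker φ) (natCast_mem_ker φ)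
    hF hFu hF0
  obtain ⟨g', hg', hc'⟩ := exists_two_of_one h5 hm hev' hm2 ι (RingHom.ker φ) (natCast_mem_ker φ)
    hG hGu hG0
  have hcoe : ∀ c : ZB, ((algEmb ι c : ↥(intNums ι)) : ℂ) = (c : ℂ) := fun c => rfl
  rcases Nat.eq_zero_or_pos n with rfl | hn
  · exact ⟨0, map_zero φ, by rw [hF0, hG0, sub_self]; rfl⟩
  obtain ⟨u, hu, hue⟩ := hc n hn
  obtain ⟨v, hv, hve⟩ := hc' n hn
  obtain ⟨c, hcn⟩ : ∃ c : ZB, (c : ℂ) = FA.Deform.qLin p g n :=
    ⟨⟨_, FA.Root.isIntegral_qCoeff_eigenform hg n⟩, rfl⟩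
  obtain ⟨d, hdn⟩ : ∃ d : ZB, (d : ℂ) = FA.Deform.qLin p g' n :=
    ⟨⟨_, FA.Root.isIntegral_qCoeff_eigenform hg' n⟩, rfl⟩
  have key := two_eq_of_almost_all (φ.comp (algEmb ι)) hg hg' S
    (fun l hl hlS a a' ha ha' => by
      obtain ⟨x, hx, hxe⟩ := h l hl hlS
      obtain ⟨y, hy, hye⟩ := hc l hl.one_le
      obtain ⟨z, hz, hze⟩ := hc' l hl.one_le
      have e : algEmb ι a - algEmb ι a' = x - y + z := Subtype.ext (by
        rw [AddSubgroupClass.coe_sub, Subring.coe_add, AddSubgroupClass.coe_sub, hcoe, hcoe, ha,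
          ha', hxe, hye, hze]
        ring)
      rw [RingHom.comp_apply, RingHom.comp_apply, ← sub_eq_zero, ← map_sub, e, map_add, map_sub,
        hx, RingHom.mem_ker.1 hy, RingHom.mem_ker.1 hz, sub_self, add_zero]) n c d hcn hdn
  refine ⟨u - v + (algEmb ι c - algEmb ι d), ?_, ?_⟩
  · rw [map_add, map_sub, map_sub, RingHom.mem_ker.1 hu, RingHom.mem_ker.1 hv, sub_self, zero_add,
      sub_eq_zero]
    exact key
  · rw [Subring.coe_add, AddSubgroupClass.coe_sub, AddSubgroupClass.coe_sub, hue, hve, hcoe, hcoe,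
      hcn, hdn]
    ring

/-- **Congruent ordinary forms have conjugate representations, and only they.** -/
theorem one_conj_iff (h5 : 5 ≤ p) {k m : ℕ} (hk : 3 ≤ k) (hm : 3 ≤ m) (hev : Even k)
    (hev' : Even m) (hk2 : (k : ZMod (p - 1)) = 2) (hm2 : (m : ZMod (p - 1)) = 2)
    {ι : ℚ_[p] →+* ℂ} (φ : ↥(intNums ι) →+* K) {F : ModularForm 𝒮ℒ (k : ℤ)}
    {G : ModularForm 𝒮ℒ (m : ℤ)} (hF : IsEigenForm F) (hFu : IsUnitAt ι F)
    (hF0 : (qExpansion 1 ⇑F).coeff 0 = 0) (hG : IsEigenForm G) (hGu : IsUnitAt ι G)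
    (hG0 : (qExpansion 1 ⇑G).coeff 0 = 0) {ρ ρ' : GQ →* GL (Fin 2) K}
    (hρ : IsResidualRep φ F ρ) (hρ' : IsResidualRep φ G ρ') :
    IsConjRep ρ ρ' ↔ ∀ n, ∃ u : ↥(intNums ι), φ u = 0 ∧
      (u : ℂ) = (qExpansion 1 ⇑F).coeff n - (qExpansion 1 ⇑G).coeff n := by
  refine ⟨fun h => one_eq_of_almost_all h5 hk hm hev hev' hk2 hm2 φ hF hFu hF0 hG hGu hG0 {p}
    fun l hl hlp => ?_, fun h => ?_⟩
  · rw [Finset.mem_singleton] at hlp
    obtain ⟨A, hA⟩ := FA.Deform.exists_liesOverPrime hl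
    obtain ⟨σ, hσd, hσf⟩ := FA.Deform.exists_isFrobeniusAt hl hA
    obtain ⟨b, hb, ht, -⟩ := (hρ.2 l hl hlp A hA).2 ⟨σ, hσd⟩ hσf
    obtain ⟨b', hb', ht', -⟩ := (hρ'.2 l hl hlp A hA).2 ⟨σ, hσd⟩ hσf
    exact ⟨b - b', by rw [map_sub, ← ht, ← ht', (h.trace σ).1, sub_self],
      by rw [AddSubgroupClass.coe_sub, hb, hb']⟩
  · have hP := RingHom.ker_isPrime φ
    obtain ⟨g, hg, hc⟩ := exists_two_of_one h5 hk hev hk2 ι (RingHom.ker φ) (natCast_mem_ker φ)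
      hF hFu hF0
    refine two_conj h5 (φ.comp (algEmb ι)) hg
      (isTwoRep_of_isResidualRep (by omega) hk2 φ hg (fun l hl => hc l hl.one_le) hρ)
      (isTwoRep_of_isResidualRep (by omega) hm2 φ hg (fun l hl => ?_) hρ') ∅ fun l _ _ c c' hc hc' =>
        by rw [show c = c' from Subtype.ext (hc.trans hc'.symm)]
    obtain ⟨u, hu, hue⟩ := h l
    obtain ⟨v, hv, hve⟩ := hc l hl.one_le
    exact ⟨v - u, by rw [map_sub, RingHom.mem_ker.1 hv, hu, sub_self],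
      by rw [AddSubgroupClass.coe_sub, hve, hue, sub_sub_sub_cancel_left]⟩

end FA.WeightTwoOrdinary

end
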